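import Mathlib
import Fermat.Prelude.Def_ModularCurve_LaurentCoeff

/-!
# Crux / GM-AlgClosed : `K` is algebraically closed in `K((q))`; hypothesis (H0) of Theorem G

PROOF SKETCH.  Let `z ≠ 0` be algebraic over `K`, `P(z) = 0`, `P ≠ 0`.
* `z.order = 0`: if `z.order ≠ 0` the nonzero terms `a_i z^i` have pairwise distinct orders
  `i * z.order`, so their sum cannot vanish (compare `S28.transcendental_jqModC`,
  `S24.transcendental_jN`).
* apply this to `z - C (z.coeff 0)`, which is algebraic of order `> 0` unless it is `0`.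
NB: the `K`-algebra structure on `LaurentSeries K`: use `ModularCurve.algebraMap_laurentSeries_eq_single`.

(Actual proof: a power series `w` without constant term which is algebraic over `K` vanishes, since
the constant coefficient of its minimal polynomial is `P(w)(0) = 0`.)
-/

set_option autoImplicit false

namespace Fermat.Agent.Crux.GM

theorem AlgClosed.algebraMap_eq_C {K : Type*} [Field K] :
    algebraMap K (LaurentSeries K) = (HahnSeries.C : K →+* LaurentSeries K) := by
  ext1 c
  rw [ModularCurve.algebraMap_laurentSeries_eq_single]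
  rfl

/-- `K[[X]] → K((X))` as a `K`-algebra map. -/
noncomputable def AlgClosed.ofPS (K : Type*) [Field K] : PowerSeries K →ₐ[K] LaurentSeries K :=
  { HahnSeries.ofPowerSeries ℤ K with
    commutes' := fun r => by
      rw [AlgClosed.algebraMap_eq_C]
      exact HahnSeries.ofPowerSeries_C r }

/-- the constant coefficient as a `K`-algebra map. -/
noncomputable def AlgClosed.cc (K : Type*) [Field K] : PowerSeries K →ₐ[K] K :=
  { PowerSeries.constantCoeff (R := K) with
    commutes' := fun r => by
      show PowerSeries.constantCoeff (algebraMap K (PowerSeries K) r) = r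
      rw [PowerSeries.algebraMap_apply]
      simp }

theorem AlgClosed.eq_zero_of_isAlgebraic {K : Type*} [Field K] (w : PowerSeries K)
    (h0 : PowerSeries.constantCoeff w = 0)
    (hw : IsAlgebraic K (HahnSeries.ofPowerSeries ℤ K w : LaurentSeries K)) : w = 0 := by
  have hint : IsIntegral K (AlgClosed.ofPS K w) := hw.isIntegral
  have h1 : Polynomial.aeval (AlgClosed.ofPS K w) (minpoly K (AlgClosed.ofPS K w)) = 0 :=
    minpoly.aeval _ _
  rw [Polynomial.aeval_algHom_apply] at h1
  have h2 : Polynomial.aeval w (minpoly K (AlgClosed.ofPS K w)) = 0 := by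
    apply HahnSeries.ofPowerSeries_injective (Γ := ℤ)
    rw [map_zero]
    exact h1
  have h3 := congrArg (AlgClosed.cc K) h2
  rw [← Polynomial.aeval_algHom_apply, map_zero] at h3
  have h4 : AlgClosed.cc K w = 0 := h0
  rw [h4, ← Polynomial.coeff_zero_eq_aeval_zero, minpoly.coeff_zero_eq_zero hint] at h3
  apply HahnSeries.ofPowerSeries_injective (Γ := ℤ)
  rw [map_zero]
  exact h3

theorem AlgClosed.key {K : Type*} [Field K] (z : LaurentSeries K) (hz : IsAlgebraic K z)
    (hneg : ∀ n : ℤ, n < 0 → z.coeff n = 0) : z = HahnSeries.C (z.coeff 0) := by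
  set w : PowerSeries K := PowerSeries.mk fun n => z.coeff n with hw
  have hwz : HahnSeries.ofPowerSeries ℤ K w = z := by
    ext n
    have := PowerSeries.coeff_coe w n
    rw [this]
    split_ifs with hn
    · exact (hneg n hn).symm
    · rw [hw, PowerSeries.coeff_mk]
      congr 1
      omega
  have h1 : w - PowerSeries.C (z.coeff 0) = 0 := by
    apply AlgClosed.eq_zero_of_isAlgebraic
    · rw [map_sub, PowerSeries.constantCoeff_C, hw, ← PowerSeries.coeff_zero_eq_constantCoeff_apply,
        PowerSeries.coeff_mk]
      simp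
    · rw [map_sub, hwz, HahnSeries.ofPowerSeries_C, ← AlgClosed.algebraMap_eq_C]
      exact hz.sub (isAlgebraic_algebraMap _)
  rw [← hwz, sub_eq_zero.1 h1, HahnSeries.ofPowerSeries_C]
  congr 1
  rw [HahnSeries.C_apply, HahnSeries.coeff_single_same]

theorem eq_C_of_isAlgebraic {K : Type*} [Field K] (z : LaurentSeries K) (hz : IsAlgebraic K z) :
    ∃ c : K, z = HahnSeries.C c := by
  by_cases h : ∀ n : ℤ, n < 0 → z.coeff n = 0
  · exact ⟨_, AlgClosed.key z hz h⟩
  · exfalso
    push Not at h
    obtain ⟨n, hn, hzn⟩ := h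
    have hz0 : z ≠ 0 := by
      rintro rfl
      exact hzn rfl
    have hord : z.order < 0 := lt_of_le_of_lt (HahnSeries.order_le_of_coeff_ne_zero hzn) hn
    have hinv0 : z⁻¹ ≠ 0 := inv_ne_zero hz0
    have hsum : z.order + z⁻¹.order = 0 := by
      rw [← HahnSeries.order_mul hz0 hinv0, mul_inv_cancel₀ hz0, HahnSeries.order_one]
    have hpos : 0 < z⁻¹.order := by omega
    have hk := AlgClosed.key z⁻¹ hz.inv
      (fun m hm => HahnSeries.coeff_eq_zero_of_lt_order (lt_trans hm hpos))
    rw [HahnSeries.coeff_eq_zero_of_lt_order hpos, map_zero] at hk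
    exact hinv0 hk

/-- (H0): an element of `K((q))` which is a root of a monic polynomial with coefficients in an
integrally closed domain `A` with fraction field `K` is a constant from `A`. -/
theorem eq_C_of_isIntegralElem {A K : Type*} [CommRing A] [IsDomain A] [IsIntegrallyClosed A]
    [Field K] [Algebra A K] [IsFractionRing A K] (z : LaurentSeries K)
    (hz : ((HahnSeries.C : K →+* LaurentSeries K).comp (algebraMap A K)).IsIntegralElem z) :
    ∃ a : A, z = HahnSeries.C (algebraMap A K a) := by
  obtain ⟨P, hP, hPz⟩ := hz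
  have halg : IsAlgebraic K z := by
    refine ⟨P.map (algebraMap A K), (hP.map _).ne_zero, ?_⟩
    rw [Polynomial.aeval_def, Polynomial.eval₂_map, AlgClosed.algebraMap_eq_C]
    exact hPz
  obtain ⟨c, rfl⟩ := eq_C_of_isAlgebraic z halg
  have hc : IsIntegral A c := by
    refine ⟨P, hP, ?_⟩
    apply (HahnSeries.C : K →+* LaurentSeries K).injective
    rw [map_zero, Polynomial.hom_eval₂]
    exact hPz
  obtain ⟨a, rfl⟩ := IsIntegrallyClosed.isIntegral_iff.1 hc
  exact ⟨a, rfl⟩

end Fermat.Agent.Crux.GM
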