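import Fermat.Agent.Crux.GM.Deg
import Fermat.Agent.Crux.GM.AlgClosed
import Fermat.Agent.S28.FormalBasic

/-!
# Crux / GM-CoordH : auxiliary lemmas on `V ℤ e h` (orders, casts, the identity `P(x) = j_M x`)
-/

set_option autoImplicit false

open ModularCurve Polynomial
open scoped IntermediateField

namespace Fermat.Agent.Crux.GM

open Fermat.Agent.S28

namespace CoordHAux

theorem coeff_V_self (e : ℕ) [NeZero e] (h : LaurentSeries ℤ) (ho : h.order = -1)
    (hl : h.leadingCoeff = 1) : (V ℤ e h).coeff (-(e : ℤ)) = 1 := by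
  have h1 : (-(e : ℤ)) = (e : ℤ) * (-1) := by ring
  rw [h1, qExpand_coeff_mul, ← ho, ← HahnSeries.leadingCoeff_eq, hl]

theorem coeff_V_of_lt (e : ℕ) [NeZero e] (h : LaurentSeries ℤ) (ho : h.order = -1) {k : ℤ}
    (hk : k < -(e : ℤ)) : (V ℤ e h).coeff k = 0 := by
  by_cases hd : (e : ℤ) ∣ k
  · obtain ⟨m, rfl⟩ := hd
    rw [qExpand_coeff_mul]
    apply HahnSeries.coeff_eq_zero_of_lt_order
    rw [ho]
    have he : (0 : ℤ) < e := by exact_mod_cast Nat.pos_of_ne_zero (NeZero.ne e)
    nlinarith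
  · exact qExpand_coeff_of_not_dvd e _ hd

theorem order_V (e : ℕ) [NeZero e] (h : LaurentSeries ℤ) (ho : h.order = -1)
    (hl : h.leadingCoeff = 1) : (V ℤ e h).order = -(e : ℤ) := by
  have h1 : (V ℤ e h).coeff (-(e : ℤ)) ≠ 0 := by rw [coeff_V_self e h ho hl]; exact one_ne_zero
  have hx : V ℤ e h ≠ 0 := by
    intro h0
    rw [h0] at h1
    exact h1 rfl
  refine le_antisymm (HahnSeries.order_le_of_coeff_ne_zero h1) ?_
  by_contra hlt
  push Not at hlt
  exact (HahnSeries.coeff_order_eq_zero.not.mpr hx) (coeff_V_of_lt e h ho hlt)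

theorem leadingCoeff_V (e : ℕ) [NeZero e] (h : LaurentSeries ℤ) (ho : h.order = -1)
    (hl : h.leadingCoeff = 1) : (V ℤ e h).leadingCoeff = 1 := by
  rw [HahnSeries.leadingCoeff_eq, order_V e h ho hl, coeff_V_self e h ho hl]

theorem castS_V (R : Type*) [CommRing R] (e : ℕ) [NeZero e] (h : LaurentSeries ℤ) :
    castS R (V ℤ e h) = V R e (castS R h) := coeffMap_qExpand _ e h

theorem order_castS' {R : Type*} [CommRing R] [Nontrivial R] (xh : LaurentSeries ℤ)
    (h1 : xh.leadingCoeff = 1) : (castS R xh).order = xh.order := by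
  have hco : (castS R xh).coeff xh.order = 1 := by
    rw [castS, coeffMap_coeff, ← HahnSeries.leadingCoeff_eq, h1, map_one]
  have hne : castS R xh ≠ 0 := by
    intro h
    rw [h, HahnSeries.coeff_zero] at hco
    exact zero_ne_one hco
  apply le_antisymm
  · apply HahnSeries.order_le_of_coeff_ne_zero
    rw [hco]
    exact one_ne_zero
  · apply HahnSeries.order_le_of_coeff_ne_zero
    intro h
    apply hne
    rw [← HahnSeries.coeff_order_eq_zero, castS, coeffMap_coeff, h, map_zero]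

theorem transcendental_castS (K : Type*) [Field K] (xh : LaurentSeries ℤ) (h1 : xh.leadingCoeff = 1)
    (h2 : xh.order < 0) : Transcendental K (castS K xh) := by
  intro h
  obtain ⟨c, hc⟩ := eq_C_of_isAlgebraic (castS K xh) h
  have h3 := order_castS' (R := K) xh h1
  rw [hc, HahnSeries.order_C] at h3
  omega

/-- `castS K (V ℤ e h) ∈ F_{K, M0 e}` -/
theorem mem_full_V (K : Type*) [Field K] (M0 e : ℕ) [NeZero M0] [NeZero e] (h : LaurentSeries ℤ)
    (hm : castS K h ∈ modularFunctionFieldFullC K M0) :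
    castS K (V ℤ e h) ∈ modularFunctionFieldFullC K (M0 * e) := by
  rw [castS_V]
  apply full_degeneracyC_map_le K M0 e
  exact ⟨castS K h, hm, rfl⟩

/-- the identity `P(x) = j_M x` for `x = V e h`, over any field -/
theorem ident_castS (K : Type) [Field K] (M0 e : ℕ) [NeZero M0] [NeZero e] [NeZero (M0 * e)]
    (h : LaurentSeries ℤ) (P : ℤ[X]) (hid : evAt h P = V ℤ M0 (J ℤ) * h) :
    aeval (castS K (V ℤ e h)) (P.map (Int.castRingHom K))
      = V K (M0 * e) (J K) * castS K (V ℤ e h) := by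
  have h1 : evAt (V ℤ e h) P = V ℤ (M0 * e) (J ℤ) * V ℤ e h := by
    rw [← Build.V_evAt, hid, map_mul, qExpand_qExpand]
    have : NeZero (e * M0) := ⟨Nat.mul_ne_zero (NeZero.ne e) (NeZero.ne M0)⟩
    rw [qExpand_congr (mul_comm e M0)]
  have h2 := congrArg (coeffMap (Int.castRingHom K)) h1
  have h3 : coeffMap (Int.castRingHom K) (V ℤ (M0 * e) (J ℤ)) = V K (M0 * e) (J K) := by
    rw [coeffMap_qExpand, coeffMap_jqModC]
  rw [Build.coeffMap_evAt, map_mul, h3, UnitArg.evAt_eq_aeval] at h2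
  exact h2

end CoordHAux

end Fermat.Agent.Crux.GM
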