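import Fermat.Agent.Crux.GM.Defs
import Fermat.Agent.S24.QDict
import Fermat.Agent.S24.Gen
import Fermat.Agent.S24.Packages

/-!
# Crux / GM-Fricke : the Fricke automorphism `j_d ↔ j_{M/d}` of `FN M` and the transported packages

PROOF SKETCH (same pattern as `ES/B/H1/AtkinLehner.lean`).
* `s : Dv M → Dv M`, `d ↦ M/d`, an involution.  `W τ := -1/(M τ)` (`UpperHalfPlane`: `S • mulH M τ`).
  `mulH d (W τ) = -d/(M τ) = S • mulH (M/d) τ`, so `jd d (W τ) = jd (M/d) τ` (`S24.jfun_smul`).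
  Hence `phiH M (rename s p) τ = phiH M p (W τ)`.
* `ψ := (phiF M).comp (MvPolynomial.rename s)`; `ψ p = 0 ↔ phiF M p = 0` by `S24.phiF_eq_zero_iff`
  (`W` is a bijection of `ℍ`, or apply the formula twice, `s ∘ s = id`).
  `S24.exists_lift_FN` gives `w`, `w (jF d) = jF (M/d)`; `w ∘ w = id` by `S24.algHom_ext_FN`.
* `finrank_adjoin_jM` : `w` maps `Kb⟮jN M⟯` onto `Kb⟮jF M M⟯`; transport `S24.finrank_FN`
  (e.g. `ES.H1Degree.adjEquiv`/`finite_and_finrank` in `ES/B/H1/Degree.lean`, or: a `Kb⟮j⟯`-basis is mapped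
  by `w` to a `Kb⟮j_M⟯`-basis).
* packages: `σ'_a := (σ_a).comp w`.
-/

set_option autoImplicit false
set_option linter.unusedSectionVars false

open ModularCurve UpperHalfPlane
open scoped IntermediateField MatrixGroups

namespace Fermat.Agent.Crux.GM

open Fermat.Agent.S24

variable (M : ℕ) [NeZero M]

namespace Fricke

theorem jd_congr {a b : ℕ} [NeZero a] [NeZero b] (h : a = b) (τ : ℍ) : jd a τ = jd b τ := by
  subst h; rfl

theorem jF_congr {a b : ℕ} [NeZero a] [NeZero b] (h : a = b) (ha : a ∣ M) (hb : b ∣ M) :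
    jF M a ha = jF M b hb := by
  subst h; rfl

/-- `d ↦ M / d` -/
def swp (d : Dv M) : Dv M := ⟨M / d.1, Nat.div_dvd_of_dvd d.2⟩

theorem swp_swp (d : Dv M) : swp M (swp M d) = d :=
  Subtype.ext (Nat.div_div_self d.2 (NeZero.ne M))

theorem mul_swp (d : Dv M) : d.1 * (swp M d).1 = M := Nat.mul_div_cancel' d.2

theorem key (d : Dv M) (τ : ℍ) :
    jd (swp M d).1 τ = jd d.1 (ModularGroup.S • mulH M τ) := by
  have hm : mulH d.1 (ModularGroup.S • mulH M τ) = ModularGroup.S • mulH (swp M d).1 τ := by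
    apply UpperHalfPlane.ext
    rw [Hermite.coe_mulH, UpperHalfPlane.modular_S_smul, UpperHalfPlane.modular_S_smul]
    simp only [Hermite.coe_mulH]
    have h1 : (M : ℂ) = d.1 * (swp M d).1 := by exact_mod_cast (mul_swp M d).symm
    have h2 : (d.1 : ℂ) ≠ 0 := by exact_mod_cast NeZero.ne d.1
    have h3 : ((swp M d).1 : ℂ) ≠ 0 := by exact_mod_cast NeZero.ne (swp M d).1
    have h4 : (τ : ℂ) ≠ 0 := UpperHalfPlane.ne_zero τ
    rw [h1]
    field_simp
  unfold jd
  rw [hm, jfun_smul]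

theorem phiF_X (d : Dv M) : phiF M (MvPolynomial.X d) = jF M d.1 d.2 := by simp [phiF]

end Fricke

open Fricke

/-- **GM-Fricke.** -/
theorem exists_fricke : ∃ w : FN M ≃ₐ[Kb] FN M,
    ∀ (d e : ℕ) [NeZero d] [NeZero e] (hd : d ∣ M) (he : e ∣ M), d * e = M →
      w (jF M d hd) = jF M e he := by
  classical
  set s := swp M with hs
  let W : ℍ → ℍ := fun τ => ModularGroup.S • mulH M τ
  have hev : ∀ (p : MvPolynomial (Dv M) Kb) (τ : ℍ),
      phiH M (MvPolynomial.rename s p) τ = phiH M p (W τ) := by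
    intro p τ
    have e1 : ∀ (q : MvPolynomial (Dv M) Kb) (σ : ℍ),
        phiH M q σ = MvPolynomial.aeval (fun d : Dv M => jd d.1 σ) q := by
      intro q σ
      have := MvPolynomial.comp_aeval_apply (f := fun d : Dv M => jd d.1)
        (Pi.evalAlgHom Kb (fun _ : ℍ => ℂ) σ) q
      exact this
    have e2 : (fun d : Dv M => jd d.1 τ) ∘ s = fun d : Dv M => jd d.1 (W τ) := by
      funext d
      exact key M d τ
    rw [e1, e1, MvPolynomial.aeval_rename, e2]
  have hfwd : ∀ p : MvPolynomial (Dv M) Kb, phiF M p = 0 →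
      phiF M (MvPolynomial.rename s p) = 0 := by
    intro p hp
    rw [phiF_eq_zero_iff] at hp ⊢
    funext τ
    rw [hev, hp]
    rfl
  have hss : ∀ p : MvPolynomial (Dv M) Kb,
      MvPolynomial.rename s (MvPolynomial.rename s p) = p := by
    intro p
    rw [MvPolynomial.rename_rename]
    have : s ∘ s = id := by
      funext d
      exact swp_swp M d
    rw [this, MvPolynomial.rename_id_apply]
  obtain ⟨w, hw⟩ := exists_lift_FN M ((phiF M).comp (MvPolynomial.rename s)) (by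
    intro p
    constructor
    · intro h
      have h' : phiF M (MvPolynomial.rename s p) = 0 := h
      have := hfwd _ h'
      rwa [hss] at this
    · intro h
      exact hfwd p h)
  have hwj : ∀ d : Dv M, w (jF M d.1 d.2) = jF M (s d).1 (s d).2 := by
    intro d
    rw [← phiF_X, hw, AlgHom.comp_apply, MvPolynomial.rename_X, phiF_X]
  have hww : w.comp w = AlgHom.id Kb (FN M) := by
    apply algHom_ext_FN
    intro d
    rw [AlgHom.comp_apply, hwj, hwj, AlgHom.id_apply]
    exact jF_congr M (congrArg Subtype.val (swp_swp M d)) _ _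
  refine ⟨AlgEquiv.ofAlgHom w w hww hww, ?_⟩
  intro d e _ _ hd he hde
  show w (jF M d hd) = jF M e he
  have := hwj ⟨d, hd⟩
  rw [this]
  apply jF_congr
  show M / d = e
  rw [← hde]
  exact Nat.mul_div_cancel_left e (Nat.pos_of_ne_zero (NeZero.ne d))

namespace Fricke

/-- the Fricke involution -/
noncomputable def fr : FN M ≃ₐ[Kb] FN M := (exists_fricke M).choose

theorem fr_jM : fr M (jF M M dvd_rfl) = jN M :=
  (exists_fricke M).choose_spec M 1 dvd_rfl (one_dvd M) (mul_one M)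

theorem fr_jN : fr M (jN M) = jF M M dvd_rfl :=
  (exists_fricke M).choose_spec 1 M (one_dvd M) dvd_rfl (one_mul M)

instance : Finite (XN M) := Subgroup.finite_quotient_of_finiteIndex

/-- transport of a family of embeddings -/
theorem transport (P : (FN M →ₐ[Kb] LaurentSeries ℂ) → Prop)
    (h : ∃ σ : XN M → FN M →ₐ[Kb] LaurentSeries ℂ, Function.Injective σ ∧
      (∀ a b, σ a (jN M) = σ b (jN M)) ∧ ∀ a, P ((σ a).comp (fr M : FN M →ₐ[Kb] FN M))) :
    ∃ σ : Fin (Nat.card (XN M)) → FN M →ₐ[Kb] LaurentSeries ℂ, Function.Injective σ ∧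
      (∀ a b, σ a (jF M M dvd_rfl) = σ b (jF M M dvd_rfl)) ∧ ∀ a, P (σ a) := by
  obtain ⟨σ, hσ, hσj, hP⟩ := h
  let e := Finite.equivFin (XN M)
  refine ⟨fun a => (σ (e.symm a)).comp (fr M : FN M →ₐ[Kb] FN M), ?_, ?_, fun a => hP _⟩
  · intro a b hab
    apply e.symm.injective
    apply hσ
    refine AlgHom.ext fun f => ?_
    have := DFunLike.congr_fun hab ((fr M).symm f)
    simpa using this
  · intro a b
    simp only [AlgHom.comp_apply, AlgEquiv.coe_toAlgHom, fr_jM]
    exact hσj _ _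

end Fricke

theorem finrank_adjoin_jM :
    Module.finrank Kb⟮jF M M dvd_rfl⟯ (FN M) = Nat.card (XN M) := by
  rw [← finrank_FN M]
  let e₁ : Kb⟮jN M⟯ ≃ₐ[Kb] Kb⟮jF M M dvd_rfl⟯ :=
    ((Kb⟮jN M⟯).equivMap (fr M : FN M →ₐ[Kb] FN M)).trans (IntermediateField.equivOfEq (by
      rw [IntermediateField.adjoin_map, Set.image_singleton]
      congr 2
      exact fr_jN M))
  symm
  refine Algebra.finrank_eq_of_equiv_equiv (e₁ : Kb⟮jN M⟯ ≃+* Kb⟮jF M M dvd_rfl⟯)
    (fr M : FN M ≃+* FN M) ?_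
  ext c
  rfl

/-- the generic package relative to `j_M`. -/
theorem hasPack_jM (c : Kb) (h0 : c ≠ 0) (h1 : c ≠ 1728) :
    HasPack M (Nat.card (XN M)) (jF M M dvd_rfl) c := by
  obtain ⟨σ, hσ, hσj, hord⟩ := package_generic M c h0 h1
  exact transport M (fun τ => (τ (jF M M dvd_rfl - algebraMap Kb (FN M) c)).order = 1)
    ⟨σ, hσ, hσj, fun a => by
      simp only [AlgHom.comp_apply, AlgEquiv.coe_toAlgHom, map_sub, fr_jM, AlgEquiv.commutes]
      simpa using hord a⟩

/-- the package at `j_M = 1728` (all orders are `2`). -/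
theorem pack_jM_I : ∃ σ : Fin (Nat.card (XN M)) → FN M →ₐ[Kb] LaurentSeries ℂ,
    Function.Injective σ ∧ (∀ a b, σ a (jF M M dvd_rfl) = σ b (jF M M dvd_rfl)) ∧
      ∀ a, (σ a (jF M M dvd_rfl - algebraMap Kb (FN M) 1728)).order = 2 := by
  obtain ⟨σ, hσ, hσj, hord, -⟩ := package_I M
  exact transport M (fun τ => (τ (jF M M dvd_rfl - algebraMap Kb (FN M) 1728)).order = 2)
    ⟨σ, hσ, hσj, fun a => by
      simp only [AlgHom.comp_apply, AlgEquiv.coe_toAlgHom, map_sub, fr_jM, AlgEquiv.commutes]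
      simpa using hord a⟩

/-- the package at `j_M = 0` (all orders are `3`). -/
theorem pack_jM_rho : ∃ σ : Fin (Nat.card (XN M)) → FN M →ₐ[Kb] LaurentSeries ℂ,
    Function.Injective σ ∧ (∀ a b, σ a (jF M M dvd_rfl) = σ b (jF M M dvd_rfl)) ∧
      ∀ a, (σ a (jF M M dvd_rfl)).order = 3 := by
  obtain ⟨σ, ζ, hσ, -, hσj, hord, -⟩ := package_rho M
  exact transport M (fun τ => (τ (jF M M dvd_rfl)).order = 3)
    ⟨σ, hσ, hσj, fun a => by
      simp only [AlgHom.comp_apply, AlgEquiv.coe_toAlgHom, fr_jM]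
      exact hord a⟩

end Fermat.Agent.Crux.GM
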