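import Fermat.Agent.Crux.GM.Deg
import Fermat.Agent.Crux.GM.Fricke
import Fermat.Agent.S17.Curve.IsFF

/-!
# Crux / GM-CoordJ : `x = j_M = J(q^M)` is a good coordinate for `ℓ ≥ 5`, `ℓ ∤ M`  (`β = 1728`)

* `castS K (V ℤ M (J ℤ)) = V K M (J K)` (`coeffMap_qExpand`, `coeffMap_jqModC`).
* `order = -M`, leading coefficient `1` (`J = q⁻¹ + …`; see `S28.order_β`, `S28/FormalBasic.lean`,
  `S28.UnitArg`, `S24.coeff_jq_pow_self` for order computations of `J`, `V`).
* `deg`, `basis` : `exists_degree_basis M` (`K` of char. 0, resp. `k` of char. `ℓ ∤ M`).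
* `n = c = Nat.card (XN M)` : `exists_degree_basis` for `K = Kb` + `finrank_adjoin_jM`
  (`FN M = ↥(modularFunctionFieldBar M)`, `S17.IsFFAux.laurentBaseChange_eq_fullC`,
  `IntermediateField.relfinrank_eq_finrank_of_le`; to compare `finrank Kb⟮(x : FN M)⟯ (FN M)` with
  `relfinrank Kb⟮(x : Kb((q)))⟯ (modularFunctionFieldBar M)` use `IntermediateField.relfinrank_comap`/
  `relfinrank_top_right`, or count bases).
* `pack` : `hasPack_jM` (any `x : FN M` with the given expansion equals `jF M M _` by `Subtype.ext`).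
-/

set_option autoImplicit false

open ModularCurve

namespace Fermat.Agent.Crux.GM

open Fermat.Agent.S28

/-- comparison of the two ways of writing the degree over `ℚ̄(x)`. -/
theorem relfinrank_bar_eq_finrank (M : ℕ) [NeZero M] (x : Fermat.Agent.S24.FN M) :
    (IntermediateField.adjoin Fermat.Agent.S24.Kb {(x : LaurentSeries Fermat.Agent.S24.Kb)}).relfinrank
      (modularFunctionFieldBar M) =
    Module.finrank (IntermediateField.adjoin Fermat.Agent.S24.Kb {x}) (Fermat.Agent.S24.FN M) := by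
  have h1 := IntermediateField.finrank_comap
    (IntermediateField.adjoin Fermat.Agent.S24.Kb {(x : LaurentSeries Fermat.Agent.S24.Kb)})
    (modularFunctionFieldBar M).val
  rw [IntermediateField.fieldRange_val] at h1
  rw [← h1]
  have h2 : (IntermediateField.adjoin Fermat.Agent.S24.Kb
      {(x : LaurentSeries Fermat.Agent.S24.Kb)}).comap (modularFunctionFieldBar M).val
      = IntermediateField.adjoin Fermat.Agent.S24.Kb {x} := by
    have h3 : (IntermediateField.adjoin Fermat.Agent.S24.Kb {x}).map (modularFunctionFieldBar M).val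
        = IntermediateField.adjoin Fermat.Agent.S24.Kb
          {(x : LaurentSeries Fermat.Agent.S24.Kb)} := by
      rw [IntermediateField.adjoin_map, Set.image_singleton]
      rfl
    rw [← h3, IntermediateField.comap_map]
  rw [h2]

namespace CoordJ

theorem castS_VJ (R : Type*) [CommRing R] (M : ℕ) [NeZero M] :
    castS R (V ℤ M (J ℤ)) = V R M (J R) := by
  rw [castS, coeffMap_qExpand, coeffMap_jqModC]

theorem coeff_VJ_self (M : ℕ) [NeZero M] : (V ℤ M (J ℤ)).coeff (-(M : ℤ)) = 1 := by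
  have h : (-(M : ℤ)) = (M : ℤ) * (-1) := by ring
  rw [h, qExpand_coeff_mul, coeff_jqModC_neg_one]

theorem coeff_VJ_of_lt (M : ℕ) [NeZero M] {k : ℤ} (hk : k < -(M : ℤ)) :
    (V ℤ M (J ℤ)).coeff k = 0 := by
  by_cases hd : (M : ℤ) ∣ k
  · obtain ⟨m, rfl⟩ := hd
    rw [qExpand_coeff_mul]
    apply coeff_jqModC_of_lt
    have hM : (0 : ℤ) < M := by exact_mod_cast Nat.pos_of_ne_zero (NeZero.ne M)
    nlinarith
  · exact qExpand_coeff_of_not_dvd M _ hd

theorem order_VJ (M : ℕ) [NeZero M] : (V ℤ M (J ℤ)).order = -(M : ℤ) := by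
  have h1 : (V ℤ M (J ℤ)).coeff (-(M : ℤ)) ≠ 0 := by rw [coeff_VJ_self]; exact one_ne_zero
  have hx : V ℤ M (J ℤ) ≠ 0 := by
    intro h
    rw [h] at h1
    exact h1 rfl
  refine le_antisymm (HahnSeries.order_le_of_coeff_ne_zero h1) ?_
  by_contra hlt
  push Not at hlt
  exact (HahnSeries.coeff_order_eq_zero.not.mpr hx) (coeff_VJ_of_lt M hlt)

end CoordJ

open CoordJ

/-- **GM-CoordJ.** -/
theorem goodCoord_j (M : ℕ) [NeZero M] (ℓ : ℕ) (hℓ : ℓ.Prime) (h5 : 5 ≤ ℓ) (hM : ¬ ℓ ∣ M) :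
    ∃ n, GoodCoord M ℓ (V ℤ M (J ℤ)) 1728 n := by
  obtain ⟨c, hc0, hc⟩ := exists_degree_basis M
  have hchar0 : ∀ (K : Type) [Field K] [CharZero K], ∀ p : ℕ, p.Prime → p ∣ M → (p : K) ≠ 0 :=
    fun K _ _ p hp _ => by exact_mod_cast hp.ne_zero
  -- identification of `c`
  have hcard : c = Nat.card (Fermat.Agent.S24.XN M) := by
    have h1 := (hc Fermat.Agent.S24.Kb (hchar0 _)).1
    have h2 := relfinrank_bar_eq_finrank M (Fermat.Agent.S24.jF M M dvd_rfl)
    rw [finrank_adjoin_jM] at h2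
    have h3 : modularFunctionFieldBar M = modularFunctionFieldFullC Fermat.Agent.S24.Kb M :=
      Fermat.Agent.S17.IsFFAux.laurentBaseChange_eq_fullC _ M
    have h4 : ((Fermat.Agent.S24.jF M M dvd_rfl : Fermat.Agent.S24.FN M) :
        LaurentSeries Fermat.Agent.S24.Kb) = V Fermat.Agent.S24.Kb M (J Fermat.Agent.S24.Kb) := by
      show coeffEmb Fermat.Agent.S24.Kb (qExpand ℚ M jq) = _
      rw [coeffEmb, coeffMap_qExpand, ← jqModC_rat, coeffMap_jqModC]
    have h2' : (IntermediateField.adjoin Fermat.Agent.S24.Kb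
        {V Fermat.Agent.S24.Kb M (J Fermat.Agent.S24.Kb)}).relfinrank (modularFunctionFieldBar M)
        = Nat.card (Fermat.Agent.S24.XN M) := by
      rw [← h4]; exact h2
    rw [h3] at h2'
    exact h1.symm.trans h2'
  refine ⟨c, ?_⟩
  refine
    { hβ := ?_
      n_pos := hc0
      order_neg := ?_
      leading := ?_
      order_ndvd := ?_
      mem := ?_
      deg := ?_
      basis := ?_
      pack := ?_ }
  · intro h
    have h1 : ℓ ∣ 1728 := by exact_mod_cast h
    have h2 : (1728 : ℕ) = 2 ^ 6 * 3 ^ 3 := by norm_num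
    rw [h2] at h1
    rcases (Nat.Prime.dvd_mul hℓ).mp h1 with h3 | h3
    · have := (Nat.prime_dvd_prime_iff_eq hℓ Nat.prime_two).mp (hℓ.dvd_of_dvd_pow h3)
      omega
    · have := (Nat.prime_dvd_prime_iff_eq hℓ Nat.prime_three).mp (hℓ.dvd_of_dvd_pow h3)
      omega
  · rw [order_VJ]
    have : (0 : ℤ) < M := by exact_mod_cast Nat.pos_of_ne_zero (NeZero.ne M)
    omega
  · rw [HahnSeries.leadingCoeff_eq, order_VJ, coeff_VJ_self]
  · rw [order_VJ, dvd_neg]
    exact_mod_cast hM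
  · intro K _ _
    rw [castS_VJ]
    exact jqModCd_mem_full K M dvd_rfl
  · intro K _ _
    rw [castS_VJ]
    exact (hc K (hchar0 K)).1
  · intro k _ _
    have hk : ∀ p : ℕ, p.Prime → p ∣ M → (p : k) ≠ 0 := by
      intro p hp hpM h0
      have h1 : ℓ ∣ p := (CharP.cast_eq_zero_iff k ℓ p).mp h0
      have h2 := (Nat.prime_dvd_prime_iff_eq hℓ hp).mp h1
      exact hM (h2 ▸ hpM)
    obtain ⟨b, hb, hli⟩ := (hc k hk).2
    refine ⟨b, fun K _ _ i => monoS_le_full K M (coeffMap_mem_monoS _ M (hb i)), ?_⟩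
    rw [castS_VJ]
    exact hli
  · intro x hx cc h0 h1
    have hxj : x = Fermat.Agent.S24.jF M M dvd_rfl := by
      apply Subtype.ext
      rw [hx, castS_VJ]
      show _ = coeffEmb Fermat.Agent.S24.Kb (qExpand ℚ M jq)
      rw [coeffEmb, coeffMap_qExpand, ← jqModC_rat, coeffMap_jqModC]
    rw [hxj, hcard]
    exact hasPack_jM M cc h0 (by simpa using h1)

end Fermat.Agent.Crux.GM
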