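import Fermat.Agent.S28.Defs

/-!
# Crux / GM : leading term calculus for Laurent series

`Lead x n c` : the coefficient of `q^n` in `x` is `c` and all lower coefficients vanish
(`c = 0` is allowed).
-/

set_option autoImplicit false

open ModularCurve

namespace Fermat.Agent.Crux.GM

open Fermat.Agent.S28

variable {R : Type*} [CommRing R]

/-- `x = c q^n + higher terms`. -/
def Lead (x : LaurentSeries R) (n : ℤ) (c : R) : Prop := x.coeff n = c ∧ ∀ m < n, x.coeff m = 0

namespace Lead

variable {x y : LaurentSeries R} {n m : ℤ} {c d : R}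

theorem add (hx : Lead x n c) (hy : Lead y n d) : Lead (x + y) n (c + d) :=
  ⟨by rw [HahnSeries.coeff_add, hx.1, hy.1], fun k hk => by
    rw [HahnSeries.coeff_add, hx.2 k hk, hy.2 k hk, add_zero]⟩

theorem neg (hx : Lead x n c) : Lead (-x) n (-c) :=
  ⟨by rw [HahnSeries.coeff_neg, hx.1], fun k hk => by rw [HahnSeries.coeff_neg, hx.2 k hk, neg_zero]⟩

theorem sub (hx : Lead x n c) (hy : Lead y n d) : Lead (x - y) n (c - d) := by
  rw [sub_eq_add_neg, sub_eq_add_neg]
  exact hx.add hy.neg

theorem mono (hx : Lead x n c) (h : m < n) : Lead x m 0 :=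
  ⟨hx.2 m h, fun k hk => hx.2 k (hk.trans h)⟩

theorem mul (hx : Lead x n c) (hy : Lead y m d) : Lead (x * y) (n + m) (c * d) := by
  have key : ∀ k ≤ n + m, ∀ ij ∈ Finset.antidiagonal x.isPWO_support y.isPWO_support k,
      ij = (n, m) := by
    intro k hk ij hij
    rw [Finset.mem_antidiagonal] at hij
    obtain ⟨h1, h2, h3⟩ := hij
    have h1' : n ≤ ij.1 := by
      by_contra h
      exact h1 (hx.2 _ (not_le.mp h))
    have h2' : m ≤ ij.2 := by
      by_contra h
      exact h2 (hy.2 _ (not_le.mp h))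
    ext
    · show ij.1 = n
      omega
    · show ij.2 = m
      omega
  constructor
  · rw [HahnSeries.coeff_mul]
    by_cases hmem : (n, m) ∈ Finset.antidiagonal x.isPWO_support y.isPWO_support (n + m)
    · rw [Finset.sum_eq_single_of_mem _ hmem (fun ij hij hne => absurd (key _ le_rfl ij hij) hne),
        hx.1, hy.1]
    · rw [Finset.sum_eq_zero (fun ij hij => absurd (key _ le_rfl ij hij ▸ hij) hmem)]
      rw [Finset.mem_antidiagonal] at hmem
      by_cases hc : c = 0
      · rw [hc, zero_mul]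
      · by_cases hd : d = 0
        · rw [hd, mul_zero]
        · exact absurd ⟨by simpa [hx.1] using hc, by simpa [hy.1] using hd, rfl⟩ hmem
  · intro k hk
    rw [HahnSeries.coeff_mul]
    refine Finset.sum_eq_zero fun ij hij => ?_
    have h := key k hk.le ij hij
    rw [Finset.mem_antidiagonal] at hij
    rw [h] at hij
    exact absurd hij.2.2 (ne_of_gt hk)

theorem pow (hx : Lead x n c) (j : ℕ) : Lead (x ^ j) (j * n) (c ^ j) := by
  induction j with
  | zero =>
    simp only [pow_zero, Nat.cast_zero, zero_mul]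
    exact ⟨by simp, fun k hk => by rw [HahnSeries.coeff_one, if_neg (ne_of_lt hk)]⟩
  | succ j ih =>
    have := ih.mul hx
    rw [pow_succ, pow_succ]
    convert this using 1
    push_cast
    ring

theorem single (n : ℤ) (c : R) : Lead (HahnSeries.single n c) n c :=
  ⟨HahnSeries.coeff_single_same n c, fun _ hk => HahnSeries.coeff_single_of_ne (ne_of_lt hk)⟩

theorem C (c : R) : Lead (HahnSeries.C c) 0 c := single 0 c

theorem one : Lead (1 : LaurentSeries R) 0 1 := single 0 1

theorem ofNat (a : ℕ) [a.AtLeastTwo] : Lead (OfNat.ofNat a : LaurentSeries R) 0 (OfNat.ofNat a) := by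
  have h : (OfNat.ofNat a : LaurentSeries R) = HahnSeries.C (OfNat.ofNat a : R) :=
    (map_ofNat (HahnSeries.C : R →+* LaurentSeries R) a).symm
  rw [h]
  exact C _

theorem ofPowerSeries (f : PowerSeries R) :
    Lead (HahnSeries.ofPowerSeries ℤ R f) 0 (PowerSeries.constantCoeff f) :=
  ⟨by
    have := HahnSeries.ofPowerSeries_apply_coeff (Γ := ℤ) f 0
    rw [Nat.cast_zero] at this
    rw [this, PowerSeries.coeff_zero_eq_constantCoeff], fun _ hk => ofPowerSeries_coeff_of_neg f hk⟩

theorem V (N : ℕ) [NeZero N] (hx : Lead x n c) : Lead (V R N x) (N * n) c := by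
  refine ⟨qExpand_coeff_mul N x n |>.trans hx.1, fun k hk => ?_⟩
  by_cases hd : (N : ℤ) ∣ k
  · obtain ⟨k', rfl⟩ := hd
    rw [qExpand_coeff_mul]
    apply hx.2
    have hN : (0 : ℤ) < N := by exact_mod_cast Nat.pos_of_ne_zero (NeZero.ne N)
    exact lt_of_mul_lt_mul_left hk hN.le
  · exact qExpand_coeff_of_not_dvd N x hd

theorem order_eq (hx : Lead x n c) (hc : c ≠ 0) : x.order = n := by
  have h1 : x.coeff n ≠ 0 := by rw [hx.1]; exact hc
  have hx0 : x ≠ 0 := by
    rintro rfl
    exact h1 rfl
  refine le_antisymm (HahnSeries.order_le_of_coeff_ne_zero h1) ?_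
  by_contra hlt
  push Not at hlt
  exact (HahnSeries.coeff_order_eq_zero.not.mpr hx0) (hx.2 _ hlt)

theorem leadingCoeff_eq (hx : Lead x n c) (hc : c ≠ 0) : x.leadingCoeff = c := by
  rw [HahnSeries.leadingCoeff_eq, hx.order_eq hc, hx.1]

end Lead

end Fermat.Agent.Crux.GM
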