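import Mathlib
import Fermat.Prelude.Def_ModularCurve_X0

/-!
# Crux / GM : verified truncated arithmetic in `ℤ⟦X⟧`

`toL N f` is the list of the first `N` coefficients of `f`.  All ring operations are mirrored by
computable operations on `List ℤ`, so that identities modulo `X^N` are checked by `decide`.
-/

set_option autoImplicit false

open PowerSeries

namespace Fermat.Agent.Crux.GM.Trunc

/-- `∑_{i<n} f i`, by structural recursion. -/
def sumTo (f : ℕ → ℤ) : ℕ → ℤ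
  | 0 => 0
  | n + 1 => sumTo f n + f n

theorem sumTo_eq (f : ℕ → ℤ) (n : ℕ) : sumTo f n = ∑ i ∈ Finset.range n, f i := by
  induction n with
  | zero => rfl
  | succ n ih => rw [sumTo, ih, Finset.sum_range_succ]

/-- the list `[g 0, …, g (N-1)]`. -/
def tab (N : ℕ) (g : ℕ → ℤ) : List ℤ := (List.range N).map g

theorem tab_getD (N : ℕ) (g : ℕ → ℤ) (i : ℕ) (hi : i < N) : (tab N g).getD i 0 = g i := by
  simp [tab, List.getD_eq_getElem?_getD, hi]

theorem tab_congr (N : ℕ) {g h : ℕ → ℤ} (H : ∀ i < N, g i = h i) : tab N g = tab N h := by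
  refine List.map_congr_left fun i hi => H i (List.mem_range.1 hi)

/-- the first `N` coefficients. -/
noncomputable def toL (N : ℕ) (f : ℤ⟦X⟧) : List ℤ := tab N fun i => coeff i f

theorem toL_getD (N : ℕ) (f : ℤ⟦X⟧) (i : ℕ) (hi : i < N) : (toL N f).getD i 0 = coeff i f :=
  tab_getD N _ i hi

theorem coeff_eq_of_toL_eq {N : ℕ} {f g : ℤ⟦X⟧} (h : toL N f = toL N g) (n : ℕ) (hn : n < N) :
    coeff n f = coeff n g := by
  rw [← toL_getD N f n hn, ← toL_getD N g n hn, h]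

def mulL (N : ℕ) (a b : List ℤ) : List ℤ :=
  tab N fun n => sumTo (fun i => a.getD i 0 * b.getD (n - i) 0) (n + 1)

def addL (N : ℕ) (a b : List ℤ) : List ℤ := tab N fun n => a.getD n 0 + b.getD n 0

def subL (N : ℕ) (a b : List ℤ) : List ℤ := tab N fun n => a.getD n 0 - b.getD n 0

def smulL (N : ℕ) (c : ℤ) (a : List ℤ) : List ℤ := tab N fun n => c * a.getD n 0

def shiftL (N k : ℕ) (a : List ℤ) : List ℤ := tab N fun n => if k ≤ n then a.getD (n - k) 0 else 0

def expL (N d : ℕ) (a : List ℤ) : List ℤ := tab N fun n => if d ∣ n then a.getD (n / d) 0 else 0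

def oneL (N : ℕ) : List ℤ := tab N fun n => if n = 0 then 1 else 0

def powL (N : ℕ) (a : List ℤ) : ℕ → List ℤ
  | 0 => oneL N
  | k + 1 => mulL N (powL N a k) a

theorem toL_mul (N : ℕ) (f g : ℤ⟦X⟧) : toL N (f * g) = mulL N (toL N f) (toL N g) := by
  refine tab_congr N fun n hn => ?_
  rw [coeff_mul, Finset.Nat.sum_antidiagonal_eq_sum_range_succ (fun i j => coeff i f * coeff j g),
    sumTo_eq]
  refine Finset.sum_congr rfl fun i hi => ?_
  have hi' : i < n + 1 := Finset.mem_range.1 hi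
  rw [toL_getD N f i (by omega), toL_getD N g (n - i) (by omega)]

theorem toL_add (N : ℕ) (f g : ℤ⟦X⟧) : toL N (f + g) = addL N (toL N f) (toL N g) := by
  refine tab_congr N fun n hn => ?_
  rw [map_add, toL_getD N f n hn, toL_getD N g n hn]

theorem toL_sub (N : ℕ) (f g : ℤ⟦X⟧) : toL N (f - g) = subL N (toL N f) (toL N g) := by
  refine tab_congr N fun n hn => ?_
  rw [map_sub, toL_getD N f n hn, toL_getD N g n hn]

theorem toL_one (N : ℕ) : toL N 1 = oneL N := by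
  refine tab_congr N fun n _ => ?_
  rw [coeff_one]

theorem toL_pow (N : ℕ) (f : ℤ⟦X⟧) (k : ℕ) : toL N (f ^ k) = powL N (toL N f) k := by
  induction k with
  | zero => rw [pow_zero, toL_one]; rfl
  | succ k ih => rw [pow_succ, toL_mul, ih]; rfl

theorem toL_C_mul (N : ℕ) (c : ℤ) (f : ℤ⟦X⟧) : toL N (C c * f) = smulL N c (toL N f) := by
  refine tab_congr N fun n hn => ?_
  rw [coeff_C_mul, toL_getD N f n hn]

theorem toL_X_pow_mul (N k : ℕ) (f : ℤ⟦X⟧) : toL N (X ^ k * f) = shiftL N k (toL N f) := by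
  refine tab_congr N fun n hn => ?_
  rw [coeff_X_pow_mul']
  split_ifs with h
  · rw [toL_getD N f (n - k) (by omega)]
  · rfl

theorem toL_expand (N d : ℕ) (hd : d ≠ 0) (f : ℤ⟦X⟧) :
    toL N (expand d hd f) = expL N d (toL N f) := by
  refine tab_congr N fun n hn => ?_
  rw [coeff_expand]
  split_ifs with h
  · rw [toL_getD N f (n / d) (lt_of_le_of_lt (Nat.div_le_self n d) hn)]
  · rfl

/-! ### the Euler product -/

open scoped PowerSeries.WithPiTopology

theorem X_pow_dvd_prod_sub_one (N : ℕ) (s : Finset ℕ) (hs : ∀ b ∈ s, N ≤ b) :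
    (X : ℤ⟦X⟧) ^ N ∣ (∏ b ∈ s, (1 - X ^ (b + 1))) - 1 := by
  induction s using Finset.induction_on with
  | empty => simp
  | insert a s ha ih =>
    rw [Finset.prod_insert ha]
    have h1 := ih fun b hb => hs b (Finset.mem_insert_of_mem hb)
    have h2 : (X : ℤ⟦X⟧) ^ N ∣ X ^ (a + 1) :=
      pow_dvd_pow _ (by have := hs a (Finset.mem_insert_self a s); omega)
    have e : (1 - (X : ℤ⟦X⟧) ^ (a + 1)) * (∏ b ∈ s, (1 - X ^ (b + 1))) - 1
        = ((∏ b ∈ s, (1 - X ^ (b + 1))) - 1) - X ^ (a + 1) * ∏ b ∈ s, (1 - X ^ (b + 1)) := by ring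
    rw [e]
    exact dvd_sub h1 (Dvd.dvd.mul_right h2 _)

theorem coeff_etaProd (N n : ℕ) (hn : n < N) :
    coeff n ModularCurve.etaProd = coeff n (∏ b ∈ Finset.range N, (1 - (X : ℤ⟦X⟧) ^ (b + 1))) := by
  have h := (PowerSeries.WithPiTopology.multipliable_one_sub_X_pow ℤ).hasProd
  have h2 := ((PowerSeries.WithPiTopology.continuous_coeff ℤ n).tendsto _).comp h
  rw [nhds_discrete, Filter.tendsto_pure] at h2
  obtain ⟨s0, hs0⟩ := Filter.eventually_atTop.1 h2
  have h3 := hs0 (s0 ∪ Finset.range N) Finset.subset_union_left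
  simp only [Function.comp] at h3
  rw [ModularCurve.etaProd, ← h3]
  have hsplit : ∏ b ∈ s0 ∪ Finset.range N, (1 - (X : ℤ⟦X⟧) ^ (b + 1))
      = (∏ b ∈ Finset.range N, (1 - (X : ℤ⟦X⟧) ^ (b + 1))) *
        ∏ b ∈ (s0 ∪ Finset.range N) \ Finset.range N, (1 - (X : ℤ⟦X⟧) ^ (b + 1)) := by
    rw [mul_comm]
    exact (Finset.prod_sdiff Finset.subset_union_right).symm
  rw [hsplit]
  obtain ⟨g, hg⟩ := X_pow_dvd_prod_sub_one N ((s0 ∪ Finset.range N) \ Finset.range N) (by
    intro b hb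
    have := (Finset.mem_sdiff.1 hb).2
    simpa using this)
  have e : ∀ F G : ℤ⟦X⟧, G - 1 = X ^ N * g → F * G = F + X ^ N * (F * g) := by
    intro F G hG
    have : G = 1 + X ^ N * g := by rw [← hG]; ring
    rw [this]; ring
  rw [e _ _ hg, map_add, coeff_X_pow_mul', if_neg (by omega), add_zero]

theorem toL_etaProd (N : ℕ) :
    toL N ModularCurve.etaProd = toL N (∏ b ∈ Finset.range N, (1 - (X : ℤ⟦X⟧) ^ (b + 1))) :=
  tab_congr N fun n hn => coeff_etaProd N n hn

/-- `∏_{b<m} (1 - X^(b+1))` on lists. -/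
def eulerL (N : ℕ) : ℕ → List ℤ
  | 0 => oneL N
  | m + 1 => subL N (eulerL N m) (shiftL N (m + 1) (eulerL N m))

theorem toL_euler (N m : ℕ) :
    toL N (∏ b ∈ Finset.range m, (1 - (X : ℤ⟦X⟧) ^ (b + 1))) = eulerL N m := by
  induction m with
  | zero => rw [Finset.prod_range_zero, toL_one]; rfl
  | succ m ih =>
    have e : ∏ b ∈ Finset.range (m + 1), (1 - (X : ℤ⟦X⟧) ^ (b + 1))
        = (∏ b ∈ Finset.range m, (1 - (X : ℤ⟦X⟧) ^ (b + 1)))
          - X ^ (m + 1) * ∏ b ∈ Finset.range m, (1 - (X : ℤ⟦X⟧) ^ (b + 1)) := by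
      rw [Finset.prod_range_succ]; ring
    rw [e, toL_sub, toL_X_pow_mul, ih]
    rfl

/-- the first coefficients of `∏ (1 - X^n)^24`. -/
theorem toL_P (N : ℕ) : toL N ModularCurve.dedekindEtaUnit = powL N (eulerL N N) 24 := by
  rw [ModularCurve.dedekindEtaUnit, toL_pow, toL_etaProd, toL_euler]

/-- the first coefficients of `E₄`. -/
def e4L (N : ℕ) : List ℤ :=
  tab N fun n => if n = 0 then 1 else 240 * sumTo (fun d => if d ∣ n then (d : ℤ) ^ 3 else 0) (n + 1)

theorem toL_E (N : ℕ) : toL N ModularCurve.eisenstein4 = e4L N := by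
  refine tab_congr N fun n _ => ?_
  rw [ModularCurve.eisenstein4, coeff_mk]
  split_ifs with h
  · rfl
  · congr 1
    rw [sumTo_eq, Nat.divisors, Finset.sum_filter]
    have : Finset.range (n + 1) = insert 0 (Finset.Ico 1 (n + 1)) := by
      ext i
      simp only [Finset.mem_range, Finset.mem_insert, Finset.mem_Ico]
      omega
    rw [this, Finset.sum_insert (by simp)]
    simp [h]

/-! ### the two numerical identities -/

/-- `c X^k G` (a wrapper, so that `simp` does not split the product). -/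
noncomputable def cx (c : ℤ) (k : ℕ) (G : ℤ⟦X⟧) : ℤ⟦X⟧ := C c * (X ^ k * G)

theorem toL_cx (N : ℕ) (c : ℤ) (k : ℕ) (G : ℤ⟦X⟧) :
    toL N (cx c k G) = smulL N c (shiftL N k (toL N G)) := by
  rw [cx, toL_C_mul, toL_X_pow_mul]

open ModularCurve in
/-- `sturm2 / q³` modulo `q^7`. -/
theorem trunc2 (n : ℕ) (hn : n < 7) :
    coeff n ((expand 2 two_ne_zero eisenstein4) ^ 3 * dedekindEtaUnit *
        expand 2 two_ne_zero dedekindEtaUnit) =
      coeff n ((dedekindEtaUnit + 16 * X * expand 2 two_ne_zero dedekindEtaUnit) ^ 3) := by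
  have e16 : ∀ G : ℤ⟦X⟧, 16 * X * G = cx 16 1 G := by
    intro G
    rw [cx, show (16 : ℤ⟦X⟧) = C 16 from (map_ofNat C 16).symm]; ring
  refine coeff_eq_of_toL_eq (N := 7) ?_ n hn
  simp only [e16, toL_mul, toL_pow, toL_add, toL_cx, toL_expand, toL_P, toL_E]
  decide +kernel

open ModularCurve in
/-- `sturm3 / q⁴` modulo `q^13`. -/
theorem trunc3 (n : ℕ) (hn : n < 13) :
    coeff n ((dedekindEtaUnit ^ 2 + 270 * X ^ 2 * (dedekindEtaUnit *
          expand 3 three_ne_zero dedekindEtaUnit) +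
        729 * X ^ 4 * (expand 3 three_ne_zero dedekindEtaUnit) ^ 2) ^ 2) =
      coeff n (dedekindEtaUnit * expand 3 three_ne_zero dedekindEtaUnit *
        (36 * X * dedekindEtaUnit + 756 * X ^ 3 * expand 3 three_ne_zero dedekindEtaUnit -
          (expand 3 three_ne_zero eisenstein4) ^ 3) ^ 2) := by
  have e1 : ∀ G : ℤ⟦X⟧, 270 * X ^ 2 * G = cx 270 2 G := by
    intro G
    rw [cx, show (270 : ℤ⟦X⟧) = C 270 from (map_ofNat C 270).symm]; ring
  have e2 : ∀ G : ℤ⟦X⟧, 729 * X ^ 4 * G = cx 729 4 G := by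
    intro G
    rw [cx, show (729 : ℤ⟦X⟧) = C 729 from (map_ofNat C 729).symm]; ring
  have e3 : ∀ G : ℤ⟦X⟧, 36 * X * G = cx 36 1 G := by
    intro G
    rw [cx, show (36 : ℤ⟦X⟧) = C 36 from (map_ofNat C 36).symm]; ring
  have e4 : ∀ G : ℤ⟦X⟧, 756 * X ^ 3 * G = cx 756 3 G := by
    intro G
    rw [cx, show (756 : ℤ⟦X⟧) = C 756 from (map_ofNat C 756).symm]; ring
  refine coeff_eq_of_toL_eq (N := 13) ?_ n hn
  simp only [e1, e2, e3, e4, toL_mul, toL_pow, toL_add, toL_sub, toL_cx,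
    toL_expand, toL_P, toL_E]
  decide +kernel

/-- `Δ = q ∏ (1 - qⁿ)^24` as a power series over `ℤ`. -/
noncomputable def DP : ℤ⟦X⟧ := X * ModularCurve.dedekindEtaUnit

theorem toL_DP (N : ℕ) : toL N DP = shiftL N 1 (powL N (eulerL N N) 24) := by
  rw [DP, ← toL_P, ← toL_X_pow_mul, pow_one]

/-- a wrapper for `c * G`. -/
noncomputable def cc (c : ℤ) (G : ℤ⟦X⟧) : ℤ⟦X⟧ := C c * G

theorem toL_cc (N : ℕ) (c : ℤ) (G : ℤ⟦X⟧) : toL N (cc c G) = smulL N c (toL N G) := by
  rw [cc, toL_C_mul]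

open ModularCurve in
/-- `sturm2` modulo `q^10` (Sturm bound `9`). -/
theorem trunc2D (n : ℕ) (hn : n < 10) :
    coeff n ((expand 2 two_ne_zero eisenstein4) ^ 3 * DP * expand 2 two_ne_zero DP) =
      coeff n ((DP + 16 * expand 2 two_ne_zero DP) ^ 3) := by
  have e16 : ∀ G : ℤ⟦X⟧, 16 * G = cc 16 G := by
    intro G
    rw [cc, show (16 : ℤ⟦X⟧) = C 16 from (map_ofNat C 16).symm]
  refine coeff_eq_of_toL_eq (N := 10) ?_ n hn
  simp only [e16, toL_mul, toL_pow, toL_add, toL_cc, toL_expand, toL_DP, toL_E]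
  decide +kernel

open ModularCurve in
/-- `sturm3` modulo `q^17` (Sturm bound `16`). -/
theorem trunc3D (n : ℕ) (hn : n < 17) :
    coeff n ((DP ^ 2 + 270 * (DP * expand 3 three_ne_zero DP) +
        729 * (expand 3 three_ne_zero DP) ^ 2) ^ 2) =
      coeff n (DP * expand 3 three_ne_zero DP *
        (36 * DP + 756 * expand 3 three_ne_zero DP -
          (expand 3 three_ne_zero eisenstein4) ^ 3) ^ 2) := by
  have e1 : ∀ G : ℤ⟦X⟧, 270 * G = cc 270 G := by
    intro G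
    rw [cc, show (270 : ℤ⟦X⟧) = C 270 from (map_ofNat C 270).symm]
  have e2 : ∀ G : ℤ⟦X⟧, 729 * G = cc 729 G := by
    intro G
    rw [cc, show (729 : ℤ⟦X⟧) = C 729 from (map_ofNat C 729).symm]
  have e3 : ∀ G : ℤ⟦X⟧, 36 * G = cc 36 G := by
    intro G
    rw [cc, show (36 : ℤ⟦X⟧) = C 36 from (map_ofNat C 36).symm]
  have e4 : ∀ G : ℤ⟦X⟧, 756 * G = cc 756 G := by
    intro G
    rw [cc, show (756 : ℤ⟦X⟧) = C 756 from (map_ofNat C 756).symm]
  refine coeff_eq_of_toL_eq (N := 17) ?_ n hn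
  simp only [e1, e2, e3, e4, toL_mul, toL_pow, toL_add, toL_sub, toL_cc,
    toL_expand, toL_DP, toL_E]
  decide +kernel

end Fermat.Agent.Crux.GM.Trunc
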