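import Fermat.Agent.Crux.GM.SturmGen
import Fermat.Agent.Crux.GM.Trunc
import Fermat.Agent.Crux.GT.QExp

/-!
# Crux / GM-Sturm3 (and the bridge power series ↔ Laurent series)
-/

set_option autoImplicit false

open ModularCurve

namespace Fermat.Agent.Crux.GM

open Fermat.Agent.S28

noncomputable section

namespace SturmBridge

/-- the embedding `ℤ⟦X⟧ → ℤ((q))`. -/
abbrev oP : PowerSeries ℤ →+* LaurentSeries ℤ := HahnSeries.ofPowerSeries ℤ ℤ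

theorem deltaC_eq : deltaC ℤ = oP Trunc.DP := by
  rw [deltaC, Trunc.DP, map_mul, HahnSeries.ofPowerSeries_X]
  congr 2

theorem V_oP (d : ℕ) [NeZero d] (f : PowerSeries ℤ) :
    V ℤ d (oP f) = oP (PowerSeries.expand d (NeZero.ne d) f) :=
  GT.qExpand_ofPowerSeries ℤ d f

theorem coeff_oP (f : PowerSeries ℤ) (m : ℕ) : (oP f).coeff (m : ℤ) = PowerSeries.coeff m f :=
  HahnSeries.ofPowerSeries_apply_coeff f m

end SturmBridge

open SturmBridge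

/-- **GM-Sturm3.** -/
theorem sturm3' : ((deltaC ℤ) ^ 2 + 270 * deltaC ℤ * V ℤ 3 (deltaC ℤ) + 729 * (V ℤ 3 (deltaC ℤ)) ^ 2) ^ 2 =
    deltaC ℤ * V ℤ 3 (deltaC ℤ) *
      (36 * deltaC ℤ + 756 * V ℤ 3 (deltaC ℤ) - (V ℤ 3 E4L) ^ 3) ^ 2 := by
  have hD : IsQ 3 12 (deltaC ℤ) := isQ_delta_one 3
  have hD3 : IsQ 3 12 (V ℤ 3 (deltaC ℤ)) := isQ_delta 3 3 dvd_rfl
  have hE3 : IsQ 3 4 (V ℤ 3 E4L) := isQ_E4 3 3 dvd_rfl
  have hL : IsQ 3 (12 * (4 : ℕ))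
      (((deltaC ℤ) ^ 2 + ((270 : ℤ) : LaurentSeries ℤ) * (deltaC ℤ * V ℤ 3 (deltaC ℤ))
        + ((729 : ℤ) : LaurentSeries ℤ) * (V ℤ 3 (deltaC ℤ)) ^ 2) ^ 2) :=
    ((((hD.pow 2).cast (by norm_num : (12 : ℤ) * (2 : ℕ) = 24)).add
      (((hD.mul hD3).intMul 270).cast (by norm_num))).add
      (((hD3.pow 2).intMul 729).cast (by norm_num))).pow 2 |>.cast (by norm_num)
  have hR : IsQ 3 (12 * (4 : ℕ))
      (deltaC ℤ * V ℤ 3 (deltaC ℤ) *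
        (((36 : ℤ) : LaurentSeries ℤ) * deltaC ℤ + ((756 : ℤ) : LaurentSeries ℤ) * V ℤ 3 (deltaC ℤ)
          - (V ℤ 3 E4L) ^ 3) ^ 2) :=
    ((hD.mul hD3).mul ((((hD.intMul 36).add (hD3.intMul 756)).sub
      ((hE3.pow 3).cast (by norm_num))).pow 2)).cast (by norm_num)
  have h0 := (hL.sub hR).eq_zero_of_sturm index_Gamma0_three ?_
  · rw [sub_eq_zero] at h0
    push_cast at h0
    rw [← h0]
    ring
  · intro m hm
    rw [deltaC_eq, E4L, V_oP, V_oP]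
    simp only [← map_pow, ← map_mul, ← map_add, ← map_sub, ← map_intCast oP]
    rw [coeff_oP, map_sub, sub_eq_zero]
    have := Trunc.trunc3D m (by omega)
    push_cast
    simp only [map_pow]
    exact this

/-- **GM-Sturm2.** -/
theorem sturm2' : (V ℤ 2 E4L) ^ 3 * deltaC ℤ * V ℤ 2 (deltaC ℤ) =
    (deltaC ℤ + 16 * V ℤ 2 (deltaC ℤ)) ^ 3 := by
  have hD : IsQ 2 12 (deltaC ℤ) := isQ_delta_one 2
  have hD2 : IsQ 2 12 (V ℤ 2 (deltaC ℤ)) := isQ_delta 2 2 dvd_rfl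
  have hE2 : IsQ 2 4 (V ℤ 2 E4L) := isQ_E4 2 2 dvd_rfl
  have hL : IsQ 2 (12 * (3 : ℕ)) ((V ℤ 2 E4L) ^ 3 * deltaC ℤ * V ℤ 2 (deltaC ℤ)) :=
    (((hE2.pow 3).mul hD).mul hD2).cast (by norm_num)
  have hR : IsQ 2 (12 * (3 : ℕ))
      ((deltaC ℤ + ((16 : ℤ) : LaurentSeries ℤ) * V ℤ 2 (deltaC ℤ)) ^ 3) :=
    ((hD.add (hD2.intMul 16)).pow 3).cast (by norm_num)
  have h0 := (hL.sub hR).eq_zero_of_sturm index_Gamma0_two ?_
  · rw [sub_eq_zero] at h0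
    push_cast at h0
    exact h0
  · intro m hm
    rw [deltaC_eq, E4L, V_oP, V_oP]
    simp only [← map_pow, ← map_mul, ← map_add, ← map_sub, ← map_intCast oP]
    rw [coeff_oP, map_sub, sub_eq_zero]
    have := Trunc.trunc2D m (by omega)
    push_cast
    simp only [map_pow]
    exact this

end

end Fermat.Agent.Crux.GM
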