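import Fermat.Agent.Crux.GM.Deg
import Fermat.Agent.Crux.GM.Lead
import Fermat.Agent.Crux.GM.Sturm23

/-!
# Crux / GM-Haupt : the Hauptmoduln of levels 2 and 3 as formal series over `ℤ`

* `hH p = Δ(q)/Δ(q^p)`, `h2 = hH 2 = q⁻¹ - 24 + …`, `h3 = (η(q)/η(q³))^12 = q⁻¹ - 12 + …`, `h3² = hH 3`.
* **two Sturm identities** (checked numerically to `q^80`):
  `sturm2 : E₄(q²)³ Δ(q) Δ(q²) = (Δ(q) + 16 Δ(q²))³`                                  (weight 36, level 2)
  `sturm3 : (Δ² + 270 Δ Δ₃ + 729 Δ₃²)² = Δ Δ₃ (36 Δ + 756 Δ₃ - E₄(q³)³)²`, `Δ₃ = Δ(q³)`   (weight 48, level 3)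
  PROOF: both sides are `q`-expansions of modular forms on `Γ₀(p)`:
  `S24/Sturm/Forms.lean` (`IsMF`, `isMF_comp_mulH`, `Ad`, `Bd`, `IsMF.mul/pow/add/smul`),
  `S24/QDict.lean` (`qExpansion_comp_mulH_coeff`, `ofPowerSeries_qExpansion_comp_mulH`, `laurent_E4d`, `laurent_Dd`),
  `S28.qExpansion_E4`, `S28.qExpansion_discriminant`; Prelude `ModularForm.sturm_bound_Gamma0`
  (index of `Γ₀(2)` is 3, of `Γ₀(3)` is 4: `Gamma0Comb.index_Gamma0`): coefficients `0..9`, resp. `0..16`.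
  After dividing by `q³` (resp. `q⁴`) one needs `∏(1-qⁿ)^24` and `E₄` only mod `q^7` (resp. `q^13`).
  The identity over `ℂ` gives the identity over `ℤ` (`Int.cast` injective, `S28.Build.coeffMap_injective`).
* `h2_identity : j(q²) h2 = (h2 + 16)³` : multiply `sturm2` by `Δ(q²)⁻³` (`J = E₄³ Δ⁻¹`).
* `h3_formula`, `h3_identity` : `sturm3 / Δ₃⁴` reads `(H²+270H+729)² = H (36H+756-j₃)² = (h3 (36H+756-j₃))²`; `ℤ((q))` is a
  domain, so `H²+270H+729 = ± h3 (36H+756-j₃)`; the leading coefficients (`q⁻⁴`: `1` and `-1`) give the sign `-`.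
  With `H = h3²`: `h3⁴+36h3³+270h3²+756h3+729 = j₃ h3`.
* membership: `S28.ModEqData.hΛ` + `S28.UnitArg.derivative_ne_zero` give `uInf Ω p ∈ Ω(j, j_p)` for `Ω` algebraically
  closed (`S28.exists_modEqData`); `castS Ω (hH p) = p^12 / uInf Ω p`; descent `Ω → K` by `mem_full_of_coeffMap_mem`.
-/

set_option autoImplicit false

open ModularCurve Polynomial
open scoped IntermediateField

namespace Fermat.Agent.Crux.GM

open Fermat.Agent.S28

noncomputable section

-- `E4L` (`E₄` as a Laurent series over `ℤ`) is now defined in `GM/SturmGen.lean`.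

/-- **GM-Sturm2.** -/
theorem sturm2 : (V ℤ 2 E4L) ^ 3 * deltaC ℤ * V ℤ 2 (deltaC ℤ) =
    (deltaC ℤ + 16 * V ℤ 2 (deltaC ℤ)) ^ 3 := sturm2'

/-- **GM-Sturm3.** -/
theorem sturm3 : ((deltaC ℤ) ^ 2 + 270 * deltaC ℤ * V ℤ 3 (deltaC ℤ) + 729 * (V ℤ 3 (deltaC ℤ)) ^ 2) ^ 2 =
    deltaC ℤ * V ℤ 3 (deltaC ℤ) *
      (36 * deltaC ℤ + 756 * V ℤ 3 (deltaC ℤ) - (V ℤ 3 E4L) ^ 3) ^ 2 := sturm3'

/-- `Δ(q)/Δ(q^p)`. -/
def hH (p : ℕ) [NeZero p] : LaurentSeries ℤ := deltaC ℤ * V ℤ p (deltaInvC ℤ)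

/-- the Hauptmodul of level 2. -/
def h2 : LaurentSeries ℤ := hH 2

/-- the Hauptmodul of level 3, `(η(q)/η(q³))^12`. -/
def h3 : LaurentSeries ℤ :=
  HahnSeries.single (-1 : ℤ) 1 * HahnSeries.ofPowerSeries ℤ ℤ (etaProd ^ 12) *
    V ℤ 3 (HahnSeries.ofPowerSeries ℤ ℤ ((etaProd ^ 12).invOfUnit 1))

theorem deltaC_mul_deltaInvC (A : Type*) [CommRing A] : deltaC A * deltaInvC A = 1 :=
  Build.deltaC_mul_deltaInvC A

theorem J_eq (A : Type*) [CommRing A] :
    J A = (castS A E4L) ^ 3 * deltaInvC A := by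
  rw [Build.J_eq, Build.EL, castS, E4L, ModularCurve.coeffMap_ofPowerSeries, ← map_pow, ← map_pow]

/-- order and leading coefficient from "vanishes below `k`, coefficient `1` at `k`". -/
theorem haupt_order_of_coeff {x : LaurentSeries ℤ} {k : ℤ} (h : ∀ n < k, x.coeff n = 0)
    (hk : x.coeff k = 1) : x.order = k ∧ x.leadingCoeff = 1 := by
  have hne : x.coeff k ≠ 0 := by rw [hk]; exact one_ne_zero
  have hx : x ≠ 0 := HahnSeries.ne_zero_of_coeff_ne_zero hne
  have ho : x.order = k := by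
    refine le_antisymm (HahnSeries.order_le_of_coeff_ne_zero hne) ?_
    by_contra hlt
    exact hx (HahnSeries.coeff_order_eq_zero.mp (h _ (not_le.mp hlt)))
  exact ⟨ho, by rw [HahnSeries.leadingCoeff_eq, ho, hk]⟩

/-- order and leading coefficient of a product. -/
theorem haupt_order_mul {x y : LaurentSeries ℤ} {k l : ℤ} (hx : x.order = k ∧ x.leadingCoeff = 1)
    (hy : y.order = l ∧ y.leadingCoeff = 1) : (x * y).order = k + l ∧ (x * y).leadingCoeff = 1 := by
  have h : x.leadingCoeff * y.leadingCoeff ≠ 0 := by rw [hx.2, hy.2]; norm_num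
  refine ⟨by rw [HahnSeries.order_mul_of_ne_zero h, hx.1, hy.1], ?_⟩
  rw [HahnSeries.leadingCoeff_mul_of_ne_zero h, hx.2, hy.2, mul_one]

/-- order and leading coefficient of `q^k * (1 + …)`. -/
theorem haupt_order_single_mul (k : ℤ) (u : PowerSeries ℤ) (hu : PowerSeries.constantCoeff u = 1) :
    (HahnSeries.single k (1 : ℤ) * HahnSeries.ofPowerSeries ℤ ℤ u).order = k ∧
      (HahnSeries.single k (1 : ℤ) * HahnSeries.ofPowerSeries ℤ ℤ u).leadingCoeff = 1 := by
  refine haupt_order_of_coeff ?_ ?_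
  · have := Build.mul_mem_F (Build.single_mem_F k (1 : ℤ)) (Build.ofPowerSeries_mem_F u)
    rw [add_zero] at this
    exact this
  · have h := HahnSeries.coeff_single_mul_add (r := (1 : ℤ))
      (x := HahnSeries.ofPowerSeries ℤ ℤ u) (a := 0) (b := k)
    rw [zero_add, one_mul] at h
    rw [h]
    have h2 := HahnSeries.ofPowerSeries_apply_coeff (Γ := ℤ) u 0
    rw [Nat.cast_zero] at h2
    rw [h2, PowerSeries.coeff_zero_eq_constantCoeff_apply, hu]

/-- order and leading coefficient of `x(q^p)`. -/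
theorem haupt_order_V (p : ℕ) [NeZero p] {x : LaurentSeries ℤ} {k : ℤ}
    (hx : x.order = k ∧ x.leadingCoeff = 1) :
    (V ℤ p x).order = p * k ∧ (V ℤ p x).leadingCoeff = 1 := by
  refine haupt_order_of_coeff ?_ ?_
  · refine Build.V_mem_F p ?_
    intro n hn
    exact HahnSeries.coeff_eq_zero_of_lt_order (by rw [hx.1]; exact hn)
  · rw [qExpand_coeff_mul, ← hx.1, ← HahnSeries.leadingCoeff_eq, hx.2]

theorem haupt_map_intCast (u : PowerSeries ℤ) : u.map (Int.castRingHom ℤ) = u := by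
  ext n
  simp

theorem haupt_order_deltaC : (deltaC ℤ).order = 1 ∧ (deltaC ℤ).leadingCoeff = 1 := by
  rw [deltaC, haupt_map_intCast]
  exact haupt_order_single_mul 1 _ constantCoeff_dedekindEtaUnit

theorem haupt_order_deltaInvC : (deltaInvC ℤ).order = -1 ∧ (deltaInvC ℤ).leadingCoeff = 1 := by
  rw [deltaInvC, haupt_map_intCast]
  exact haupt_order_single_mul (-1) _ constantCoeff_dedekindEtaUnitInv

/-- order and leading coefficient of `Δ(q)/Δ(q^p)`. -/
theorem haupt_order_hH (p : ℕ) [NeZero p] :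
    (hH p).order = 1 + p * (-1) ∧ (hH p).leadingCoeff = 1 :=
  haupt_order_mul haupt_order_deltaC (haupt_order_V p haupt_order_deltaInvC)

theorem haupt_castS_int (x : LaurentSeries ℤ) : castS ℤ x = x := by
  ext n
  simp

theorem haupt_V_deltaC_mul (p : ℕ) [NeZero p] :
    V ℤ p (deltaC ℤ) * V ℤ p (deltaInvC ℤ) = 1 := by
  rw [← map_mul, deltaC_mul_deltaInvC, map_one]

theorem h2_order : h2.order = -1 ∧ h2.leadingCoeff = 1 := by
  have h := haupt_order_hH 2
  norm_num at h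
  exact h

/-! ### auxiliary lemmas for GM-Haupt3 -/

theorem Haupt3.map_castRingHom_int (f : PowerSeries ℤ) : f.map (Int.castRingHom ℤ) = f := by
  ext n
  simp

theorem Haupt3.castS_int (x : LaurentSeries ℤ) : castS ℤ x = x := by
  ext n
  simp [castS]

theorem Haupt3.etaProd12_mul_inv : etaProd ^ 12 * (etaProd ^ 12).invOfUnit 1 = 1 :=
  PowerSeries.mul_invOfUnit _ _ (by rw [map_pow, constantCoeff_etaProd, one_pow]; rfl)

theorem Haupt3.inv_sq : ((etaProd ^ 12).invOfUnit 1) ^ 2 = dedekindEtaUnitInv := by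
  have h1 : dedekindEtaUnit * ((etaProd ^ 12).invOfUnit 1) ^ 2 = 1 := by
    have : dedekindEtaUnit = (etaProd ^ 12) ^ 2 := by rw [dedekindEtaUnit, ← pow_mul]
    rw [this, ← mul_pow, etaProd12_mul_inv, one_pow]
  calc ((etaProd ^ 12).invOfUnit 1) ^ 2
      = (dedekindEtaUnit * dedekindEtaUnitInv) * ((etaProd ^ 12).invOfUnit 1) ^ 2 := by
        rw [dedekindEtaUnit_mul_inv, one_mul]
    _ = dedekindEtaUnitInv * (dedekindEtaUnit * ((etaProd ^ 12).invOfUnit 1) ^ 2) := by ring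
    _ = dedekindEtaUnitInv := by rw [h1, mul_one]

theorem Haupt3.constantCoeff_inv : PowerSeries.constantCoeff ((etaProd ^ 12).invOfUnit 1) = 1 := by
  have h := congrArg (PowerSeries.constantCoeff (R := ℤ)) etaProd12_mul_inv
  rwa [map_mul, map_pow, constantCoeff_etaProd, one_pow, one_mul, map_one] at h

theorem Haupt3.lead_h3 : Lead h3 (-1) 1 := by
  have h1 := ((Lead.single (-1 : ℤ) (1 : ℤ)).mul (Lead.ofPowerSeries (etaProd ^ 12))).mul
    ((Lead.ofPowerSeries ((etaProd ^ 12).invOfUnit 1)).V 3)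
  have hc : PowerSeries.constantCoeff (etaProd ^ 12) = 1 := by
    rw [map_pow, constantCoeff_etaProd, one_pow]
  rw [constantCoeff_inv, hc] at h1
  unfold h3
  convert h1 using 1 <;> norm_num

theorem h3_order : h3.order = -1 ∧ h3.leadingCoeff = 1 :=
  ⟨Haupt3.lead_h3.order_eq one_ne_zero, Haupt3.lead_h3.leadingCoeff_eq one_ne_zero⟩

/-- **GM-Haupt2.** -/
theorem h2_identity : V ℤ 2 (J ℤ) * h2 = (h2 + 16) ^ 3 := by
  have hs := sturm2
  have hI := haupt_V_deltaC_mul 2
  rw [J_eq, haupt_castS_int, map_mul, map_pow, h2, hH]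
  generalize V ℤ 2 E4L = e at hs ⊢
  generalize V ℤ 2 (deltaC ℤ) = D2 at hs hI ⊢
  generalize V ℤ 2 (deltaInvC ℤ) = I2 at hI ⊢
  generalize deltaC ℤ = D at hs ⊢
  have h1 : D * I2 + 16 = (D + 16 * D2) * I2 := by
    linear_combination (-16 : LaurentSeries ℤ) * hI
  rw [h1, mul_pow, ← hs]
  linear_combination (-(e ^ 3 * D * I2 ^ 2)) * hI

theorem h3_sq : h3 ^ 2 = hH 3 := by
  unfold h3 hH deltaC deltaInvC
  rw [Haupt3.map_castRingHom_int, Haupt3.map_castRingHom_int, map_mul, qExpand_single, mul_pow,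
    mul_pow]
  have e1 : (HahnSeries.single (-1 : ℤ) (1 : ℤ)) ^ 2 =
      HahnSeries.single (1 : ℤ) (1 : ℤ) * HahnSeries.single (((3 : ℕ) : ℤ) * (-1)) (1 : ℤ) := by
    rw [HahnSeries.single_mul_single, HahnSeries.single_pow]
    norm_num
  have e2 : (HahnSeries.ofPowerSeries ℤ ℤ (etaProd ^ 12)) ^ 2 =
      HahnSeries.ofPowerSeries ℤ ℤ dedekindEtaUnit := by
    rw [← map_pow, ← pow_mul]
    rfl
  have e3 : (V ℤ 3 (HahnSeries.ofPowerSeries ℤ ℤ ((etaProd ^ 12).invOfUnit 1))) ^ 2 =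
      V ℤ 3 (HahnSeries.ofPowerSeries ℤ ℤ dedekindEtaUnitInv) := by
    rw [← map_pow, ← map_pow, Haupt3.inv_sq]
  rw [e1, e2, e3]
  ring

theorem Haupt3.lead_VJ : Lead (V ℤ 3 (J ℤ)) (-3) 1 := by
  have h : Lead (J ℤ) (-1) 1 := ⟨coeff_jqModC_neg_one ℤ, fun _ hk => coeff_jqModC_of_lt ℤ hk⟩
  simpa using h.V 3

theorem Haupt3.sq_eq : ((hH 3) ^ 2 + 270 * hH 3 + 729) ^ 2 =
    (h3 * (36 * hH 3 + 756 - V ℤ 3 (J ℤ))) ^ 2 := by
  have hb : V ℤ 3 (deltaC ℤ) * V ℤ 3 (deltaInvC ℤ) = 1 := by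
    rw [← map_mul, deltaC_mul_deltaInvC, map_one]
  have hJ : V ℤ 3 (J ℤ) = (V ℤ 3 E4L) ^ 3 * V ℤ 3 (deltaInvC ℤ) := by
    rw [J_eq, Haupt3.castS_int, map_mul, map_pow]
  rw [mul_pow, h3_sq, hJ]
  unfold hH
  have hs := sturm3
  generalize deltaC ℤ = a at *
  generalize V ℤ 3 a = b at *
  generalize V ℤ 3 (deltaInvC ℤ) = b' at *
  generalize V ℤ 3 E4L = E at *
  have e1 : (a * b') ^ 2 + 270 * (a * b') + 729 = (a ^ 2 + 270 * a * b + 729 * b ^ 2) * b' ^ 2 := by
    linear_combination (-(270 * a * b' + 729 * (1 + b * b'))) * hb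
  have e2 : 36 * (a * b') + 756 - E ^ 3 * b' = (36 * a + 756 * b - E ^ 3) * b' := by
    linear_combination (-756 : LaurentSeries ℤ) * hb
  have e3 : a * b' = (a * b) * b' ^ 2 := by
    linear_combination (-(a * b')) * hb
  rw [e1, e2, mul_pow, hs, e3]
  ring

theorem h3_formula : h3 * (36 * hH 3 + 756 - V ℤ 3 (J ℤ)) = -((hH 3) ^ 2 + 270 * hH 3 + 729) := by
  rcases sq_eq_sq_iff_eq_or_eq_neg.mp Haupt3.sq_eq with h | h
  · exfalso
    have hHl : Lead (hH 3) (-2) 1 := by
      rw [← h3_sq]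
      simpa using Haupt3.lead_h3.pow 2
    have hX : Lead ((hH 3) ^ 2 + 270 * hH 3 + 729) (-4) 1 := by
      have h1 : Lead ((hH 3) ^ 2) (-4) 1 := by simpa using hHl.pow 2
      have h2 : Lead (270 * hH 3) (-4) 0 := ((Lead.ofNat 270).mul hHl).mono (by norm_num)
      have h3 : Lead (729 : LaurentSeries ℤ) (-4) 0 := (Lead.ofNat 729).mono (by norm_num)
      simpa using (h1.add h2).add h3
    have hY : Lead (h3 * (36 * hH 3 + 756 - V ℤ 3 (J ℤ))) (-4) (-1) := by
      have h1 : Lead (36 * hH 3) (-3) 0 := ((Lead.ofNat 36).mul hHl).mono (by norm_num)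
      have h2 : Lead (756 : LaurentSeries ℤ) (-3) 0 := (Lead.ofNat 756).mono (by norm_num)
      have h3 := Haupt3.lead_h3.mul ((h1.add h2).sub Haupt3.lead_VJ)
      simpa using h3
    have := hX.1
    rw [h, hY.1] at this
    norm_num at this
  · rw [h, neg_neg]

/-- **GM-Haupt3.** -/
theorem h3_identity : V ℤ 3 (J ℤ) * h3 = (h3 + 27) * (h3 + 3) ^ 3 := by
  have h := h3_formula
  rw [← h3_sq] at h
  linear_combination -h

/-- **GM-Descent of membership**: `F_Ω ∩ K((q)) = F_K`.  (If `z ∉ span_{K(t)} (b_i)`, `b` a monomial basis,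
`t = j_N`, then `(z, b_1, …, b_c)` is independent over `K(t)`, hence over `Ω(t)`
(`S28.linearIndependent_coeffMap`), contradicting `[F_Ω : Ω(t)] = c`; cf. `hspan` in `S28.good_full`.) -/
theorem mem_full_of_coeffMap_mem (N : ℕ) [NeZero N] (K Ω : Type) [Field K] [Field Ω] (f : K →+* Ω)
    (hN : ∀ p : ℕ, p.Prime → p ∣ N → (p : K) ≠ 0) (z : LaurentSeries K)
    (hz : coeffMap f z ∈ modularFunctionFieldFullC Ω N) : z ∈ modularFunctionFieldFullC K N := by
  obtain ⟨c, hc, h⟩ := exists_degree_basis N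
  have hNΩ : ∀ p : ℕ, p.Prime → p ∣ N → (p : Ω) ≠ 0 := by
    intro p hp hpN h0
    apply hN p hp hpN
    have h1 : f (p : K) = 0 := by rw [map_natCast]; exact h0
    exact (map_eq_zero _).mp h1
  obtain ⟨hΩ, -⟩ := h Ω hNΩ
  obtain ⟨-, b, hbmem, hind⟩ := h K hN
  have hle := adjoin_VJ_le_full K N
  have hbF : ∀ i, castS K (b i) ∈ modularFunctionFieldFullC K N := fun i =>
    monoS_le_full K N (coeffMap_mem_monoS _ N (hbmem i))
  by_contra hzK
  have hxs : z ∉ Submodule.span K⟮V K N (J K)⟯ (Set.range fun i => castS K (b i)) := by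
    intro hzs
    have hsp : Submodule.span K⟮V K N (J K)⟯ (Set.range fun i => castS K (b i)) ≤
        Subalgebra.toSubmodule (IntermediateField.extendScalars hle).toSubalgebra := by
      rw [Submodule.span_le]
      rintro _ ⟨i, rfl⟩
      exact hbF i
    exact hzK (hsp hzs)
  have h3 : LinearIndependent K⟮V K N (J K)⟯
      (Fin.cons z (fun i => castS K (b i)) : Fin (c + 1) → LaurentSeries K) :=
    linearIndependent_finCons.mpr ⟨hind, hxs⟩
  have h4 := linearIndependent_coeffMap f _ _ h3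
  have h1 : coeffMap f (V K N (J K)) = V Ω N (J Ω) := by
    rw [coeffMap_qExpand, coeffMap_jqModC]
  rw [h1] at h4
  refine not_linearIndependent_of_relfinrank Ω N c hc hΩ (by simp) _ ?_ h4
  intro i
  refine Fin.cases ?_ (fun i => ?_) i
  · exact hz
  · exact coeffMap_mem_full f N (hbF i)

/-- Values at points of `F` of polynomials with coefficients in `K[j]` lie in `F`. -/
theorem eval_map_evAt_mem_full (K : Type) [Field K] (N : ℕ) (P : K[X][X]) {x : LaurentSeries K}
    (hx : x ∈ modularFunctionFieldFullC K N) :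
    (P.map (evAt (J K))).eval x ∈ modularFunctionFieldFullC K N := by
  rw [Polynomial.eval_map, Polynomial.eval₂_eq_sum_range]
  refine sum_mem fun i _ => mul_mem ?_ (pow_mem hx i)
  rw [UnitArg.evAt_eq_aeval, Polynomial.aeval_eq_sum_range]
  refine sum_mem fun k _ => ?_
  rw [Algebra.smul_def]
  exact mul_mem (IntermediateField.algebraMap_mem _ _) (pow_mem (jqModC_mem_full K N) k)

theorem uInf_mul_castS_hH (K : Type) [Field K] (p : ℕ) [NeZero p] :
    uInf K p * castS K (hH p) = HahnSeries.C ((p : K) ^ 12) := by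
  rw [hH, castS, map_mul, Build.coeffMap_deltaC, Build.coeffMap_V, Build.coeffMap_deltaInvC, uInf]
  have h1 := Build.deltaC_mul_deltaInvC K
  have h2 : V K p (deltaC K) * V K p (deltaInvC K) = 1 := by rw [← map_mul, h1, map_one]
  calc HahnSeries.C ((p : K) ^ 12) * (V K p (deltaC K) * deltaInvC K) *
        (deltaC K * V K p (deltaInvC K))
      = HahnSeries.C ((p : K) ^ 12) * (V K p (deltaC K) * V K p (deltaInvC K)) *
        (deltaC K * deltaInvC K) := by ring
    _ = _ := by rw [h1, h2, mul_one, mul_one]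

/-- **GM-HMem.** -/
theorem hH_mem (K : Type) [Field K] (p : ℕ) [Fact p.Prime] [NeZero p] (hp : (p : K) ≠ 0) :
    castS K (hH p) ∈ modularFunctionFieldFullC K p := by
  have hpΩ : (p : AlgebraicClosure K) ≠ 0 := by
    intro h0
    apply hp
    have h1 : algebraMap K (AlgebraicClosure K) (p : K) = 0 := by rw [map_natCast]; exact h0
    exact (map_eq_zero _).mp h1
  apply mem_full_of_coeffMap_mem p K (AlgebraicClosure K) (algebraMap K (AlgebraicClosure K))
  · intro r hr hrp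
    rwa [(Nat.prime_dvd_prime_iff_eq hr (Fact.out : p.Prime)).mp hrp]
  have hcast : coeffMap (algebraMap K (AlgebraicClosure K)) (castS K (hH p)) =
      castS (AlgebraicClosure K) (hH p) := by
    rw [castS, coeffMap_coeffMap]
    exact coeffMap_congr (RingHom.ext_int _ _) _
  rw [hcast]
  obtain ⟨D⟩ := exists_modEqData (AlgebraicClosure K) p
  have hd := UnitArg.derivative_ne_zero p D
  have hVJ : V (AlgebraicClosure K) p (J (AlgebraicClosure K)) ∈
      modularFunctionFieldFullC (AlgebraicClosure K) p := jqModCd_mem_full _ p dvd_rfl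
  have hu : uInf (AlgebraicClosure K) p ∈ modularFunctionFieldFullC (AlgebraicClosure K) p := by
    rw [eq_div_of_mul_eq hd D.hΛ]
    refine div_mem (eval_map_evAt_mem_full _ _ _ hVJ) ?_
    rw [Polynomial.derivative_map]
    exact eval_map_evAt_mem_full _ _ _ hVJ
  obtain ⟨hu0, -⟩ := UnitArg.uInf_ne_zero_and_order (K := AlgebraicClosure K) p hpΩ
  have hmul := uInf_mul_castS_hH (AlgebraicClosure K) p
  rw [mul_comm] at hmul
  rw [eq_div_of_mul_eq hu0 hmul]
  refine div_mem ?_ hu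
  have hC : (HahnSeries.C ((p : AlgebraicClosure K) ^ 12) : LaurentSeries (AlgebraicClosure K)) =
      algebraMap (AlgebraicClosure K) (LaurentSeries (AlgebraicClosure K))
        ((p : AlgebraicClosure K) ^ 12) := by
    rw [algebraMap_laurentSeries_eq_single]
    rfl
  rw [hC]
  exact IntermediateField.algebraMap_mem _ _

theorem h2_mem (K : Type) [Field K] (hp : (2 : K) ≠ 0) :
    castS K h2 ∈ modularFunctionFieldFullC K 2 := by
  have : Fact (Nat.Prime 2) := ⟨Nat.prime_two⟩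
  exact hH_mem K 2 (by exact_mod_cast hp)

theorem h3_mem (K : Type) [Field K] (hp : (3 : K) ≠ 0) :
    castS K h3 ∈ modularFunctionFieldFullC K 3 := by
  have : Fact (Nat.Prime 3) := ⟨Nat.prime_three⟩
  have hH3 : castS K (hH 3) ∈ modularFunctionFieldFullC K 3 := hH_mem K 3 (by exact_mod_cast hp)
  have hVJ : V K 3 (J K) ∈ modularFunctionFieldFullC K 3 := jqModCd_mem_full _ 3 dvd_rfl
  have hform := congrArg (castS K) h3_formula
  simp only [castS, map_mul, map_add, map_sub, map_neg, map_pow, map_ofNat, Build.coeffMap_V,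
    Build.coeffMap_J] at hform
  -- the order of `hH 3` is `-2`
  have hh3 : h3 ≠ 0 := by
    intro h0
    have := h3_order.1
    rw [h0, HahnSeries.order_zero] at this
    omega
  have hord : (hH 3).order = -2 := by
    rw [← h3_sq, pow_two, HahnSeries.order_mul hh3 hh3, h3_order.1]
    norm_num
  have hc1 : (coeffMap (Int.castRingHom K) (hH 3)).coeff (-3) = 0 := by
    rw [coeffMap_coeff, HahnSeries.coeff_eq_zero_of_lt_order (by rw [hord]; norm_num), map_zero]
  have hc2 : (V K 3 (J K)).coeff (-3) = 1 := by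
    have := qExpand_coeff_mul (R := K) 3 (J K) (-1)
    rw [coeff_jqModC_neg_one] at this
    simpa using this
  have hne : (36 * coeffMap (Int.castRingHom K) (hH 3) + 756 - V K 3 (J K)) ≠ 0 := by
    intro h0
    have h1 := congrArg (fun y => y.coeff (-3)) h0
    have h36 : (36 : LaurentSeries K) = HahnSeries.C (36 : K) := (map_ofNat HahnSeries.C 36).symm
    have h756 : (756 : LaurentSeries K) = HahnSeries.C (756 : K) := (map_ofNat HahnSeries.C 756).symm
    simp only [HahnSeries.coeff_sub, HahnSeries.coeff_add, HahnSeries.coeff_zero] at h1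
    rw [hc2, h36, h756, HahnSeries.C_mul_eq_smul, HahnSeries.coeff_smul, hc1, HahnSeries.C_apply,
      HahnSeries.coeff_single_of_ne (by norm_num)] at h1
    simp at h1
  rw [castS, eq_div_of_mul_eq hne hform]
  have hnat : ∀ m : ℕ, (m : LaurentSeries K) ∈ modularFunctionFieldFullC K 3 := fun m =>
    natCast_mem _ m
  refine div_mem (neg_mem (add_mem (add_mem (pow_mem hH3 2) (mul_mem ?_ hH3)) ?_))
    (sub_mem (add_mem (mul_mem ?_ hH3) ?_) hVJ)
  · exact_mod_cast hnat 270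
  · exact_mod_cast hnat 729
  · exact_mod_cast hnat 36
  · exact_mod_cast hnat 756

end

end Fermat.Agent.Crux.GM
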