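import Fermat.Agent.Crux.GM.Tower
import Fermat.Agent.Crux.GM.Haupt
import Fermat.Agent.Crux.GM.CoordJ
import Fermat.Agent.Crux.GM.CoordHAux
import Fermat.Agent.Crux.Reduce

/-!
# Crux / GM-CoordH : good coordinates for `ℓ = 3` (level `2e`) and `ℓ = 2` (level `3e`); `exists_goodCoord`

`goodCoord_of_hauptData`.  `M = M0 * e`, `xh = V ℤ e h`, `D = deg P`.
* order `-e`, leading coefficient `1`; `castS K (V ℤ e h) = V K e (castS K h) ∈ F_{K,M}` (`full_degeneracyC_map_le`).
* `P(x) = j_M x`: apply `V ℤ e` to `ident` (`qExpand_qExpand`, `qExpand_congr`), then `castS K`.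
* `c = Nat.card (XN M)` (`exists_degree_basis_card`); `n := c / D`; `relfinrank_tower` for all fields in which `M` is invertible
  (`P(0) ≠ 0` in `K`: char. 0, resp. `ℓ ∤ P(0)`); `exists_basis_monoS_over` for `k`; monomials lie in `F_K`.
* `pack`: `BranchOK` + `hasPack_tower` with `σ` from `hasPack_jM` / `pack_jM_I` / `pack_jM_rho`;
  `finrank Kb⟮x⟯ (FN M) = n` by `relfinrank_bar_eq_finrank`.

`branch2`, `branch3` (polynomial algebra over `Kb`):
* `P = (X+16)³`: `P - 1728 X = (X+64)(X-8)²`, `X P' - P = 2 (X+16)² (X-8)`.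
  `c' = -16`: `c = 0`, `E0 = 3`, `H = 1`.  `c' = 8`: `c = 1728`, `E0 = 2`, `H = X + 64`.  Otherwise `c = P(c')/c' ∉ {0, 1728}`
  (as `c' ≠ -64`), `E0 = 1`, `H = (P - c X)/(X - c')`, `H(c') = P'(c') - c = (c' P'(c') - P(c'))/c' ≠ 0`.
* `P = (X+27)(X+3)³`: `P - 1728 X = (X²+18X-27)²`, `X P' - P = 3 (X+3)² (X²+18X-27)`.
  `c' = -3`: `c = 0`, `E0 = 3`, `H = X + 27`.  `c'² + 18 c' - 27 = 0`: `c = 1728`, `E0 = 2`, `H = (X - c'')²`, `c'' = -18 - c' ≠ c'`.
-/

set_option autoImplicit false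

open ModularCurve Polynomial
open scoped IntermediateField

namespace Fermat.Agent.Crux.GM

open Fermat.Agent.S28
open Fermat.Agent.S24 (Kb FN XN)

/-- `exists_degree_basis` with the explicit constant `c = [SL₂(ℤ) : Γ₀(M)]`
(`exists_degree_basis` for `K = Kb`, `relfinrank_bar_eq_finrank`, `finrank_adjoin_jM`,
`S17.IsFFAux.laurentBaseChange_eq_fullC`). -/
theorem exists_degree_basis_card (M : ℕ) [NeZero M] : 0 < Nat.card (XN M) ∧
    ∀ (K : Type) [Field K], (∀ p : ℕ, p.Prime → p ∣ M → (p : K) ≠ 0) →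
      (K⟮V K M (J K)⟯).relfinrank (modularFunctionFieldFullC K M) = Nat.card (XN M) ∧
      ∃ b : Fin (Nat.card (XN M)) → LaurentSeries ℤ, (∀ i, b i ∈ monoS ℤ M) ∧
        LinearIndependent K⟮V K M (J K)⟯ (fun i => castS K (b i)) := by
  obtain ⟨c, hc0, hc⟩ := exists_degree_basis M
  have hchar0 : ∀ (K : Type) [Field K] [CharZero K], ∀ p : ℕ, p.Prime → p ∣ M → (p : K) ≠ 0 :=
    fun K _ _ p hp _ => by exact_mod_cast hp.ne_zero
  have hcard : c = Nat.card (XN M) := by
    have h1 := (hc Kb (hchar0 _)).1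
    have h2 := relfinrank_bar_eq_finrank M (Fermat.Agent.S24.jF M M dvd_rfl)
    rw [finrank_adjoin_jM] at h2
    have h3 : modularFunctionFieldBar M = modularFunctionFieldFullC Kb M :=
      Fermat.Agent.S17.IsFFAux.laurentBaseChange_eq_fullC _ M
    have h4 : ((Fermat.Agent.S24.jF M M dvd_rfl : FN M) : LaurentSeries Kb) = V Kb M (J Kb) := by
      show coeffEmb Kb (qExpand ℚ M jq) = _
      rw [coeffEmb, coeffMap_qExpand, ← jqModC_rat, coeffMap_jqModC]
    have h2' : (IntermediateField.adjoin Kb {V Kb M (J Kb)}).relfinrank (modularFunctionFieldBar M)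
        = Nat.card (XN M) := by
      rw [← h4]; exact h2
    rw [h3] at h2'
    exact h1.symm.trans h2'
  subst hcard
  exact ⟨hc0, hc⟩

/-- the point `x = c'` lies over `t = c`, with multiplicity `E0` equal to the ramification index of `t = c`. -/
def BranchOK (P : Kb[X]) (c' : Kb) : Prop :=
  ∃ (c : Kb) (E0 : ℕ) (H : Kb[X]), P.eval c' = c * c' ∧ P - C c * X = (X - C c') ^ E0 * H ∧
    H.eval c' ≠ 0 ∧ ((E0 = 1 ∧ c ≠ 0 ∧ c ≠ 1728) ∨ (E0 = 2 ∧ c = 1728) ∨ (E0 = 3 ∧ c = 0))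

/-- the generic case of `BranchOK`: `c = P(c')/c' ∉ {0, 1728}` and `c' P'(c') ≠ P(c')`. -/
theorem CoordH.branch_generic (P : Kb[X]) (c' : Kb) (h0 : c' ≠ 0) (hP0 : P.eval c' ≠ 0)
    (h1728 : P.eval c' ≠ 1728 * c') (hder : c' * P.derivative.eval c' - P.eval c' ≠ 0) :
    BranchOK P c' := by
  have hroot : (P - C (P.eval c' / c') * X).IsRoot c' := by
    simp [IsRoot.def, div_mul_cancel₀ _ h0]
  obtain ⟨H, hH⟩ := dvd_iff_isRoot.2 hroot
  refine ⟨P.eval c' / c', 1, H, (div_mul_cancel₀ _ h0).symm, by rw [pow_one]; exact hH, ?_,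
    Or.inl ⟨rfl, div_ne_zero hP0 h0, ?_⟩⟩
  · have hd := congrArg (fun R => (derivative R).eval c') hH
    simp only [derivative_sub, derivative_mul, derivative_C, derivative_X, zero_mul, mul_one,
      zero_add, eval_sub, eval_C, eval_add, eval_mul, eval_X, sub_self, sub_zero,
      one_mul, add_zero] at hd
    intro hH0
    apply hder
    rw [hH0] at hd
    have h2 : P.derivative.eval c' = P.eval c' / c' := sub_eq_zero.1 hd
    rw [h2, mul_div_cancel₀ _ h0, sub_self]
  · intro h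
    apply h1728
    rw [← h, div_mul_cancel₀ _ h0]

/-- a Hauptmodul `h` of level `M0` with `P(h) = j(q^{M0}) h`. -/
structure HauptData (M0 : ℕ) [NeZero M0] (h : LaurentSeries ℤ) (P : ℤ[X]) (β : ℤ) : Prop where
  monic : P.Monic
  deg : 2 ≤ P.natDegree
  order : h.order = -1
  leading : h.leadingCoeff = 1
  ident : evAt h P = V ℤ M0 (J ℤ) * h
  mem : ∀ (K : Type) [Field K], (M0 : K) ≠ 0 → castS K h ∈ modularFunctionFieldFullC K M0
  branch : ∀ c' : Kb, c' ≠ 0 → c' ≠ (β : Kb) → BranchOK (P.map (Int.castRingHom Kb)) c'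

/-- **GM-CoordH.** -/
theorem goodCoord_of_hauptData (M0 e : ℕ) [NeZero M0] [NeZero e] [NeZero (M0 * e)]
    (h : LaurentSeries ℤ) (P : ℤ[X]) (β : ℤ) (hd : HauptData M0 h P β) (ℓ : ℕ) (hℓ : ℓ.Prime)
    (hℓM : ¬ ℓ ∣ M0 * e) (hβ : ¬ (ℓ : ℤ) ∣ β) (hP0 : ¬ (ℓ : ℤ) ∣ P.eval 0) :
    ∃ n, GoodCoord (M0 * e) ℓ (V ℤ e h) β n := by
  obtain ⟨hc0, hc⟩ := exists_degree_basis_card (M0 * e)
  have hDpos : 0 < P.natDegree := lt_of_lt_of_le two_pos hd.deg
  have hord := CoordHAux.order_V e h hd.order hd.leading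
  have hlead := CoordHAux.leadingCoeff_V e h hd.order hd.leading
  have hepos : (0 : ℤ) < e := by exact_mod_cast Nat.pos_of_ne_zero (NeZero.ne e)
  have hordneg : (V ℤ e h).order < 0 := by rw [hord]; omega
  -- general facts for a field in which `M` and `P(0)` are invertible
  have gen : ∀ (K : Type) [Field K], (∀ p : ℕ, p.Prime → p ∣ M0 * e → (p : K) ≠ 0) →
      (M0 : K) ≠ 0 → ((P.eval 0 : ℤ) : K) ≠ 0 →
      castS K (V ℤ e h) ∈ modularFunctionFieldFullC K (M0 * e) ∧
      K⟮V K (M0 * e) (J K)⟯ ≤ K⟮castS K (V ℤ e h)⟯ ∧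
      (K⟮castS K (V ℤ e h)⟯).relfinrank (modularFunctionFieldFullC K (M0 * e))
        = Nat.card (XN (M0 * e)) / P.natDegree := by
    intro K _ hK hM0 hP0K
    have hmem := CoordHAux.mem_full_V K M0 e h (hd.mem K hM0)
    have htr := CoordHAux.transcendental_castS K (V ℤ e h) hlead hordneg
    have hmon : (P.map (Int.castRingHom K)).Monic := hd.monic.map _
    have hdeg : (P.map (Int.castRingHom K)).natDegree = P.natDegree := hd.monic.natDegree_map _
    have hev : (P.map (Int.castRingHom K)).eval 0 ≠ 0 := by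
      rw [Polynomial.eval_zero_map]
      exact hP0K
    have hid := CoordHAux.ident_castS K M0 e h P hd.ident
    have h1 := relfinrank_adjoin_of_ratfun (castS K (V ℤ e h)) (V K (M0 * e) (J K)) htr
      (P.map (Int.castRingHom K)) hmon (by rw [hdeg]; exact hd.deg) hev hid
    have h2 := relfinrank_tower K (M0 * e) (castS K (V ℤ e h)) hmem htr
      (P.map (Int.castRingHom K)) hmon (by rw [hdeg]; exact hd.deg) hev hid
    rw [hdeg, (hc K hK).1] at h2
    exact ⟨hmem, h1.1, (Nat.div_eq_of_eq_mul_right hDpos h2.symm).symm⟩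
  have hP0' : P.eval 0 ≠ 0 := by
    intro h0
    apply hP0
    rw [h0]
    exact dvd_zero _
  have gen0 : ∀ (K : Type) [Field K] [CharZero K],
      castS K (V ℤ e h) ∈ modularFunctionFieldFullC K (M0 * e) ∧
      K⟮V K (M0 * e) (J K)⟯ ≤ K⟮castS K (V ℤ e h)⟯ ∧
      (K⟮castS K (V ℤ e h)⟯).relfinrank (modularFunctionFieldFullC K (M0 * e))
        = Nat.card (XN (M0 * e)) / P.natDegree := by
    intro K _ _
    exact gen K (fun p hp _ => by exact_mod_cast hp.ne_zero) (by exact_mod_cast NeZero.ne M0)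
      (by exact_mod_cast hP0')
  -- `D * n = c`
  have hmul : Nat.card (XN (M0 * e)) = P.natDegree * (Nat.card (XN (M0 * e)) / P.natDegree) := by
    have hmem := (gen0 ℚ).1
    have htr := CoordHAux.transcendental_castS ℚ (V ℤ e h) hlead hordneg
    have hmon : (P.map (Int.castRingHom ℚ)).Monic := hd.monic.map _
    have hdeg : (P.map (Int.castRingHom ℚ)).natDegree = P.natDegree := hd.monic.natDegree_map _
    have hev : (P.map (Int.castRingHom ℚ)).eval 0 ≠ 0 := by
      rw [Polynomial.eval_zero_map, eq_intCast]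
      exact_mod_cast hP0'
    have hid := CoordHAux.ident_castS ℚ M0 e h P hd.ident
    have h2 := relfinrank_tower ℚ (M0 * e) (castS ℚ (V ℤ e h)) hmem htr
      (P.map (Int.castRingHom ℚ)) hmon (by rw [hdeg]; exact hd.deg) hev hid
    rw [hdeg, (hc ℚ (fun p hp _ => by exact_mod_cast hp.ne_zero)).1, (gen0 ℚ).2.2] at h2
    exact h2.symm
  have hnpos : 0 < Nat.card (XN (M0 * e)) / P.natDegree := by
    rcases Nat.eq_zero_or_pos (Nat.card (XN (M0 * e)) / P.natDegree) with h0 | h0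
    · rw [h0, mul_zero] at hmul
      omega
    · exact h0
  refine ⟨Nat.card (XN (M0 * e)) / P.natDegree, ?_⟩
  refine
    { hβ := hβ
      n_pos := hnpos
      order_neg := hordneg
      leading := hlead
      order_ndvd := ?_
      mem := fun K _ _ => (gen0 K).1
      deg := fun K _ _ => (gen0 K).2.2
      basis := ?_
      pack := ?_ }
  · rw [hord, dvd_neg]
    intro hdvd
    have : ℓ ∣ e := by exact_mod_cast hdvd
    exact hℓM (this.mul_left M0)
  · intro k _ _
    have hk : ∀ p : ℕ, p.Prime → p ∣ M0 * e → (p : k) ≠ 0 := by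
      intro p hp hpM h0
      have h1 : ℓ ∣ p := (CharP.cast_eq_zero_iff k ℓ p).mp h0
      have h2 := (Nat.prime_dvd_prime_iff_eq hℓ hp).mp h1
      exact hℓM (h2 ▸ hpM)
    have hM0k : (M0 : k) ≠ 0 := by
      intro h0
      have h1 : ℓ ∣ M0 := (CharP.cast_eq_zero_iff k ℓ M0).mp h0
      exact hℓM (h1.mul_right e)
    have hP0k : ((P.eval 0 : ℤ) : k) ≠ 0 := by
      intro h0
      exact hP0 ((CharP.intCast_eq_zero_iff k ℓ _).mp h0)
    obtain ⟨hmem, hle, hrel⟩ := gen k hk hM0k hP0k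
    obtain ⟨b, hb, hli⟩ := exists_basis_monoS_over k (M0 * e) (castS k (V ℤ e h)) hmem hle _ hnpos hrel
    exact ⟨b, fun K _ _ i => monoS_le_full K (M0 * e) (coeffMap_mem_monoS _ (M0 * e) (hb i)), hli⟩
  · intro x hx c' h0 h1
    obtain ⟨c, E0, H, hPc, hfac, hH0, hcase⟩ := hd.branch c' h0 h1
    have hmon : (P.map (Int.castRingHom Kb)).Monic := hd.monic.map _
    have hdeg : (P.map (Int.castRingHom Kb)).natDegree = P.natDegree := hd.monic.natDegree_map _
    have hjM : ((Fermat.Agent.S24.jF (M0 * e) (M0 * e) dvd_rfl : FN (M0 * e)) : LaurentSeries Kb)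
        = V Kb (M0 * e) (J Kb) := by
      show coeffEmb Kb (qExpand ℚ (M0 * e) jq) = _
      rw [coeffEmb, coeffMap_qExpand, ← jqModC_rat, coeffMap_jqModC]
    have hid : aeval x (P.map (Int.castRingHom Kb))
        = Fermat.Agent.S24.jF (M0 * e) (M0 * e) dvd_rfl * x := by
      apply Subtype.ext
      rw [← IntermediateField.aeval_coe, MulMemClass.coe_mul, hjM, hx]
      exact CoordHAux.ident_castS Kb M0 e h P hd.ident
    have hbar : modularFunctionFieldBar (M0 * e) = modularFunctionFieldFullC Kb (M0 * e) :=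
      Fermat.Agent.S17.IsFFAux.laurentBaseChange_eq_fullC _ (M0 * e)
    have hn' : Module.finrank Kb⟮x⟯ (FN (M0 * e)) = Nat.card (XN (M0 * e)) / P.natDegree := by
      rw [← relfinrank_bar_eq_finrank, hx, hbar]
      exact (gen0 Kb).2.2
    have hmul' : Nat.card (XN (M0 * e))
        = (P.map (Int.castRingHom Kb)).natDegree * (Nat.card (XN (M0 * e)) / P.natDegree) := by
      rw [hdeg]; exact hmul
    rcases hcase with ⟨rfl, hc0', hc1⟩ | ⟨rfl, rfl⟩ | ⟨rfl, rfl⟩
    · obtain ⟨σ, hinj, hj, hordσ⟩ := hasPack_jM (M0 * e) c hc0' hc1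
      exact hasPack_tower (M0 * e) _ _ _ x _ hmon (by rw [hdeg]; exact hd.deg) hid hn' hmul' c' h0 c
        hPc 1 one_pos H hfac hH0 σ hinj hj (by simpa using hordσ)
    · obtain ⟨σ, hinj, hj, hordσ⟩ := pack_jM_I (M0 * e)
      exact hasPack_tower (M0 * e) _ _ _ x _ hmon (by rw [hdeg]; exact hd.deg) hid hn' hmul' c' h0 1728
        hPc 2 two_pos H hfac hH0 σ hinj hj (by simpa using hordσ)
    · obtain ⟨σ, hinj, hj, hordσ⟩ := pack_jM_rho (M0 * e)
      exact hasPack_tower (M0 * e) _ _ _ x _ hmon (by rw [hdeg]; exact hd.deg) hid hn' hmul' c' h0 0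
        hPc 3 (by norm_num) H hfac hH0 σ hinj hj (by simpa using hordσ)

/-- **GM-Branch2.** -/
theorem branch2 (c' : Kb) (h0 : c' ≠ 0) (h1 : c' ≠ ((-64 : ℤ) : Kb)) :
    BranchOK ((((X : ℤ[X]) + 16) ^ 3).map (Int.castRingHom Kb)) c' := by
  have hP : (((X : ℤ[X]) + 16) ^ 3).map (Int.castRingHom Kb) = (X + 16) ^ 3 := by simp
  rw [hP]
  have h1' : c' + 64 ≠ 0 := by
    intro h
    apply h1
    push_cast
    linear_combination h
  by_cases ha : c' = -16
  · subst ha
    refine ⟨0, 3, 1, by simp, ?_, by simp, Or.inr (Or.inr ⟨rfl, rfl⟩)⟩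
    simp only [map_zero, zero_mul, sub_zero, map_neg, sub_neg_eq_add, map_ofNat C 16, mul_one]
  have ha' : c' + 16 ≠ 0 := fun h => ha (by linear_combination h)
  by_cases hb : c' = 8
  · subst hb
    refine ⟨1728, 2, X + 64, by simp; norm_num, ?_, by simp; norm_num,
      Or.inr (Or.inl ⟨rfl, rfl⟩)⟩
    rw [map_ofNat C 1728, map_ofNat C 8]
    ring
  have hb' : c' - 8 ≠ 0 := sub_ne_zero.2 hb
  apply CoordH.branch_generic _ _ h0
  · simpa using ha'
  · intro h
    simp only [eval_pow, eval_add, eval_X, eval_ofNat] at h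
    have h2 : (c' + 64) * (c' - 8) ^ 2 = 0 := by linear_combination h
    exact (mul_ne_zero h1' (pow_ne_zero 2 hb')) h2
  · intro h
    simp only [derivative_pow, derivative_add, derivative_X, derivative_ofNat, eval_pow, eval_add,
      eval_X, eval_ofNat, eval_mul, eval_C, eval_one, eval_zero] at h
    have h2 : 2 * ((c' + 16) ^ 2 * (c' - 8)) = 0 := by
      push_cast at h
      linear_combination h
    exact (mul_ne_zero two_ne_zero (mul_ne_zero (pow_ne_zero 2 ha') hb')) h2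

/-- **GM-Branch3.** -/
theorem branch3 (c' : Kb) (h0 : c' ≠ 0) (h1 : c' ≠ ((-27 : ℤ) : Kb)) :
    BranchOK ((((X : ℤ[X]) + 27) * (X + 3) ^ 3).map (Int.castRingHom Kb)) c' := by
  have hP : (((X : ℤ[X]) + 27) * (X + 3) ^ 3).map (Int.castRingHom Kb) =
      (X + 27) * (X + 3) ^ 3 := by simp
  rw [hP]
  have h1' : c' + 27 ≠ 0 := by
    intro h
    apply h1
    push_cast
    linear_combination h
  by_cases ha : c' = -3
  · subst ha
    refine ⟨0, 3, X + 27, by simp, ?_, by simp; norm_num, Or.inr (Or.inr ⟨rfl, rfl⟩)⟩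
    simp only [map_zero, zero_mul, sub_zero, map_neg, sub_neg_eq_add, map_ofNat C 3]
    ring
  have ha' : c' + 3 ≠ 0 := fun h => ha (by linear_combination h)
  by_cases hb : c' ^ 2 + 18 * c' - 27 = 0
  · refine ⟨1728, 2, (X - C (-18 - c')) ^ 2, ?_, ?_, ?_, Or.inr (Or.inl ⟨rfl, rfl⟩)⟩
    · simp only [eval_mul, eval_pow, eval_add, eval_X, eval_ofNat]
      linear_combination (c' ^ 2 + 18 * c' - 27) * hb
    · have hq : (X - C c') * (X - C (-18 - c')) = X ^ 2 + 18 * X - 27 := by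
        have hC : C (c' ^ 2 + 18 * c' - 27) = (0 : Kb[X]) := by rw [hb, map_zero]
        simp only [map_sub, map_add, map_mul, map_pow, map_neg, map_ofNat C] at hC ⊢
        linear_combination (-1 : Kb[X]) * hC
      rw [← mul_pow, hq, map_ofNat C 1728]
      ring
    · simp only [eval_pow, eval_sub, eval_X, eval_C]
      apply pow_ne_zero
      intro h
      have h9 : c' = -9 := by linear_combination (1 / 2 : Kb) * h
      rw [h9] at hb
      norm_num at hb
  apply CoordH.branch_generic _ _ h0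
  · simp only [eval_mul, eval_pow, eval_add, eval_X, eval_ofNat]
    exact mul_ne_zero h1' (pow_ne_zero 3 ha')
  · intro h
    simp only [eval_mul, eval_pow, eval_add, eval_X, eval_ofNat] at h
    have h2 : (c' ^ 2 + 18 * c' - 27) ^ 2 = 0 := by linear_combination h
    exact (pow_ne_zero 2 hb) h2
  · intro h
    simp only [derivative_mul, derivative_pow, derivative_add, derivative_X, derivative_ofNat,
      eval_pow, eval_add, eval_X, eval_ofNat, eval_mul, eval_C, eval_one, eval_zero] at h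
    have h2 : 3 * ((c' + 3) ^ 2 * (c' ^ 2 + 18 * c' - 27)) = 0 := by
      push_cast at h
      linear_combination h
    exact (mul_ne_zero three_ne_zero (mul_ne_zero (pow_ne_zero 2 ha') hb)) h2

theorem hauptData_2 : HauptData 2 h2 ((X + 16) ^ 3) (-64) := by
  have h16 : (X + 16 : ℤ[X]) = X + C 16 := by simp
  refine ⟨?_, ?_, h2_order.1, h2_order.2, ?_, ?_, ?_⟩
  · rw [h16]
    exact (monic_X_add_C (16 : ℤ)).pow 3
  · rw [h16, (monic_X_add_C (16 : ℤ)).natDegree_pow, natDegree_X_add_C]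
    norm_num
  · rw [map_pow, map_add, Build.evAt_X, map_ofNat]
    exact h2_identity.symm
  · intro K _ h
    exact h2_mem K (by exact_mod_cast h)
  · intro c' h0 h1
    exact branch2 c' h0 h1

theorem hauptData_3 : HauptData 3 h3 ((X + 27) * (X + 3) ^ 3) (-27) := by
  have h27 : (X + 27 : ℤ[X]) = X + C 27 := by simp
  have h3' : (X + 3 : ℤ[X]) = X + C 3 := by simp
  refine ⟨?_, ?_, h3_order.1, h3_order.2, ?_, ?_, ?_⟩
  · rw [h27, h3']
    exact (monic_X_add_C (27 : ℤ)).mul ((monic_X_add_C (3 : ℤ)).pow 3)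
  · rw [h27, h3', (monic_X_add_C (27 : ℤ)).natDegree_mul ((monic_X_add_C (3 : ℤ)).pow 3),
      (monic_X_add_C (3 : ℤ)).natDegree_pow, natDegree_X_add_C, natDegree_X_add_C]
    norm_num
  · rw [map_mul, map_pow, map_add, map_add, Build.evAt_X, map_ofNat, map_ofNat]
    exact h3_identity.symm
  · intro K _ h
    exact h3_mem K (by exact_mod_cast h)
  · intro c' h0 h1
    exact branch3 c' h0 h1

/-- **GM export**: every admissible level has a good coordinate. -/
theorem exists_goodCoord (M ℓ : ℕ) [NeZero M] (hℓ : ℓ.Prime) (hM : ¬ ℓ ∣ M)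
    (hadm : Fermat.Agent.Crux.Admissible ℓ M) :
    ∃ (xh : LaurentSeries ℤ) (β : ℤ) (n : ℕ), GoodCoord M ℓ xh β n := by
  by_cases h5 : 5 ≤ ℓ
  · obtain ⟨n, hn⟩ := goodCoord_j M ℓ hℓ h5 hM
    exact ⟨_, _, n, hn⟩
  have hℓ2 := hℓ.two_le
  have hcases : ℓ = 2 ∨ ℓ = 3 := by
    have h4 : ℓ ≠ 4 := by
      rintro rfl
      exact absurd hℓ (by norm_num)
    omega
  rcases hcases with rfl | rfl
  · obtain ⟨e, rfl⟩ := hadm.2 rfl
    have : NeZero e := ⟨fun h => NeZero.ne (3 * e) (by rw [h, mul_zero])⟩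
    obtain ⟨n, hn⟩ := goodCoord_of_hauptData 3 e h3 _ (-27) hauptData_3 2 hℓ hM (by norm_num)
      (by simp)
    exact ⟨_, _, n, hn⟩
  · obtain ⟨e, rfl⟩ := hadm.1 rfl
    have : NeZero e := ⟨fun h => NeZero.ne (2 * e) (by rw [h, mul_zero])⟩
    obtain ⟨n, hn⟩ := goodCoord_of_hauptData 2 e h2 _ (-64) hauptData_2 3 hℓ hM (by norm_num)
      (by simp)
    exact ⟨_, _, n, hn⟩

end Fermat.Agent.Crux.GM
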