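import Fermat.Agent.Crux.GM.Defs
import Fermat.Agent.S24.FF.PlaceBasic

/-!
# Crux / GM-Place : `d ∣ div W` seen through an embedding into Laurent series

PROOF SKETCH.  `w f := (σ f).order` on `FN M`.  `w (f g) = w f + w g` (`HahnSeries.order_mul`, `σ` injective),
`min (w f) (w g) ≤ w (f + g)` (`HahnSeries.min_order_le_order_add`), `w = 0` on `Kb ∖ 0` (`hσ`).
If `w` vanishes on all nonzero elements the claim is trivial; otherwise
`S24.FF.exists_place_of_ordFun` gives a place `v` and `c > 0` with `w f = c * v.ord f`, and `d ∣ v.ord W'`.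
(See `S17/Curve/Base.lean` (A7b, `infP`) for a complete example of the use of `exists_place_of_ordFun`.)
-/

set_option autoImplicit false

open AlgebraicCurve ModularCurve

namespace Fermat.Agent.Crux.GM

open Fermat.Agent.S24 (Kb FN)

/-- **GM-Place.** -/
theorem dvd_order_of_forall_place (M : ℕ) [NeZero M] (d : ℕ) (W' : FN M) (hW0 : W' ≠ 0)
    (hdiv : ∀ P : Place Kb (FN M), (d : ℤ) ∣ P.ord W')
    {Ω : Type*} [Field Ω] (σ : FN M →+* LaurentSeries Ω)
    (hσ : ∀ c : Kb, c ≠ 0 → (σ (algebraMap Kb (FN M) c)).order = 0) :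
    (d : ℤ) ∣ (σ W').order := by
  have hinj : ∀ f : FN M, f ≠ 0 → σ f ≠ 0 := fun f hf => (map_ne_zero σ).mpr hf
  by_cases hnt : ∃ f : FN M, f ≠ 0 ∧ (σ f).order ≠ 0
  · obtain ⟨v, c, -, hv⟩ := S24.FF.exists_place_of_ordFun (K := Kb) (fun f : FN M => (σ f).order)
      (fun f g hf hg => by
        show (σ (f * g)).order = _
        rw [map_mul, HahnSeries.order_mul (hinj f hf) (hinj g hg)])
      (fun f g _ _ hfg => by
        show min (σ f).order (σ g).order ≤ (σ (f + g)).order
        rw [map_add]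
        exact HahnSeries.min_order_le_order_add (by rw [← map_add]; exact hinj _ hfg))
      hσ hnt
    have h1 : (σ W').order = c * v.ord W' := hv W' hW0
    rw [h1]
    exact Dvd.dvd.mul_left (hdiv v) _
  · push Not at hnt
    rw [hnt W' hW0]
    exact dvd_zero _

/-- the cusp `∞`. -/
theorem dvd_order_coe (M : ℕ) [NeZero M] (d : ℕ) (W' : FN M) (hW0 : W' ≠ 0)
    (hdiv : ∀ P : Place Kb (FN M), (d : ℤ) ∣ P.ord W') :
    (d : ℤ) ∣ (W' : LaurentSeries Kb).order := by
  refine dvd_order_of_forall_place M d W' hW0 hdiv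
    ((modularFunctionFieldBar M).val : FN M →+* LaurentSeries Kb) ?_
  intro c hc
  show (algebraMap Kb (LaurentSeries Kb) c).order = 0
  rw [algebraMap_laurentSeries_eq_single]
  exact HahnSeries.order_single hc

end Fermat.Agent.Crux.GM
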