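import Fermat.Agent.Crux.GM.Defs
import Fermat.Agent.S24.Gen
import Fermat.Agent.S24.Packages
import Fermat.Agent.S28.Bridge
import Fermat.Agent.S17.Curve.IsFF

/-!
# Crux / GM-Psi : from `F_K` (`K ⊆ ℚ̄`) to `FN M = F_{ℚ̄}`; restriction of the S24 embeddings

* `coeffMap_mem_bar` : `S28.coeffMap_mem_full` + `S17.IsFFAux.laurentBaseChange_eq_fullC`
  (`modularFunctionFieldBar M = laurentBaseChange Kb (modularFunctionFieldFull M)` by definition).
* `exists_Psi` : `Ψ f := ⟨coeffMap (algebraMap K Kb) (Φ f), _⟩`.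
* `algHom_eq_of_Psi` : `S24.algHom_ext_FN`; `jF M d = Ψ f_d` where `Φ f_d = qExpand K d (jqModC K)`
  (`coeffMap_qExpand`, `coeffMap_jqModC`, `S24.jSer`, `coeffEmb`).
* `sigma_Psi_const` : `σ` is `Kb`-linear, `S24.Packages.algebraMap_Kb`.
-/

set_option autoImplicit false

open ModularCurve

namespace Fermat.Agent.Crux.GM

open Fermat.Agent.S24 (Kb FN)

variable {K : Type} [Field K] [Algebra K Kb] (M : ℕ) [NeZero M]

theorem coeffMap_mem_bar {f : LaurentSeries K} (hf : f ∈ modularFunctionFieldFullC K M) :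
    coeffMap (algebraMap K Kb) f ∈ modularFunctionFieldBar M := by
  have h := S28.coeffMap_mem_full (algebraMap K Kb) M hf
  rw [← S17.IsFFAux.laurentBaseChange_eq_fullC] at h
  exact h

variable {F : Type*} [Field F] (Φ : F →+* LaurentSeries K)

theorem exists_Psi (hΦ : ∀ f, Φ f ∈ modularFunctionFieldFullC K M) :
    ∃ Ψ : F →+* FN M, ∀ f, ((Ψ f : FN M) : LaurentSeries Kb) = coeffMap (algebraMap K Kb) (Φ f) :=
  ⟨((coeffMap (algebraMap K Kb)).comp Φ).codRestrict (modularFunctionFieldBar M)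
    (fun f => coeffMap_mem_bar M (hΦ f)), fun _ => rfl⟩

/-- two `Kb`-embeddings of `FN M` which agree on the image of `F_K` are equal. -/
theorem algHom_eq_of_Psi (hΦ' : ∀ z ∈ modularFunctionFieldFullC K M, ∃ f, Φ f = z)
    (Ψ : F →+* FN M)
    (hΨ : ∀ f, ((Ψ f : FN M) : LaurentSeries Kb) = coeffMap (algebraMap K Kb) (Φ f))
    (σ σ' : FN M →ₐ[Kb] LaurentSeries ℂ) (h : ∀ f, σ (Ψ f) = σ' (Ψ f)) : σ = σ' := by
  apply S24.algHom_ext_FN M σ σ'
  intro d
  obtain ⟨f, hf⟩ := hΦ' _ (jqModCd_mem_full K M d.2)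
  have h1 : S24.jF M d.1 d.2 = Ψ f := by
    apply Subtype.ext
    rw [hΨ, hf, coeffMap_qExpand, coeffMap_jqModC]
    exact S17.IsFFAux.coeffEmb_qExpand_jq Kb d.1
  rw [h1]
  exact h f

/-- constants go to constants. -/
theorem sigma_Psi_const (Ψ : F →+* FN M)
    (hΨ : ∀ f, ((Ψ f : FN M) : LaurentSeries Kb) = coeffMap (algebraMap K Kb) (Φ f))
    (σ : FN M →ₐ[Kb] LaurentSeries ℂ) (f : F) (c : K) (hf : Φ f = HahnSeries.C c) :
    σ (Ψ f) = HahnSeries.C (algebraMap Kb ℂ (algebraMap K Kb c)) := by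
  have h1 : Ψ f = algebraMap Kb (FN M) (algebraMap K Kb c) := by
    apply Subtype.ext
    rw [hΨ, hf, HahnSeries.C_apply, coeffMap_single]
    exact (algebraMap_laurentSeries_eq_single Kb _).symm
  rw [h1, AlgHom.commutes, S24.Packages.algebraMap_Kb]

/-- every complex number which is algebraic over `ℚ` comes from `Kb`. -/
theorem exists_Kb_of_isAlgebraic (c : ℂ) (hc : IsAlgebraic ℚ c) : ∃ c' : Kb, algebraMap Kb ℂ c' = c := by
  have hc' : IsAlgebraic Kb c := by
    obtain ⟨P, hP0, hP⟩ := hc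
    refine ⟨P.map (algebraMap ℚ Kb), (Polynomial.map_ne_zero_iff (algebraMap ℚ Kb).injective).2 hP0, ?_⟩
    rw [Polynomial.aeval_def, Polynomial.eval₂_map]
    rw [Polynomial.aeval_def] at hP
    rw [← hP]
    congr 1
    exact Subsingleton.elim _ _
  exact minpoly.mem_range_of_degree_eq_one Kb c
    (IsAlgClosed.degree_eq_one_of_irreducible Kb (minpoly.irreducible hc'.isIntegral))

end Fermat.Agent.Crux.GM
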