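import Mathlib
import Fermat.Prelude.Def_ModularCurve_LaurentCoeff

/-!
# Crux / GM-Sep : separability of subfields of `k((q))` over `k(t)`, `p ∤ ord t`, `k` perfect

PROOF (MacLane's criterion by hand; no derivations).  `K = k((q))`, `E = k(t)`.
(1) `Sep.eq_zero_of_sum_pow_mul_pow`: if `∑_{s<p} a_s^p t^s = 0` in `K` then all `a_s = 0`:
    the orders of the nonzero terms are `≡ s * ord t mod p`, pairwise distinct.
(2) `Sep.exists_decomp`: every `b ∈ E` is `∑_{s<p} β_s^p t^s` with `β_s ∈ E` (`k` perfect).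
(3) Let `y` be algebraic over `E` with minimal polynomial `f`; assume `f` not separable, so
    `f = g(Y^p)`.  Decompose the coefficients `g_j = ∑_s β_{js}^p t^s`, `h_s = ∑_j β_{js} Y^j`:
    `0 = f(y) = ∑_s h_s(y)^p t^s`, so `h_s(y) = 0` by (1), so `h_s = 0` as `deg h_s < deg f`,
    so `g = 0`.  Contradiction.
-/

set_option autoImplicit false

open scoped IntermediateField

open Polynomial

namespace Fermat.Agent.Crux.GM

namespace Sep

/-- a finite sum of Laurent series whose nonzero terms have pairwise distinct orders vanishes only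
if all terms vanish. -/
theorem eq_zero_of_sum_eq_zero {k : Type*} [Field k] {ι : Type*} (s : Finset ι)
    (c : ι → LaurentSeries k) (hsum : ∑ i ∈ s, c i = 0)
    (hinj : ∀ i ∈ s, ∀ j ∈ s, c i ≠ 0 → c j ≠ 0 → (c i).order = (c j).order → i = j) :
    ∀ i ∈ s, c i = 0 := by
  classical
  by_contra hne
  simp only [not_forall] at hne
  obtain ⟨i₁, hi₁, hci₁⟩ := hne
  have hs'ne : (s.filter (fun i => c i ≠ 0)).Nonempty := ⟨i₁, Finset.mem_filter.2 ⟨hi₁, hci₁⟩⟩
  obtain ⟨i₀, hi₀, hmin⟩ := Finset.exists_min_image _ (fun i => (c i).order) hs'ne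
  rw [Finset.mem_filter] at hi₀
  have hcoeff : (∑ i ∈ s, c i).coeff (c i₀).order = 0 := by rw [hsum]; rfl
  rw [HahnSeries.coeff_sum, Finset.sum_eq_single i₀] at hcoeff
  · exact hi₀.2 (HahnSeries.coeff_order_eq_zero.1 hcoeff)
  · intro j hj hji
    by_cases hcj : c j = 0
    · rw [hcj]; rfl
    · apply HahnSeries.coeff_eq_zero_of_lt_order
      have hle := hmin j (Finset.mem_filter.2 ⟨hj, hcj⟩)
      refine lt_of_le_of_ne hle ?_
      intro heq
      exact hji (hinj j hj i₀ hi₀.1 hcj hi₀.2 heq.symm)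
  · intro h
    exact absurd hi₀.1 h

/-- (1) `1, t, …, t^(p-1)` are linearly independent over the `p`-th powers. -/
theorem eq_zero_of_sum_pow_mul_pow {k : Type*} [Field k] (p : ℕ) [Fact p.Prime]
    (t : LaurentSeries k) (ht0 : t ≠ 0) (ht : ¬ (p : ℤ) ∣ t.order) (a : ℕ → LaurentSeries k)
    (hsum : ∑ s ∈ Finset.range p, a s ^ p * t ^ s = 0) : ∀ s ∈ Finset.range p, a s = 0 := by
  have h := eq_zero_of_sum_eq_zero (Finset.range p) (fun s => a s ^ p * t ^ s) hsum ?_
  · intro s hs
    rcases mul_eq_zero.1 (h s hs) with h1 | h1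
    · exact eq_zero_of_pow_eq_zero h1
    · exact absurd h1 (pow_ne_zero _ ht0)
  · intro i hi j hj hci hcj hord
    have hai : a i ^ p ≠ 0 := left_ne_zero_of_mul hci
    have haj : a j ^ p ≠ 0 := left_ne_zero_of_mul hcj
    rw [HahnSeries.order_mul hai (pow_ne_zero _ ht0), HahnSeries.order_mul haj (pow_ne_zero _ ht0),
      HahnSeries.order_pow, HahnSeries.order_pow, HahnSeries.order_pow, HahnSeries.order_pow] at hord
    simp only [nsmul_eq_mul] at hord
    have hdvd : (p : ℤ) ∣ ((i : ℤ) - j) * t.order :=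
      ⟨(a j).order - (a i).order, by linear_combination hord⟩
    have hp : Prime (p : ℤ) := Nat.prime_iff_prime_int.1 Fact.out
    rcases hp.dvd_or_dvd hdvd with h1 | h1
    · have hi' := Finset.mem_range.1 hi
      have hj' := Finset.mem_range.1 hj
      have h0 := Int.eq_zero_of_abs_lt_dvd h1 (abs_lt.2 ⟨by omega, by omega⟩)
      omega
    · exact absurd h1 ht

/-- (2) for polynomials. -/
theorem exists_decomp_aeval {k E : Type*} [Field k] [Field E] [Algebra k E] (p : ℕ) [Fact p.Prime]
    [CharP k p] [CharP E p] [PerfectField k] (t : E) (R : k[X]) :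
    ∃ β : ℕ → E, aeval t R = ∑ s ∈ Finset.range p, β s ^ p * t ^ s := by
  classical
  have hp : p.Prime := Fact.out
  induction R using Polynomial.induction_on' with
  | add P Q hP hQ =>
    obtain ⟨β, hβ⟩ := hP
    obtain ⟨β', hβ'⟩ := hQ
    refine ⟨fun s => β s + β' s, ?_⟩
    rw [map_add, hβ, hβ', ← Finset.sum_add_distrib]
    refine Finset.sum_congr rfl fun s _ => ?_
    rw [add_pow_char, add_mul]
  | monomial n c =>
    obtain ⟨d, hd⟩ := surjective_frobenius k p c
    rw [frobenius_def] at hd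
    refine ⟨fun s => if s = n % p then algebraMap k E d * t ^ (n / p) else 0, ?_⟩
    rw [Finset.sum_eq_single (n % p)]
    · simp only [if_true]
      rw [aeval_monomial, ← hd, map_pow, mul_pow, ← pow_mul, mul_assoc, ← pow_add,
        mul_comm (n / p) p, Nat.div_add_mod]
    · intro s _ hs
      simp only
      rw [if_neg hs, zero_pow hp.ne_zero, zero_mul]
    · intro h
      exact absurd (Finset.mem_range.2 (Nat.mod_lt n hp.pos)) h

/-- (2) every element of `k(t)` is `∑_{s<p} β_s^p t^s`. -/
theorem exists_decomp {k K : Type*} [Field k] [Field K] [Algebra k K] (p : ℕ) [Fact p.Prime]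
    [CharP k p] [PerfectField k] (t : K) (b : k⟮t⟯) :
    ∃ β : ℕ → k⟮t⟯, b = ∑ s ∈ Finset.range p, β s ^ p * IntermediateField.AdjoinSimple.gen k t ^ s := by
  have hp : p.Prime := Fact.out
  have : CharP k⟮t⟯ p := charP_of_injective_algebraMap (algebraMap k k⟮t⟯).injective p
  set t' := IntermediateField.AdjoinSimple.gen k t with ht'
  obtain ⟨P, Q, hPQ⟩ := (IntermediateField.mem_adjoin_simple_iff k (b : K)).1 b.2
  have hcoe : ∀ R : k[X], ((aeval t' R : k⟮t⟯) : K) = aeval t R := fun R =>
    (aeval_algebraMap_apply K t' R).symm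
  have hb : b = aeval t' P / aeval t' Q := by
    apply Subtype.ext
    rw [hPQ, IntermediateField.coe_div, hcoe, hcoe]
  by_cases hQ : aeval t' Q = 0
  · refine ⟨fun _ => 0, ?_⟩
    rw [hb, hQ, div_zero]
    simp [hp.ne_zero]
  · obtain ⟨β, hβ⟩ := exists_decomp_aeval p t' (P * Q ^ (p - 1))
    refine ⟨fun s => (aeval t' Q)⁻¹ * β s, ?_⟩
    have h1 : b = ((aeval t' Q)⁻¹) ^ p * aeval t' (P * Q ^ (p - 1)) := by
      rw [hb, map_mul, map_pow]
      have h2 : (aeval t' Q) ^ p = (aeval t' Q) ^ (p - 1) * aeval t' Q := by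
        rw [← pow_succ, Nat.sub_add_cancel hp.one_le]
      rw [inv_pow, h2]
      field_simp
    rw [h1, hβ, Finset.mul_sum]
    refine Finset.sum_congr rfl fun s _ => ?_
    rw [mul_pow, mul_assoc]

end Sep

/-- **GM-Sep.** -/
theorem isSeparable_of_isAlgebraic {k : Type*} [Field k] (p : ℕ) [Fact p.Prime] [CharP k p]
    [PerfectField k] (t : LaurentSeries k) (ht0 : t ≠ 0) (ht : ¬ (p : ℤ) ∣ t.order)
    (y : LaurentSeries k) (hy : IsAlgebraic k⟮t⟯ y) : IsSeparable k⟮t⟯ y := by
  classical
  have hp : p.Prime := Fact.out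
  have : CharP (LaurentSeries k) p :=
    charP_of_injective_algebraMap (algebraMap k (LaurentSeries k)).injective p
  have : CharP k⟮t⟯ p := charP_of_injective_algebraMap (algebraMap k k⟮t⟯).injective p
  have hint : IsIntegral k⟮t⟯ y := hy.isIntegral
  have hirr : Irreducible (minpoly k⟮t⟯ y) := minpoly.irreducible hint
  rcases Polynomial.separable_or p hirr with hsep | ⟨-, g, hg, hgf⟩
  · exact hsep
  exfalso
  choose β hβ using fun j => Sep.exists_decomp p t (g.coeff j)
  let h : ℕ → (k⟮t⟯)[X] := fun s => ∑ j ∈ Finset.range (g.natDegree + 1), C (β j s) * X ^ j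
  have hval : ∑ s ∈ Finset.range p, (aeval y (h s)) ^ p * t ^ s = 0 := by
    have h0 : aeval y (minpoly k⟮t⟯ y) = 0 := minpoly.aeval _ y
    rw [← hgf, Polynomial.expand_aeval, Polynomial.aeval_eq_sum_range] at h0
    rw [← h0]
    have h1 : ∀ s, (aeval y (h s)) ^ p * t ^ s =
        ∑ j ∈ Finset.range (g.natDegree + 1),
          (algebraMap k⟮t⟯ (LaurentSeries k) (β j s)) ^ p * t ^ s * (y ^ p) ^ j := by
      intro s
      simp only [h, map_sum, map_mul, aeval_C, map_pow, aeval_X]
      rw [sum_pow_char, Finset.sum_mul]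
      refine Finset.sum_congr rfl fun j _ => ?_
      ring
    simp only [h1]
    rw [Finset.sum_comm]
    refine Finset.sum_congr rfl fun j _ => ?_
    rw [hβ j, Algebra.smul_def, map_sum, Finset.sum_mul]
    refine Finset.sum_congr rfl fun s _ => ?_
    rw [map_mul, map_pow, map_pow, IntermediateField.AdjoinSimple.algebraMap_gen]
  have hzero := Sep.eq_zero_of_sum_pow_mul_pow p t ht0 ht (fun s => aeval y (h s)) hval
  have hdeg : ∀ s, (h s).natDegree ≤ g.natDegree := fun s => by
    apply Polynomial.natDegree_sum_le_of_forall_le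
    intro j hj
    exact (Polynomial.natDegree_C_mul_X_pow_le _ _).trans
      (Nat.lt_succ_iff.1 (Finset.mem_range.1 hj))
  have hgdeg : (minpoly k⟮t⟯ y).natDegree = g.natDegree * p := by
    rw [← hgf, natDegree_expand]
  have hgpos : 0 < g.natDegree := by
    have h1 := minpoly.natDegree_pos hint
    rw [hgdeg] at h1
    exact Nat.pos_of_mul_pos_right h1
  have hlt : g.natDegree < (minpoly k⟮t⟯ y).natDegree := by
    rw [hgdeg]
    have := hp.two_le
    nlinarith
  have hh0 : ∀ s ∈ Finset.range p, h s = 0 := by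
    intro s hs
    by_contra hne
    have h1 := Polynomial.natDegree_le_natDegree (minpoly.degree_le_of_ne_zero _ y hne (hzero s hs))
    have h2 := hdeg s
    omega
  have hβ0 : ∀ s ∈ Finset.range p, β g.natDegree s = 0 := by
    intro s hs
    have h1 : (h s).coeff g.natDegree = β g.natDegree s := by
      simp only [h, Polynomial.finsetSum_coeff, Polynomial.coeff_C_mul_X_pow]
      rw [Finset.sum_eq_single g.natDegree]
      · simp
      · intro j _ hj
        rw [if_neg (Ne.symm hj)]
      · intro h'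
        exact absurd (Finset.mem_range.2 (Nat.lt_succ_self _)) h'
    rw [← h1, hh0 s hs, coeff_zero]
  have hlc : g.leadingCoeff = 0 := by
    rw [Polynomial.leadingCoeff, hβ g.natDegree]
    refine Finset.sum_eq_zero fun s hs => ?_
    rw [hβ0 s hs, zero_pow hp.ne_zero, zero_mul]
  exact hg.ne_zero (Polynomial.leadingCoeff_eq_zero.1 hlc)

end Fermat.Agent.Crux.GM
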