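import Fermat.Agent.Crux.G.Emb

/-!
# Crux / GM-Unram : (H2) of Theorem G from "packages" of embeddings   (Mathlib + Crux/G only)

PROOF SKETCH.  Let `g ∈ A[X]` be irreducible, not associated to `C π` nor to `X - C β`, `β ∈ B`.
* `g.natDegree ≥ 1` (a constant irreducible polynomial is `C a`, `a` irreducible in the DVR `A`,
  so `a ~ π`).  `ℂ` algebraically closed: a root `c` of `g.map θ`.
* `c ≠ θ β`: otherwise `g(β) = 0` (`θ` injective), `X - C β ∣ g`, associated.
* take `σ` from `hpack c`.  `σ_a ∘ algebraMap A[X] L = eval₂ (C ∘ θ) υ`, `υ = σ_a X` independent of `a`; so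
  the `σ_a` agree on `A[X]`, hence on `E = Frac A[X]`: this defines `ι : E → ℂ((T))`
  (`ι := (σ a₀).comp (algebraMap E L)`); `υ = C c + (order 1)` is a power series: `hι`;
  `σ_a (C π) = C (θ π)`, `θ π ≠ 0`: `hπu`.
* `g.map θ = (X - C c) * g₁`, `g₁(c) ≠ 0` because `g.map θ` is separable (`g` is primitive and irreducible
  over `A`, so irreducible over `Frac A` (`IsPrimitive.irreducible_iff_irreducible_map_fraction_map`),
  separable in char. 0, and separability is preserved by the field embedding `Frac A → ℂ`).  So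
  `σ_a g = (υ - C c) * g₁(υ)`, `g₁(υ) ≡ g₁(c) ≠ 0 mod T`: order `1 + 0`.
* apply `G.unram_at_of_embeddings`.
-/

set_option autoImplicit false

open Polynomial

namespace Fermat.Agent.Crux.GM

open Fermat.Agent.Crux.G

namespace UnramAux

variable {𝕂 : Type*} [Field 𝕂]

theorem order_eval₂_nonneg {υ : LaurentSeries 𝕂} (hυ : 0 ≤ υ.order) (q : 𝕂[X]) :
    0 ≤ (q.eval₂ HahnSeries.C υ).order := by
  induction q using Polynomial.induction_on' with
  | add p q hp hq =>
    rw [eval₂_add]
    exact Emb.order_add_ge (Or.inl le_rfl) hp hq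
  | monomial n a =>
    rw [eval₂_monomial]
    refine Emb.order_mul_nonneg (by rw [HahnSeries.order_C]) ?_
    exact (Emb.ordVal 𝕂).pow_mem hυ n

theorem order_pos_add_C {P : LaurentSeries 𝕂} (hP : Emb.Pos P) {d : 𝕂} (hd : d ≠ 0) :
    (P + HahnSeries.C d).order = 0 := by
  have hc : (P + HahnSeries.C d).coeff 0 = d := by
    rw [HahnSeries.coeff_add]
    have h1 : P.coeff 0 = 0 := by
      rcases hP with rfl | hP
      · rfl
      · exact HahnSeries.coeff_eq_zero_of_lt_order (by omega)
    rw [h1, zero_add]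
    simp [HahnSeries.C]
  have hne : P + HahnSeries.C d ≠ 0 := by
    intro h
    rw [h] at hc
    exact hd hc.symm
  apply le_antisymm
  · exact HahnSeries.order_le_of_coeff_ne_zero (by rw [hc]; exact hd)
  · refine Emb.order_add_ge (Or.inl le_rfl) ?_ (by rw [HahnSeries.order_C])
    rcases hP with rfl | hP
    · rw [HahnSeries.order_zero]
    · omega

end UnramAux

variable {A : Type*} [CommRing A] [IsDomain A] [IsDiscreteValuationRing A] {π : A}
variable {E : Type*} [Field E] [Algebra A[X] E] [IsFractionRing A[X] E] [CharZero E]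
variable {L : Type*} [Field L] [Algebra A[X] L] [Algebra E L] [IsScalarTower A[X] E L]
  [FiniteDimensional E L]

variable (E) in
/-- **GM-Unram.** -/
theorem unram_of_packs (hπ : Irreducible π) (B : Finset A) (θ : A →+* ℂ)
    (hθ : Function.Injective θ)
    (hpack : ∀ c : ℂ, (∃ g : A[X], g ≠ 0 ∧ g.eval₂ θ c = 0) → (∀ β ∈ B, c ≠ θ β) →
      ∃ (κ : Type) (_ : Fintype κ) (σ : κ → L →+* LaurentSeries ℂ),
        Fintype.card κ = Module.finrank E L ∧ Function.Injective σ ∧
        (∀ a a', σ a (algebraMap A[X] L X) = σ a' (algebraMap A[X] L X)) ∧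
        (∀ a (u : A), σ a (algebraMap A[X] L (C u)) = HahnSeries.C (θ u)) ∧
        (∀ a, (σ a (algebraMap A[X] L X) - HahnSeries.C c).order = 1)) :
    Unram π L B := by
  classical
  intro g hg hgπ hgB y z hy hz hyz
  -- degree
  have hdeg : g.natDegree ≠ 0 := by
    intro h0
    obtain ⟨a, rfl⟩ := natDegree_eq_zero.mp h0
    have ha : Irreducible a := (Polynomial.prime_C_iff.mp hg.prime).irreducible
    exact hgπ ((IsDiscreteValuationRing.associated_of_irreducible A ha hπ).map
      (C : A →+* A[X]))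
  have hdeg' : (g.map θ).degree ≠ 0 := by
    rw [degree_map_eq_of_injective hθ]
    intro h
    exact hdeg (natDegree_eq_of_degree_eq_some h)
  obtain ⟨c, hc⟩ := IsAlgClosed.exists_root (g.map θ) hdeg'
  have hc2 : g.eval₂ θ c = 0 := by
    rwa [IsRoot.def, eval_map] at hc
  have hcB : ∀ β ∈ B, c ≠ θ β := by
    rintro β hβ rfl
    rw [eval₂_hom, map_eq_zero_iff θ hθ] at hc2
    have hdvd : X - C β ∣ g := dvd_iff_isRoot.mpr hc2
    exact hgB β hβ ((irreducible_X_sub_C β).associated_of_dvd hg hdvd).symm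
  obtain ⟨κ, _, σ, hκ, hσinj, hσX, hσC, hσc⟩ := hpack c ⟨g, hg.ne_zero, hc2⟩ hcB
  have hne : Nonempty κ := by
    rw [← Fintype.card_pos_iff, hκ]
    exact Module.finrank_pos
  obtain ⟨a₀⟩ := hne
  set υ : LaurentSeries ℂ := σ a₀ (algebraMap A[X] L X) with hυdef
  have hσR : ∀ a (r : A[X]), σ a (algebraMap A[X] L r) = (r.map θ).eval₂ HahnSeries.C υ := by
    intro a r
    have : (σ a).comp (algebraMap A[X] L)
        = (eval₂RingHom (HahnSeries.C : ℂ →+* LaurentSeries ℂ) υ).comp (mapRingHom θ) := by
      apply Polynomial.ringHom_ext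
      · intro u
        simp [hσC]
      · simp [hυdef, hσX a a₀]
    exact congrArg (fun f => f r) this
  have hυ1 : (υ - HahnSeries.C c).order = 1 := hσc a₀
  have hυ : 0 ≤ υ.order := by
    have : υ = (υ - HahnSeries.C c) + HahnSeries.C c := by ring
    rw [this]
    exact Emb.order_add_ge (Or.inl le_rfl) (by rw [hυ1]; exact zero_le_one)
      (by rw [HahnSeries.order_C])
  set ι : E →+* LaurentSeries ℂ := (σ a₀).comp (algebraMap E L) with hιdef
  have hιR : ∀ r : A[X], ι (algebraMap A[X] E r) = (r.map θ).eval₂ HahnSeries.C υ := by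
    intro r
    rw [hιdef, RingHom.comp_apply, ← IsScalarTower.algebraMap_apply, hσR]
  have hτ : ∀ a e, σ a (algebraMap E L e) = ι e := by
    intro a e
    have : (σ a).comp (algebraMap E L) = ι := by
      apply IsLocalization.ringHom_ext (nonZeroDivisors A[X])
      refine RingHom.ext fun r => ?_
      simp only [RingHom.comp_apply]
      rw [← IsScalarTower.algebraMap_apply, hσR, hιR]
    exact congrArg (fun f => f e) this
  have hι : ∀ r : A[X], 0 ≤ (ι (algebraMap A[X] E r)).order := by
    intro r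
    rw [hιR]
    exact UnramAux.order_eval₂_nonneg hυ _
  have hπu : (ι (algebraMap A[X] E (C π))).order = 0 := by
    rw [hιR, map_C, eval₂_C, HahnSeries.order_C]
  -- separability
  have hsep : (g.map θ).Separable := by
    have hA0 : CharZero A := by
      have hinj : Function.Injective ((algebraMap A[X] E).comp (C : A →+* A[X])) :=
        (IsFractionRing.injective A[X] E).comp C_injective
      exact (RingHom.charZero_iff hinj).mpr inferInstance
    have hK0 : CharZero (FractionRing A) :=
      charZero_of_injective_ringHom (IsFractionRing.injective A (FractionRing A))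
    have hprim : g.IsPrimitive := Emb.isPrimitive_of_irreducible hπ hg hgπ
    have hirr : Irreducible (g.map (algebraMap A (FractionRing A))) :=
      (hprim.irreducible_iff_irreducible_map_fraction_map).mp hg
    have h1 := hirr.separable.map (f := (IsFractionRing.lift hθ : FractionRing A →+* ℂ))
    rw [Polynomial.map_map] at h1
    have h2 : (IsFractionRing.lift hθ : FractionRing A →+* ℂ).comp
        (algebraMap A (FractionRing A)) = θ := by
      ext u
      simp
    rwa [h2] at h1
  obtain ⟨g₁, hg₁⟩ := dvd_iff_isRoot.mpr hc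
  have hg₁c : g₁.eval c ≠ 0 := by
    intro h0
    obtain ⟨g₂, hg₂⟩ := dvd_iff_isRoot.mpr h0
    have : (X - C c) * (X - C c) ∣ g.map θ := ⟨g₂, by rw [hg₁, hg₂, mul_assoc]⟩
    exact not_isUnit_X_sub_C c (hsep.squarefree _ this)
  have hg1 : (ι (algebraMap A[X] E g)).order = 1 := by
    rw [hιR, hg₁, eval₂_mul, eval₂_sub, eval₂_X, eval₂_C]
    have h2 : (g₁.eval₂ HahnSeries.C υ).order = 0 := by
      have e := modByMonic_add_div g₁ (X - C c)
      rw [modByMonic_X_sub_C_eq_C_eval] at e
      rw [← e, eval₂_add, eval₂_C, eval₂_mul, eval₂_sub, eval₂_X, eval₂_C, add_comm]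
      refine UnramAux.order_pos_add_C ?_ hg₁c
      rw [mul_comm]
      exact Emb.Pos.mul_left (UnramAux.order_eval₂_nonneg hυ _) (Or.inr hυ1.ge)
    have n1 : υ - HahnSeries.C c ≠ 0 := by
      intro h; rw [h, HahnSeries.order_zero] at hυ1; exact zero_ne_one hυ1
    have n2 : g₁.eval₂ HahnSeries.C υ ≠ 0 := by
      intro h
      have hgE : ι (algebraMap A[X] E g) ≠ 0 := by
        rw [Ne, map_eq_zero, map_eq_zero_iff _ (IsFractionRing.injective A[X] E)]
        exact hg.ne_zero
      apply hgE
      rw [hιR, hg₁, eval₂_mul, h, mul_zero]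
    rw [HahnSeries.order_mul n1 n2, hυ1, h2, add_zero]
  exact unram_at_of_embeddings hπ ι hι hπu g hg hgπ hg1 hκ σ hσinj hτ y z hy hz hyz

end Fermat.Agent.Crux.GM
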