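import Fermat.Agent.Crux.GM.H1
import Fermat.Agent.Crux.GM.Unram
import Fermat.Agent.Crux.GM.Place
import Fermat.Agent.Crux.GM.Psi
import Fermat.Agent.Crux.GM.Sep
import Fermat.Agent.Crux.GM.AlgClosed
import Fermat.Agent.Crux.G.GK
import Fermat.Agent.Crux.G.Chart
import Fermat.Agent.S28.FormalBasic

/-!
# Crux / GM-Core : `GoodCoord` + Theorem G + Kummer  ⟹  contradiction  (abstract fields `E ⊆ F ⊆ L ⊆ K((q))`)

SETTING.  `A, K, k, r, π` as always, `[Algebra K Kb]`.  `E ⊆ F ⊆ L` abstract fields, `Φ : L → K((q))`,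
`E = K(x)`, `Φ x = castS K xh`, `Φ(F) = F_K = modularFunctionFieldFullC K M`, `[F:E] = n`,
`L = F(w)`, `w^d = W`, `[L:F] = d`, `Φ W = ι y₁ / ι y₂`, `ȳ₁ = ȳ₂ ≠ 0`, `d ∣ div W`.
-/

set_option autoImplicit false

open Polynomial ModularCurve AlgebraicCurve
open scoped IntermediateField

namespace Fermat.Agent.Crux.GM

open Fermat.Agent.Crux.G Fermat.Agent.S28
open Fermat.Agent.S24 (Kb FN)

/-! ### small facts on `castS` -/

theorem coeffMap_castS {R S : Type*} [CommRing R] [CommRing S] (f : R →+* S)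
    (xh : LaurentSeries ℤ) : coeffMap f (castS R xh) = castS S xh := by
  rw [castS, coeffMap_coeffMap]
  exact coeffMap_congr (RingHom.ext_int _ _) xh

theorem castS_coeff_order {R : Type*} [CommRing R] (xh : LaurentSeries ℤ)
    (h1 : xh.leadingCoeff = 1) : (castS R xh).coeff xh.order = 1 := by
  rw [castS, coeffMap_coeff, ← HahnSeries.leadingCoeff_eq, h1]
  simp

theorem castS_ne_zero {R : Type*} [CommRing R] [Nontrivial R] (xh : LaurentSeries ℤ)
    (h1 : xh.leadingCoeff = 1) : castS R xh ≠ 0 := by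
  intro h
  have h2 := castS_coeff_order (R := R) xh h1
  rw [h, HahnSeries.coeff_zero] at h2
  exact zero_ne_one h2

/-- the order does not change when the leading coefficient is `1`. -/
theorem order_castS {R : Type*} [CommRing R] [Nontrivial R] (xh : LaurentSeries ℤ)
    (h1 : xh.leadingCoeff = 1) : (castS R xh).order = xh.order := by
  apply le_antisymm
  · apply HahnSeries.order_le_of_coeff_ne_zero
    rw [castS_coeff_order xh h1]
    exact one_ne_zero
  · apply HahnSeries.order_le_of_coeff_ne_zero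
    intro h
    apply castS_ne_zero (R := R) xh h1
    rw [← HahnSeries.coeff_order_eq_zero, castS, coeffMap_coeff, h, map_zero]

/-- a series of negative order is transcendental (`eq_C_of_isAlgebraic`). -/
theorem transcendental_of_order_neg {k : Type*} [Field k] (t : LaurentSeries k)
    (ht : t.order < 0) : Transcendental k t := by
  intro h
  obtain ⟨c, rfl⟩ := eq_C_of_isAlgebraic t h
  rw [HahnSeries.order_C] at ht
  exact lt_irrefl _ ht

/-- `ord (υ⁻¹ - c⁻¹) = ord (υ - c)` when `c ≠ 0` and `ord (υ - c) > 0`. -/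
theorem order_inv_sub_C_inv (υ : LaurentSeries ℂ) (c : ℂ) (hc : c ≠ 0)
    (h : (υ - HahnSeries.C c).order = 1) : (υ⁻¹ - HahnSeries.C c⁻¹).order = 1 := by
  have he0 : υ - HahnSeries.C c ≠ 0 := by
    intro h0
    rw [h0, HahnSeries.order_zero] at h
    exact zero_ne_one h
  have hcoeff : ∀ m : ℤ, m < 1 → υ.coeff m = (HahnSeries.C c : LaurentSeries ℂ).coeff m := by
    intro m hm
    have h2 : (υ - HahnSeries.C c).coeff m = 0 :=
      HahnSeries.coeff_eq_zero_of_lt_order (by rw [h]; exact hm)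
    rw [HahnSeries.coeff_sub, sub_eq_zero] at h2
    exact h2
  have hυ0c : υ.coeff 0 = c := by
    rw [hcoeff 0 one_pos, HahnSeries.C_apply, HahnSeries.coeff_single_same]
  have hυ0 : υ ≠ 0 := by
    rintro rfl
    exact hc hυ0c.symm
  have hordυ : υ.order = 0 := by
    apply le_antisymm
    · apply HahnSeries.order_le_of_coeff_ne_zero
      rw [hυ0c]; exact hc
    · by_contra hlt
      push Not at hlt
      apply hυ0
      rw [← HahnSeries.coeff_order_eq_zero, hcoeff _ (hlt.trans one_pos), HahnSeries.C_apply,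
        HahnSeries.coeff_single_of_ne hlt.ne]
  have hinv0 : υ⁻¹ ≠ 0 := inv_ne_zero hυ0
  have hordinv : υ⁻¹.order = 0 := by
    have : υ.order + υ⁻¹.order = 0 := by
      rw [← HahnSeries.order_mul hυ0 hinv0, mul_inv_cancel₀ hυ0, HahnSeries.order_one]
    omega
  have hC0 : (HahnSeries.C c : LaurentSeries ℂ) ≠ 0 := by
    rw [Ne, map_eq_zero]; exact hc
  have hCi0 : (HahnSeries.C c⁻¹ : LaurentSeries ℂ) ≠ 0 := by
    rw [Ne, map_eq_zero]; exact inv_ne_zero hc
  have e : υ⁻¹ - HahnSeries.C c⁻¹ = -((υ - HahnSeries.C c) * (υ⁻¹ * HahnSeries.C c⁻¹)) := by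
    rw [map_inv₀]
    field_simp
    ring
  rw [e, HahnSeries.order_neg, HahnSeries.order_mul he0 (mul_ne_zero hinv0 hCi0),
    HahnSeries.order_mul hinv0 hCi0, h, hordinv, HahnSeries.order_C]
  rfl

section

variable (M : ℕ) [NeZero M] (ℓ : ℕ) (xh : LaurentSeries ℤ) (β : ℤ) (n : ℕ)
variable {A K k : Type} [CommRing A] [IsDomain A] [IsDiscreteValuationRing A] [Field K]
  [Algebra A K] [IsFractionRing A K] [Algebra K Kb] [Field k] (r : A →+* k) (π : A)
variable {E F L : Type} [Field E] [Field F] [Field L] [Algebra A E] [Algebra E F]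
  [Algebra E L] [Algebra A L] [IsScalarTower A E L] [Algebra F L] [IsScalarTower E F L]
variable (x : E) (Φ : L →+* LaurentSeries K)

/-- the embedding `A → ℂ`. -/
noncomputable def thetaA (A K : Type) [CommRing A] [Field K] [Algebra A K] [Algebra K Kb] : A →+* ℂ :=
  (algebraMap Kb ℂ).comp ((algebraMap K Kb).comp (algebraMap A K))

/-- `Φ(P(x)) = ι(P(t))`, `t = castS A xh`, in the chart `X ↦ x`. -/
theorem Phi_algebraMap_chart
    (hΦA : ∀ a : A, Φ (algebraMap A L a) = HahnSeries.C (algebraMap A K a))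
    (hΦx : Φ (algebraMap E L x) = castS K xh) (P : A[X]) :
    Φ (algebraMap E L (aeval x P)) = coeffMap (algebraMap A K) (evAt (castS A xh) P) := by
  have key : (Φ.comp (algebraMap E L)).comp (aeval x : A[X] →ₐ[A] E).toRingHom
      = (coeffMap (algebraMap A K)).comp (evAt (castS A xh)) := by
    apply Polynomial.ringHom_ext
    · intro a
      simp only [RingHom.comp_apply, AlgHom.toRingHom_eq_coe, RingHom.coe_coe, aeval_C, evAt,
        coe_eval₂RingHom, eval₂_C]
      rw [← IsScalarTower.algebraMap_apply, hΦA, HahnSeries.C_apply, HahnSeries.C_apply,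
        coeffMap_single]
    · simp only [RingHom.comp_apply, AlgHom.toRingHom_eq_coe, RingHom.coe_coe, aeval_X, evAt,
        coe_eval₂RingHom, eval₂_X]
      rw [hΦx, coeffMap_castS]
  exact congrArg (fun f => f P) key

/-- **(As-H0)** -/
theorem H0_of_Phi (hΦA : ∀ a : A, Φ (algebraMap A L a) = HahnSeries.C (algebraMap A K a))
    (z : L) (hz : IsIntegral A z) : z ∈ Set.range (algebraMap A L) := by
  obtain ⟨P, hP, hPz⟩ := hz
  have hcomp : Φ.comp (algebraMap A L)
      = (HahnSeries.C : K →+* LaurentSeries K).comp (algebraMap A K) := RingHom.ext hΦA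
  obtain ⟨a, ha⟩ := eq_C_of_isIntegralElem (A := A) (Φ z) ⟨P, hP, by
    rw [← hcomp, ← Polynomial.hom_eval₂, hPz, map_zero]⟩
  exact ⟨a, Φ.injective (by rw [hΦA, ha])⟩

/-- **(As-H1)** `(H1)` for `F` and the `q`-link, in the language of `G.GK`. -/
theorem H1_of_goodCoord [PerfectField k] [FiniteDimensional E F] (hℓ : ℓ.Prime)
    (hx : GoodCoord M ℓ xh β n)
    (hr : Function.Surjective r) (hrℓ : r ℓ = 0) (hπ : Irreducible π)
    (hxt : Transcendental A x)
    (hgen : ∀ c : E, ∃ p q : A[X], q ≠ 0 ∧ c * aeval x q = aeval x p)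
    (hΦA : ∀ a : A, Φ (algebraMap A L a) = HahnSeries.C (algebraMap A K a))
    (hΦx : Φ (algebraMap E L x) = castS K xh)
    (hΦF : ∀ z : LaurentSeries K, z ∈ modularFunctionFieldFullC K M ↔
      ∃ f : F, Φ (algebraMap F L f) = z)
    (hn : Module.finrank E F = n) :
    TracePerfectx F π x ∧
    (∀ (f : F) (g h : LaurentSeries A), coeffMap r h ≠ 0 →
      Φ (algebraMap F L f) * coeffMap (algebraMap A K) h = coeffMap (algebraMap A K) g →
      IsOLx π x f) ∧
    (∀ (f : F) (g h : LaurentSeries A), coeffMap r h ≠ 0 → coeffMap r g = 0 →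
      Φ (algebraMap F L f) * coeffMap (algebraMap A K) h = coeffMap (algebraMap A K) g →
      IsPiOLx π x f) := by
  classical
  have : Fact ℓ.Prime := ⟨hℓ⟩
  have hchar : CharP k ℓ := by
    have : (ℓ : k) = 0 := by rw [← map_natCast r, hrℓ]
    exact (CharP.charP_iff_prime_eq_zero hℓ).mpr this
  have : CharZero K := (algebraMap K Kb).charZero
  have : CharZero A := (algebraMap A K).charZero
  have : CharZero E := by
    refine charZero_of_injective_algebraMap (R := A) (A := E) fun a b hab => ?_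
    have h1 := transcendental_iff_injective.mp hxt
    apply C_injective
    apply h1
    rw [aeval_C, aeval_C, hab]
  obtain ⟨b0, hb0mem, hb0ind⟩ := hx.basis k
  let := algE (A := A) x
  let := algL (A := A) F x
  have := isScalarTower_alg (A := A) (L := F) x
  have := isFractionRing_algE hxt hgen
  have hΦ : ∀ P : A[X], (Φ.comp (algebraMap F L)) (algebraMap A[X] F P)
      = coeffMap (algebraMap A K) (evAt (castS A xh) P) := by
    intro P
    show Φ (algebraMap F L (algebraMap E F (aeval x P))) = _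
    rw [← IsScalarTower.algebraMap_apply E F L]
    exact Phi_algebraMap_chart xh x Φ hΦA hΦx P
  have hrt : coeffMap r (castS A xh) = castS k xh := coeffMap_castS r xh
  have hord : (castS k xh).order = xh.order := order_castS xh hx.leading
  have ht : Transcendental k (coeffMap r (castS A xh)) := by
    rw [hrt]
    exact transcendental_of_order_neg _ (by rw [hord]; exact hx.order_neg)
  have hb : ∀ i, coeffMap (algebraMap A K) (castS A (b0 i)) ∈ Set.range (Φ.comp (algebraMap F L)) := by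
    intro i
    rw [coeffMap_castS]
    obtain ⟨f, hf⟩ := (hΦF _).1 (hb0mem K i)
    exact ⟨f, hf⟩
  have hind : LinearIndependent k⟮coeffMap r (castS A xh)⟯
      (fun i => coeffMap r (castS A (b0 i))) := by
    rw [hrt]
    simp only [coeffMap_castS]
    exact hb0ind
  have hsep : ∀ y : LaurentSeries k, IsAlgebraic k⟮coeffMap r (castS A xh)⟯ y →
      IsSeparable k⟮coeffMap r (castS A xh)⟯ y := by
    rw [hrt]
    intro y hy
    exact isSeparable_of_isAlgebraic ℓ _ (castS_ne_zero xh hx.leading)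
      (by rw [hord]; exact hx.order_ndvd) y hy
  refine ⟨tracePerfect_of_unitDisc hπ (unitDisc_of_qexp r (Φ.comp (algebraMap F L)) (castS A xh)
    (fun i => castS A (b0 i)) hr hπ hΦ ht hb hind hn hx.n_pos hsep), ?_, ?_⟩
  · intro f g h hh hf
    exact isOL_of_qexp r (Φ.comp (algebraMap F L)) (castS A xh)
      (fun i => castS A (b0 i)) hr hπ hΦ ht hb hind hn hx.n_pos f g h hh hf
  · intro f g h hh hg hf
    exact isPiOL_of_qexp r (Φ.comp (algebraMap F L)) (castS A xh)
      (fun i => castS A (b0 i)) hr hπ hΦ ht hb hind hn hx.n_pos f g h hh hg hf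

/-- **(As-Fam)** the family of `n d` embeddings of `L = F(w)` over the point `x = c'`. -/
theorem exists_family_L
    (hΦA : ∀ a : A, Φ (algebraMap A L a) = HahnSeries.C (algebraMap A K a))
    (hΦx : Φ (algebraMap E L x) = castS K xh)
    (hΦF : ∀ z : LaurentSeries K, z ∈ modularFunctionFieldFullC K M ↔
      ∃ f : F, Φ (algebraMap F L f) = z)
    (d : ℕ) (hd : 0 < d) (W : F) (hW0 : W ≠ 0) (w : L) (hw : w ^ d = algebraMap F L W)
    (hdeg : Module.finrank F L = d)
    (hli : LinearIndependent F (fun j : Fin d => w ^ (j : ℕ)))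
    (W' : FN M) (hW' : (W' : LaurentSeries Kb) = coeffMap (algebraMap K Kb) (Φ (algebraMap F L W)))
    (hdiv : ∀ P : Place Kb (FN M), (d : ℤ) ∣ P.ord W')
    (xb : FN M) (hxb : (xb : LaurentSeries Kb) = castS Kb xh) (c' : Kb) (hp : HasPack M n xb c') :
    ∃ σ : Fin n × Fin d → L →+* LaurentSeries ℂ, Function.Injective σ ∧
      (∀ p p', σ p (algebraMap E L x) = σ p' (algebraMap E L x)) ∧
      (∀ p (u : A), σ p (algebraMap A L u) = HahnSeries.C (thetaA A K u)) ∧
      (∀ p, (σ p (algebraMap E L x) - HahnSeries.C (algebraMap Kb ℂ c')).order = 1) := by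
  obtain ⟨σ, hσinj, hσx, hσord⟩ := hp
  obtain ⟨Ψ, hΨ⟩ := exists_Psi M (Φ.comp (algebraMap F L)) (fun f => (hΦF _).mpr ⟨f, rfl⟩)
  have hΨW : Ψ W = W' := Subtype.ext (by rw [hΨ, hW']; rfl)
  have hW'0 : W' ≠ 0 := by rw [← hΨW]; exact (map_ne_zero Ψ).mpr hW0
  have hΨx : Ψ (algebraMap E F x) = xb := Subtype.ext (by
    rw [hΨ, hxb, RingHom.comp_apply, ← IsScalarTower.algebraMap_apply, hΦx, coeffMap_castS])
  have hord : ∀ a, (d : ℤ) ∣ (((σ a : FN M →+* LaurentSeries ℂ).comp Ψ) W).order := by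
    intro a
    rw [RingHom.comp_apply, hΨW]
    refine dvd_order_of_forall_place M d W' hW'0 hdiv (σ a : FN M →+* LaurentSeries ℂ) ?_
    intro c _
    show (σ a (algebraMap Kb (FN M) c)).order = 0
    rw [AlgHom.commutes, S24.Packages.algebraMap_Kb, HahnSeries.order_C]
  choose τ hτinj hτ using fun a =>
    kummer_embeddings d hd w W hW0 hw hdeg hli ((σ a : FN M →+* LaurentSeries ℂ).comp Ψ) (hord a)
  have hτx : ∀ a i, τ a i (algebraMap E L x) = σ a xb := by
    intro a i
    rw [IsScalarTower.algebraMap_apply E F L, hτ, RingHom.comp_apply, hΨx]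
    rfl
  refine ⟨fun p => τ p.1 p.2, ?_, ?_, ?_, ?_⟩
  · rintro ⟨a, i⟩ ⟨a', i'⟩ h
    have h' : τ a i = τ a' i' := h
    have haa : a = a' := by
      apply hσinj
      apply algHom_eq_of_Psi M (Φ.comp (algebraMap F L)) (fun z hz => (hΦF z).mp hz) Ψ hΨ
      intro f
      have h1 := hτ a i f
      have h2 := hτ a' i' f
      rw [h'] at h1
      exact (h1.symm.trans h2 : ((σ a : FN M →+* LaurentSeries ℂ).comp Ψ) f = _)
    subst haa
    rw [hτinj a h']
  · rintro ⟨a, i⟩ ⟨a', i'⟩
    show τ a i _ = τ a' i' _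
    rw [hτx, hτx]
    exact hσx a a'
  · rintro ⟨a, i⟩ u
    show τ a i _ = _
    rw [IsScalarTower.algebraMap_apply A E L, IsScalarTower.algebraMap_apply E F L, hτ]
    refine sigma_Psi_const M (Φ.comp (algebraMap F L)) Ψ hΨ (σ a) _ (algebraMap A K u) ?_
    rw [RingHom.comp_apply, ← IsScalarTower.algebraMap_apply E F L,
      ← IsScalarTower.algebraMap_apply A E L, hΦA]
  · rintro ⟨a, i⟩
    show (τ a i _ - _).order = 1
    rw [hτx, ← S24.Packages.algebraMap_Kb, ← AlgHom.commutes (σ a), ← map_sub]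
    exact hσord a

/-- chart-free form of `GM.unram_of_packs`. -/
theorem unramx_of_family [CharZero E] [FiniteDimensional E L] (hπ : Irreducible π) (x1 : E)
    (hxt : Transcendental A x1)
    (hgen : ∀ c : E, ∃ p q : A[X], q ≠ 0 ∧ c * aeval x1 q = aeval x1 p) (B : Finset A)
    (θ : A →+* ℂ) (hθ : Function.Injective θ)
    (κ : Type) [Fintype κ] (hκ : Fintype.card κ = Module.finrank E L)
    (hpack : ∀ c : ℂ, (∃ g : A[X], g ≠ 0 ∧ g.eval₂ θ c = 0) → (∀ β ∈ B, c ≠ θ β) →
      ∃ σ : κ → L →+* LaurentSeries ℂ, Function.Injective σ ∧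
        (∀ a a', σ a (algebraMap E L x1) = σ a' (algebraMap E L x1)) ∧
        (∀ a (u : A), σ a (algebraMap A L u) = HahnSeries.C (θ u)) ∧
        (∀ a, (σ a (algebraMap E L x1) - HahnSeries.C c).order = 1)) :
    Unramx L π x1 B := by
  letI := algE (A := A) x1
  letI := algL (A := A) L x1
  haveI := isFractionRing_algE hxt hgen
  haveI := isScalarTower_alg (A := A) (L := L) x1
  show Unram π L B
  refine unram_of_packs E hπ B θ hθ ?_
  intro c hc hcB
  obtain ⟨σ, h1, h2, h3, h4⟩ := hpack c hc hcB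
  have eX : algebraMap A[X] L X = algebraMap E L x1 := by
    show algebraMap E L (aeval x1 X) = _
    rw [aeval_X]
  have eC : ∀ u : A, algebraMap A[X] L (C u) = algebraMap A L u := by
    intro u
    show algebraMap E L (aeval x1 (C u)) = _
    rw [aeval_C, ← IsScalarTower.algebraMap_apply]
  refine ⟨κ, inferInstance, σ, hκ, h1, ?_, ?_, ?_⟩
  · intro a a'
    rw [eX]
    exact h2 a a'
  · intro a u
    rw [eC]
    exact h3 a u
  · intro a
    rw [eX]
    exact h4 a

theorem thetaA_injective : Function.Injective (thetaA A K) := by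
  unfold thetaA
  exact (algebraMap Kb ℂ).injective.comp
    ((algebraMap K Kb).injective.comp (IsFractionRing.injective A K))

/-- a complex root of a nonzero polynomial over `A` comes from `Kb`. -/
theorem exists_Kb_of_root (c : ℂ) (hc : ∃ g : A[X], g ≠ 0 ∧ g.eval₂ (thetaA A K) c = 0) :
    ∃ c' : Kb, algebraMap Kb ℂ c' = c := by
  obtain ⟨g, hg0, hg⟩ := hc
  have hinj : Function.Injective ((algebraMap K Kb).comp (algebraMap A K)) :=
    (algebraMap K Kb).injective.comp (IsFractionRing.injective A K)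
  have hc' : IsAlgebraic Kb c := by
    refine ⟨g.map ((algebraMap K Kb).comp (algebraMap A K)),
      (Polynomial.map_ne_zero_iff hinj).2 hg0, ?_⟩
    rw [Polynomial.aeval_def, Polynomial.eval₂_map]
    exact hg
  exact minpoly.mem_range_of_degree_eq_one Kb c
    (IsAlgClosed.degree_eq_one_of_irreducible Kb (minpoly.irreducible hc'.isIntegral))

/-- **(As-H2)** `(H2)` for `L` in both charts. -/
theorem H2_of_goodCoord [CharZero E] [FiniteDimensional E F] [FiniteDimensional E L]
    (hx : GoodCoord M ℓ xh β n) (hπ : Irreducible π)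
    (hxt : Transcendental A x)
    (hgen : ∀ c : E, ∃ p q : A[X], q ≠ 0 ∧ c * aeval x q = aeval x p)
    (hΦA : ∀ a : A, Φ (algebraMap A L a) = HahnSeries.C (algebraMap A K a))
    (hΦx : Φ (algebraMap E L x) = castS K xh)
    (hΦF : ∀ z : LaurentSeries K, z ∈ modularFunctionFieldFullC K M ↔
      ∃ f : F, Φ (algebraMap F L f) = z)
    (hn : Module.finrank E F = n)
    (d : ℕ) (hd : 0 < d) (W : F) (hW0 : W ≠ 0) (w : L) (hw : w ^ d = algebraMap F L W)
    (hdeg : Module.finrank F L = d)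
    (hli : LinearIndependent F (fun j : Fin d => w ^ (j : ℕ)))
    (W' : FN M) (hW' : (W' : LaurentSeries Kb) = coeffMap (algebraMap K Kb) (Φ (algebraMap F L W)))
    (hdiv : ∀ P : Place Kb (FN M), (d : ℤ) ∣ P.ord W')
    (β' : A) (hβ' : β' * (β : A) = 1) (B0 Binf : Finset A) (h0 : (0 : A) ∈ B0)
    (h1 : (β : A) ∈ B0) (h0' : (0 : A) ∈ Binf) (h1' : β' ∈ Binf) :
    Unramx L π x B0 ∧ Unramx L π x⁻¹ Binf := by
  classical
  haveI : CharZero K :=
    ((algebraMap K Kb).charZero_iff (algebraMap K Kb).injective).mpr inferInstance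
  -- the coordinate as an element of `FN M`
  have hmem : castS Kb xh ∈ modularFunctionFieldBar M := by
    have := coeffMap_mem_bar (K := K) M (hx.mem K)
    rwa [coeffMap_castS] at this
  set xb : FN M := ⟨castS Kb xh, hmem⟩ with hxbdef
  have hxb : (xb : LaurentSeries Kb) = castS Kb xh := rfl
  have hcard : Fintype.card (Fin n × Fin d) = Module.finrank E L := by
    rw [Fintype.card_prod, Fintype.card_fin, Fintype.card_fin, ← hn, ← hdeg,
      Module.finrank_mul_finrank]
  have hθβ : thetaA A K (β : A) = (β : ℂ) := map_intCast _ _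
  have hβ0 : (β : ℂ) ≠ 0 := by
    intro h
    have hβz : β = 0 := by exact_mod_cast h
    exact hx.hβ (hβz ▸ dvd_zero _)
  have hθβ' : thetaA A K β' = (β : ℂ)⁻¹ := by
    have := congrArg (thetaA A K) hβ'
    rw [map_mul, hθβ, map_one] at this
    exact eq_inv_of_mul_eq_one_left this
  -- the family over a point `c' ≠ 0, β`
  have hfam : ∀ c' : Kb, c' ≠ 0 → c' ≠ (β : Kb) →
      ∃ σ : Fin n × Fin d → L →+* LaurentSeries ℂ, Function.Injective σ ∧
      (∀ p p', σ p (algebraMap E L x) = σ p' (algebraMap E L x)) ∧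
      (∀ p (u : A), σ p (algebraMap A L u) = HahnSeries.C (thetaA A K u)) ∧
      (∀ p, (σ p (algebraMap E L x) - HahnSeries.C (algebraMap Kb ℂ c')).order = 1) :=
    fun c' hc0 hcβ => exists_family_L M xh n x Φ hΦA hΦx hΦF d hd W hW0 w hw hdeg hli W' hW' hdiv
      xb hxb c' (hx.pack xb hxb c' hc0 hcβ)
  constructor
  · refine unramx_of_family π hπ x hxt hgen B0 (thetaA A K) thetaA_injective (Fin n × Fin d) hcard ?_
    intro c hc hcB
    obtain ⟨c', rfl⟩ := exists_Kb_of_root c hc
    have hc0 : c' ≠ 0 := by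
      rintro rfl
      exact hcB 0 h0 (by rw [map_zero, map_zero])
    have hcβ : c' ≠ (β : Kb) := by
      rintro rfl
      exact hcB _ h1 (by rw [hθβ, map_intCast])
    exact hfam c' hc0 hcβ
  · refine unramx_of_family π hπ x⁻¹ (transcendental_inv hxt) (hgen_inv hxt hgen) Binf (thetaA A K)
      thetaA_injective (Fin n × Fin d) hcard ?_
    intro c hc hcB
    obtain ⟨c', rfl⟩ := exists_Kb_of_root c hc
    have hc0 : c' ≠ 0 := by
      rintro rfl
      exact hcB 0 h0' (by rw [map_zero, map_zero])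
    have hcβ : c'⁻¹ ≠ (β : Kb) := by
      intro h
      apply hcB _ h1'
      rw [hθβ', ← map_intCast (algebraMap Kb ℂ), ← h, map_inv₀, inv_inv]
    obtain ⟨σ, s1, s2, s3, s4⟩ := hfam c'⁻¹ (inv_ne_zero hc0) hcβ
    refine ⟨σ, s1, ?_, s3, ?_⟩
    · intro p p'
      rw [map_inv₀, map_inv₀, map_inv₀, s2 p p']
    · intro p
      have h := order_inv_sub_C_inv (σ p (algebraMap E L x)) (algebraMap Kb ℂ c'⁻¹)
        (by simpa using hc0) (s4 p)
      have e : (algebraMap Kb ℂ c'⁻¹)⁻¹ = algebraMap Kb ℂ c' := by rw [map_inv₀, inv_inv]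
      rw [e] at h
      rw [map_inv₀, map_inv₀]
      exact h

theorem ker_eq_maximalIdeal (hr : Function.Surjective r) :
    RingHom.ker r = IsLocalRing.maximalIdeal A :=
  IsLocalRing.eq_maximalIdeal (RingHom.ker_isMaximal_of_surjective r hr)

/-- `r π = 0`. -/
theorem map_irreducible_eq_zero (hr : Function.Surjective r) (hπ : Irreducible π) : r π = 0 := by
  rw [← RingHom.mem_ker, ker_eq_maximalIdeal r hr, IsLocalRing.mem_maximalIdeal]
  exact hπ.not_isUnit

/-- an integer prime to `ℓ` is a unit of `A`. -/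
theorem exists_inv_intCast (hℓ : ℓ.Prime) (hr : Function.Surjective r) (hrℓ : r ℓ = 0)
    (hβ : ¬ (ℓ : ℤ) ∣ β) : r (β : A) ≠ 0 ∧ ∃ β' : A, β' * (β : A) = 1 := by
  have hchar : CharP k ℓ := by
    have : (ℓ : k) = 0 := by rw [← map_natCast r, hrℓ]
    exact (CharP.charP_iff_prime_eq_zero hℓ).mpr this
  have h1 : r (β : A) ≠ 0 := by
    rw [map_intCast, Ne, CharP.intCast_eq_zero_iff k ℓ]
    exact hβ
  refine ⟨h1, ?_⟩
  have h2 : IsUnit (β : A) := by
    by_contra hu
    apply h1
    rw [← RingHom.mem_ker, ker_eq_maximalIdeal r hr, IsLocalRing.mem_maximalIdeal]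
    exact hu
  obtain ⟨u, hu⟩ := h2
  exact ⟨((u⁻¹ : Aˣ) : A), by rw [← hu, Units.inv_mul]⟩

/-- **GM-Core (abstract form).** -/
theorem core_abstract [PerfectField k] [CharZero E] [FiniteDimensional E F]
    [FiniteDimensional E L] (hℓ : ℓ.Prime)
    (hx : GoodCoord M ℓ xh β n)
    (hr : Function.Surjective r) (hrℓ : r ℓ = 0) (hπ : Irreducible π)
    (hxt : Transcendental A x)
    (hgen : ∀ c : E, ∃ p q : A[X], q ≠ 0 ∧ c * aeval x q = aeval x p)
    (hΦA : ∀ a : A, Φ (algebraMap A L a) = HahnSeries.C (algebraMap A K a))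
    (hΦx : Φ (algebraMap E L x) = castS K xh)
    (hΦF : ∀ z : LaurentSeries K, z ∈ modularFunctionFieldFullC K M ↔
      ∃ f : F, Φ (algebraMap F L f) = z)
    (hn : Module.finrank E F = n)
    (d : ℕ) (hd : d.Prime) (hdℓ : d ≠ ℓ) (W : F) (w : L) (hw : w ^ d = algebraMap F L W)
    (hdeg : Module.finrank F L = d)
    (hli : LinearIndependent F (fun j : Fin d => w ^ (j : ℕ)))
    (y₁ y₂ : LaurentSeries A) (hred : coeffMap r y₁ = coeffMap r y₂) (hne : coeffMap r y₂ ≠ 0)
    (hW : Φ (algebraMap F L W) * coeffMap (algebraMap A K) y₂ = coeffMap (algebraMap A K) y₁)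
    (W' : FN M) (hW' : (W' : LaurentSeries Kb) = coeffMap (algebraMap K Kb) (Φ (algebraMap F L W)))
    (hdiv : ∀ P : Place Kb (FN M), (d : ℤ) ∣ P.ord W') : False := by
  classical
  obtain ⟨H1, hQ1, hQ2⟩ := H1_of_goodCoord M ℓ xh β n r π x Φ hℓ hx hr hrℓ hπ hxt hgen hΦA hΦx hΦF hn
  obtain ⟨hrβ, β', hβ'⟩ := exists_inv_intCast ℓ β r hℓ hr hrℓ hx.hβ
  have hrπ := map_irreducible_eq_zero r π hr hπ
  have hιinj : Function.Injective (coeffMap (algebraMap A K)) :=
    Build.coeffMap_injective _ (IsFractionRing.injective A K)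
  have hy1 : coeffMap (algebraMap A K) y₁ ≠ 0 := by
    intro h
    have : y₁ = 0 := hιinj (by rw [h, map_zero])
    rw [this, map_zero] at hred
    exact hne hred.symm
  have hΦW0 : Φ (algebraMap F L W) ≠ 0 := by
    intro h
    rw [h, zero_mul] at hW
    exact hy1 hW.symm
  have hW0 : W ≠ 0 := by
    rintro rfl
    simp at hΦW0
  obtain ⟨H2, H2'⟩ := H2_of_goodCoord M ℓ xh β n π x Φ hx hπ hxt hgen hΦA hΦx hΦF hn d hd.pos W hW0 w
    hw hdeg hli W' hW' hdiv β' hβ' {0, (β : A)} {0, β'} (by simp) (by simp) (by simp) (by simp)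
  have hndvd : ∀ a : A, r a ≠ 0 → ¬ π ∣ a := by
    rintro a ha ⟨b, rfl⟩
    rw [map_mul, hrπ, zero_mul] at ha
    exact ha rfl
  have hrβ' : r β' ≠ 0 := by
    intro h
    have := congrArg r hβ'
    rw [map_mul, h, zero_mul, map_one] at this
    exact zero_ne_one this
  refine GK π hπ x hxt hgen H1 d hd.two_le ?_ W (hQ1 W y₁ y₂ hne hW) (hQ1 W⁻¹ y₂ y₁ (hred ▸ hne) ?_)
    (hQ2 (W - 1) (y₁ - y₂) y₂ hne (by rw [map_sub, hred, sub_self]) ?_) w hw hdeg hli
    (H0_of_Phi Φ hΦA) {0, (β : A)} {0, β'} ?_ ?_ H2 H2'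
  · -- `π ∤ d`
    apply hndvd
    rw [map_natCast]
    intro h
    have hchar : CharP k ℓ := by
      have : (ℓ : k) = 0 := by rw [← map_natCast r, hrℓ]
      exact (CharP.charP_iff_prime_eq_zero hℓ).mpr this
    have := (CharP.cast_eq_zero_iff k ℓ d).mp h
    exact hdℓ ((Nat.prime_dvd_prime_iff_eq hℓ hd).mp this).symm
  · rw [map_inv₀, map_inv₀, ← hW]
    field_simp
  · rw [map_sub, map_sub, map_one, map_one, map_sub, sub_mul, hW, one_mul]
  · intro a ha b hb hab
    simp only [Finset.mem_insert, Finset.mem_singleton] at ha hb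
    rcases ha with rfl | rfl <;> rcases hb with rfl | rfl
    · rfl
    · exact absurd ((dvd_neg).mp (by simpa using hab)) (hndvd _ hrβ)
    · exact absurd (by simpa using hab) (hndvd _ hrβ)
    · rfl
  · intro a ha b hb hab
    simp only [Finset.mem_insert, Finset.mem_singleton] at ha hb
    rcases ha with rfl | rfl <;> rcases hb with rfl | rfl
    · rfl
    · exact absurd ((dvd_neg).mp (by simpa using hab)) (hndvd _ hrβ')
    · exact absurd (by simpa using hab) (hndvd _ hrβ')
    · rfl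

end

end Fermat.Agent.Crux.GM
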