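import Fermat.Agent.Crux.G.Defs
import Fermat.Agent.S24.Defs
import Fermat.Agent.S28.Defs

/-!
# Crux / GM : the modular inputs of Theorem G — definitions

Notation used in all docstrings of `Crux/GM`:
* `A` a DVR with uniformiser `π`, `K = Frac A` (char. 0), `r : A →+* k` a surjection onto a field;
* `ι = coeffMap (algebraMap A K) : A((q)) → K((q))`, `red = coeffMap r : A((q)) → k((q))`;
* `F_K = modularFunctionFieldFullC K M ⊆ K((q))`, `FN M = F_{ℚ̄}` (S24), `Kb = ℚ̄`;
* `castS R xh` : the image in `R((q))` of a series `xh ∈ ℤ((q))`.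
-/

set_option autoImplicit false

open Polynomial ModularCurve
open scoped IntermediateField

namespace Fermat.Agent.Crux.GM

noncomputable section

open Fermat.Agent.S24 (Kb FN)

/-- The image in `R((q))` of an integral series. -/
abbrev castS (R : Type*) [CommRing R] (xh : LaurentSeries ℤ) : LaurentSeries R :=
  coeffMap (Int.castRingHom R) xh

/-- `n` distinct `ℚ̄`-embeddings `FN M → ℂ((T))` which agree on `x` and for which `x - c` has
order one: "`x = c` is unramified in `FN M / ℚ̄(x)`" as soon as `n = [FN M : ℚ̄(x)]`. -/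
def HasPack (M n : ℕ) (x : FN M) (c : Kb) : Prop :=
  ∃ σ : Fin n → FN M →ₐ[Kb] LaurentSeries ℂ, Function.Injective σ ∧
    (∀ a b, σ a x = σ b x) ∧ ∀ a, (σ a (x - algebraMap Kb (FN M) c)).order = 1

/-- **A good base coordinate** at level `M` for the prime `ℓ`: an integral series `xh ∈ ℤ((q))`
lying in the function field, such that
* `F_K / K(x)` has the same degree `n` for all fields `K` of characteristic `0`, and there are `n`
  integral elements whose reductions are independent over `k(x̄)` for every field `k` of char. `ℓ`;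
* `FN M / ℚ̄(x)` is unramified outside `x ∈ {0, β, ∞}`, and `ℓ ∤ β`;
* `ℓ ∤ ord_q x < 0` (separability of the reduction). -/
structure GoodCoord (M : ℕ) [NeZero M] (ℓ : ℕ) (xh : LaurentSeries ℤ) (β : ℤ) (n : ℕ) : Prop where
  hβ : ¬ (ℓ : ℤ) ∣ β
  n_pos : 0 < n
  order_neg : xh.order < 0
  leading : xh.leadingCoeff = 1
  order_ndvd : ¬ (ℓ : ℤ) ∣ xh.order
  mem : ∀ (K : Type) [Field K] [CharZero K], castS K xh ∈ modularFunctionFieldFullC K M
  deg : ∀ (K : Type) [Field K] [CharZero K],
    (K⟮castS K xh⟯).relfinrank (modularFunctionFieldFullC K M) = n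
  basis : ∀ (k : Type) [Field k] [CharP k ℓ], ∃ b : Fin n → LaurentSeries ℤ,
    (∀ (K : Type) [Field K] [CharZero K] (i : Fin n),
      castS K (b i) ∈ modularFunctionFieldFullC K M) ∧
    LinearIndependent k⟮castS k xh⟯ (fun i => castS k (b i))
  pack : ∀ (x : FN M), (x : LaurentSeries Kb) = castS Kb xh →
    ∀ c : Kb, c ≠ 0 → c ≠ (β : Kb) → HasPack M n x c

end

end Fermat.Agent.Crux.GM
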