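import Fermat.Agent.Crux.GM.Defs
import Fermat.Agent.S28.Bridge
import Fermat.Agent.S28.Transfer
import Fermat.Agent.S28.UnitArg

/-!
# Crux / GM-Deg : the degree `[F_K : K(j_M)]` and a monomial basis, uniformly in the field `K`

Everything is in S28; this is `S28.good_full` (file `S28/Bridge.lean`) without the valuation ring.
* `c` from `S28.exists_degree' M`.  For an algebraically closed field `Ω` with `M ≠ 0` in `Ω` the hypothesis of
  `exists_degree'` holds: `S28.exists_modEqData Ω p`, `S28.V_J_not_mem_adjoin_J Ω p hp D`.
* `K` arbitrary with `M` invertible, `Ω = AlgebraicClosure K`: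
  - `S28.exists_basis_monoS Ω M c` gives `c` monomials independent over `Ω(j_M)`; they come from `monoS ℤ M`
    (`S28.exists_mem_monoS_coeffMap (Int.castRingHom Ω)`), and their images in `K((q))` are independent over
    `K(j_M)` (`S28.linearIndependent_of_coeffMap (algebraMap K Ω)`; `coeffMap_coeffMap`, `RingHom.ext_int`/
    `Subsingleton`), and lie in `F_K` (`S28.monoS_le_full`, `S28.coeffMap_mem_monoS`);
  - more than `c` elements of `F_K` are dependent over `K(j_M)` (`S28.linearIndependent_coeffMap`,
    `S28.coeffMap_mem_full`, `S28.not_linearIndependent_of_relfinrank Ω M c`);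
  - hence `relfinrank = c` (`IntermediateField.relfinrank_eq_finrank_of_le (S28.adjoin_VJ_le_full K M)`;
    a vector space with `c > 0` independent vectors and no `c+1` independent vectors has `finrank = c`).
-/

set_option autoImplicit false

open ModularCurve
open scoped IntermediateField

namespace Fermat.Agent.Crux.GM

open Fermat.Agent.S28

/-- **GM-Deg.** -/
theorem exists_degree_basis (M : ℕ) [NeZero M] : ∃ c : ℕ, 0 < c ∧
    ∀ (K : Type) [Field K], (∀ p : ℕ, p.Prime → p ∣ M → (p : K) ≠ 0) →
      (K⟮V K M (J K)⟯).relfinrank (modularFunctionFieldFullC K M) = c ∧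
      ∃ b : Fin c → LaurentSeries ℤ, (∀ i, b i ∈ monoS ℤ M) ∧
        LinearIndependent K⟮V K M (J K)⟯ (fun i => castS K (b i)) := by
  obtain ⟨c, hc, h⟩ := exists_degree' M
  refine ⟨c, hc, fun K _ hK => ?_⟩
  have hΩ : ((AlgebraicClosure K)⟮V (AlgebraicClosure K) M (J (AlgebraicClosure K))⟯).relfinrank
      (modularFunctionFieldFullC (AlgebraicClosure K) M) = c := by
    apply h (AlgebraicClosure K)
    intro p hp hpM _
    have : Fact p.Prime := ⟨hp⟩
    obtain ⟨D⟩ := exists_modEqData (AlgebraicClosure K) p
    refine ⟨⟨D⟩, V_J_not_mem_adjoin_J (AlgebraicClosure K) p ?_ D⟩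
    intro h0
    apply hK p hp hpM
    have h1 : algebraMap K (AlgebraicClosure K) (p : K) = 0 := by rw [map_natCast]; exact h0
    exact (map_eq_zero _).mp h1
  obtain ⟨bb, hbbmem, hbbind⟩ := exists_basis_monoS (AlgebraicClosure K) M c hc hΩ
  choose b hbmem hb using fun i =>
    exists_mem_monoS_coeffMap (Int.castRingHom (AlgebraicClosure K)) M (hbbmem i)
  have h1 : coeffMap (algebraMap K (AlgebraicClosure K)) (V K M (J K)) =
      V (AlgebraicClosure K) M (J (AlgebraicClosure K)) := by
    rw [coeffMap_qExpand, coeffMap_jqModC]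
  have hind : LinearIndependent K⟮V K M (J K)⟯ (fun i => castS K (b i)) := by
    apply linearIndependent_of_coeffMap (algebraMap K (AlgebraicClosure K))
    have h2 : (fun i => coeffMap (algebraMap K (AlgebraicClosure K)) (castS K (b i))) = bb := by
      funext i
      rw [castS, coeffMap_coeffMap, ← hb i]
      exact coeffMap_congr (RingHom.ext_int _ _) _
    rw [h1, h2]
    exact hbbind
  refine ⟨?_, b, hbmem, hind⟩
  have hle := adjoin_VJ_le_full K M
  rw [IntermediateField.relfinrank_eq_finrank_of_le hle]
  have hbF : ∀ i, castS K (b i) ∈ modularFunctionFieldFullC K M := fun i =>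
    monoS_le_full K M (coeffMap_mem_monoS _ M (hbmem i))
  have hspan : Subalgebra.toSubmodule (IntermediateField.extendScalars hle).toSubalgebra =
      Submodule.span K⟮V K M (J K)⟯ (Set.range fun i => castS K (b i)) := by
    apply le_antisymm
    · intro x hx
      have hx' : x ∈ modularFunctionFieldFullC K M := hx
      by_contra hxs
      have h3 : LinearIndependent K⟮V K M (J K)⟯
          (Fin.cons x (fun i => castS K (b i)) : Fin (c + 1) → LaurentSeries K) :=
        linearIndependent_finCons.mpr ⟨hind, hxs⟩
      have h4 := linearIndependent_coeffMap (algebraMap K (AlgebraicClosure K)) _ _ h3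
      rw [h1] at h4
      refine not_linearIndependent_of_relfinrank (AlgebraicClosure K) M c hc hΩ (by simp) _ ?_ h4
      intro i
      apply coeffMap_mem_full
      refine Fin.cases ?_ (fun i => ?_) i
      · exact hx'
      · exact hbF i
    · rw [Submodule.span_le]
      rintro _ ⟨i, rfl⟩
      exact hbF i
  have h5 : Module.finrank K⟮V K M (J K)⟯ (IntermediateField.extendScalars hle) =
      Module.finrank K⟮V K M (J K)⟯
        (Submodule.span K⟮V K M (J K)⟯ (Set.range fun i => castS K (b i))) := by
    rw [← hspan]
    rfl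
  rw [h5, finrank_span_eq_card hind, Fintype.card_fin]

end Fermat.Agent.Crux.GM
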