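import Mathlib

/-!
# Crux / GM-Disc : trace matrix through structure constants   (Mathlib only)

(D1) `Tr(b_i b_j) = ∑_k c_ijk Tr(b_k)` and `Tr(b_k) = ∑_l c_kll`
     (`Algebra.trace_eq_matrix_trace b`, `Algebra.leftMulMatrix_eq_repr_mul`).
(D2) `S = span κ (range b)` is a finite dimensional subalgebra of the field `Ω`, hence the
     intermediate field `F̃ = adjoin κ (range b)` (`IntermediateField.adjoin_toSubalgebra_of_isAlgebraic`,
     `Algebra.adjoin_eq_span`, closure under products from `hc`, `hu`); `b` is a `κ`-basis of `F̃`;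
     `F̃/κ` is finite, hence algebraic, hence separable by `hsep`
     (`IntermediateField.isSeparable_adjoin_iff_isSeparable`), so
     `Algebra.discr_not_zero_of_basis` applies; conclude with (D1).
-/

set_option autoImplicit false

namespace Fermat.Agent.Crux.GM

/-- (D1) -/
theorem traceMatrix_eq_of_structure {E F : Type*} [Field E] [Field F] [Algebra E F] {n : ℕ}
    (b : Module.Basis (Fin n) E F) (c : Fin n → Fin n → Fin n → E)
    (hc : ∀ i j, b i * b j = ∑ l, c i j l • b l) (i j : Fin n) :
    Algebra.traceMatrix E b i j = ∑ l, ∑ m, c i j l * c l m m := by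
  have htr : ∀ l, Algebra.trace E F (b l) = ∑ m, c l m m := by
    intro l
    rw [Algebra.trace_eq_matrix_trace b, Matrix.trace]
    refine Finset.sum_congr rfl fun m _ => ?_
    rw [Matrix.diag_apply, Algebra.leftMulMatrix_eq_repr_mul, hc, map_sum, Finsupp.finsetSum_apply,
      Finset.sum_eq_single m]
    · simp
    · intro l' _ hl'
      simp [hl']
    · intro h
      exact absurd (Finset.mem_univ m) h
  rw [Algebra.traceMatrix_apply, Algebra.traceForm_apply, hc, map_sum]
  refine Finset.sum_congr rfl fun l _ => ?_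
  rw [map_smul, htr, smul_eq_mul, Finset.mul_sum]

/-- (D2) -/
theorem det_structure_ne_zero {κ Ω : Type*} [Field κ] [Field Ω] [Algebra κ Ω] {n : ℕ}
    (b : Fin n → Ω) (hli : LinearIndependent κ b) (c : Fin n → Fin n → Fin n → κ)
    (hc : ∀ i j, b i * b j = ∑ l, c i j l • b l) (u : Fin n → κ) (hu : (1 : Ω) = ∑ l, u l • b l)
    (hsep : ∀ y : Ω, IsAlgebraic κ y → IsSeparable κ y) :
    (Matrix.of fun i j : Fin n => ∑ l, ∑ m, c i j l * c l m m).det ≠ 0 := by
  classical
  set S : Submodule κ Ω := Submodule.span κ (Set.range b) with hS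
  have hbS : ∀ i, b i ∈ S := fun i => Submodule.subset_span (Set.mem_range_self i)
  have hsum : ∀ a : Fin n → κ, ∑ l, a l • b l ∈ S := fun a =>
    S.sum_mem fun l _ => S.smul_mem _ (hbS l)
  have h1 : (1 : Ω) ∈ S := hu ▸ hsum u
  have hmul : ∀ x y, x ∈ S → y ∈ S → x * y ∈ S := by
    intro x y hx hy
    have hle : S * S ≤ S := by
      rw [hS, Submodule.span_mul_span, Submodule.span_le]
      rintro _ ⟨_, ⟨i, rfl⟩, _, ⟨j, rfl⟩, rfl⟩
      show b i * b j ∈ S
      rw [hc]
      exact hsum _
    exact hle (Submodule.mul_mem_mul hx hy)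
  have halg : ∀ i, IsAlgebraic κ (b i) := by
    intro i
    refine (IsIntegral.of_mem_of_fg (S.toSubalgebra h1 hmul) ?_ (b i) (hbS i)).isAlgebraic
    rw [Submodule.toSubalgebra_toSubmodule]
    exact Submodule.fg_span (Set.finite_range b)
  set F : IntermediateField κ Ω := IntermediateField.adjoin κ (Set.range b) with hF
  have hFS : ∀ x, x ∈ F → x ∈ S := by
    intro x hx
    have h2 : x ∈ F.toSubalgebra := hx
    rw [hF, IntermediateField.adjoin_toSubalgebra_of_isAlgebraic] at h2
    · have h3 : Algebra.adjoin κ (Set.range b) ≤ S.toSubalgebra h1 hmul := by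
        apply Algebra.adjoin_le
        rintro _ ⟨i, rfl⟩
        exact hbS i
      exact h3 h2
    · rintro _ ⟨i, rfl⟩
      exact halg i
  have hbF : ∀ i, b i ∈ F := fun i =>
    IntermediateField.subset_adjoin κ _ (Set.mem_range_self i)
  let b' : Fin n → F := fun i => ⟨b i, hbF i⟩
  have hli' : LinearIndependent κ b' :=
    LinearIndependent.of_comp F.val.toLinearMap hli
  have hsp : ⊤ ≤ Submodule.span κ (Set.range b') := by
    rintro ⟨x, hx⟩ -
    have hxS := hFS x hx
    rw [hS, Submodule.mem_span_range_iff_exists_fun] at hxS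
    obtain ⟨a, ha⟩ := hxS
    rw [Submodule.mem_span_range_iff_exists_fun]
    refine ⟨a, Subtype.ext ?_⟩
    show ((∑ i, a i • b' i : F) : Ω) = x
    rw [← ha]
    simp [b']
  let B : Module.Basis (Fin n) κ F := Module.Basis.mk hli' hsp
  have hB : ∀ i, B i = b' i := fun i => by simp [B]
  have : Module.Finite κ F := Module.Finite.of_basis B
  have : Algebra.IsSeparable κ F := by
    rw [hF, IntermediateField.isSeparable_adjoin_iff_isSeparable]
    rintro _ ⟨i, rfl⟩
    exact hsep _ (halg i)
  have hcB : ∀ i j, B i * B j = ∑ l, c i j l • B l := by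
    intro i j
    apply Subtype.ext
    simp only [hB]
    have : ((b' i * b' j : F) : Ω) = b i * b j := rfl
    rw [this, hc]
    simp [b']
  have hd := Algebra.discr_not_zero_of_basis κ B
  rw [Algebra.discr_def] at hd
  have hM : Algebra.traceMatrix κ B = Matrix.of fun i j : Fin n => ∑ l, ∑ m, c i j l * c l m m := by
    ext i j
    rw [traceMatrix_eq_of_structure B c hcB i j, Matrix.of_apply]
  rwa [hM] at hd

end Fermat.Agent.Crux.GM
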