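import Fermat.Agent.Crux.GM.Defs
import Fermat.Agent.S28.LD
import Fermat.Agent.S28.FormalBasic

/-!
# Crux / GM-H1a : the basis lift and the Gauss lemma (parts (a), (b) of `GM/H1.lean`)
See the header of `GM/H1.lean` for the setting.
-/

set_option autoImplicit false

open Polynomial ModularCurve
open scoped IntermediateField

namespace Fermat.Agent.Crux.GM

open Fermat.Agent.Crux.G Fermat.Agent.S28 Fermat.Agent.S28.Build

variable {A K k : Type*} [CommRing A] [IsDomain A] [IsDiscreteValuationRing A] [Field K]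
  [Algebra A K] [IsFractionRing A K] [Field k] (r : A →+* k) {π : A}
variable {E F : Type*} [Field E] [Field F] [Algebra A[X] E] [IsFractionRing A[X] E]
  [Algebra A[X] F] [Algebra E F] [IsScalarTower A[X] E F]
variable (Φ : F →+* LaurentSeries K) (t : LaurentSeries A) {n : ℕ} (b : Fin n → LaurentSeries A)

/-- `ker r = (π)`. -/
theorem dvd_of_map_eq_zero (hr : Function.Surjective r) (hπ : Irreducible π) {a : A}
    (ha : r a = 0) : π ∣ a := by
  have hmax : (RingHom.ker r).IsMaximal := RingHom.ker_isMaximal_of_surjective r hr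
  have h1 : RingHom.ker r = IsLocalRing.maximalIdeal A := IsLocalRing.eq_maximalIdeal hmax
  have h2 : a ∈ RingHom.ker r := ha
  rw [h1, hπ.maximalIdeal_eq, Ideal.mem_span_singleton] at h2
  exact h2

/-- `red g = 0 → g = π g'`. -/
theorem exists_eq_C_mul_of_red_eq_zero (hr : Function.Surjective r) (hπ : Irreducible π)
    {g : LaurentSeries A} (hg : coeffMap r g = 0) :
    ∃ g' : LaurentSeries A, g = HahnSeries.C π * g' := by
  have h : ∀ m : ℤ, ∃ c : A, g.coeff m = π * c := fun m =>
    dvd_of_map_eq_zero r hr hπ (by rw [← coeffMap_coeff, hg]; rfl)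
  choose c hc using h
  have hπ0 : π ≠ 0 := hπ.ne_zero
  have hsupp : Function.support c ⊆ g.support := by
    intro m hm
    rw [HahnSeries.mem_support, hc]
    exact mul_ne_zero hπ0 hm
  refine ⟨⟨c, g.isPWO_support.mono hsupp⟩, ?_⟩
  ext m
  rw [Fermat.Agent.S28.Build.coeff_C_mul, hc]

/-- `P̄ = 0 → C π ∣ P`. -/
theorem C_dvd_of_map_eq_zero (hr : Function.Surjective r) (hπ : Irreducible π) {P : A[X]}
    (hP : P.map r = 0) : C π ∣ P := by
  rw [Polynomial.C_dvd_iff_dvd_coeff]
  intro i
  apply dvd_of_map_eq_zero r hr hπ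
  rw [← Polynomial.coeff_map, hP, Polynomial.coeff_zero]

/-- reduction of `P(t)`. -/
theorem red_evAt (P : A[X]) : coeffMap r (evAt t P) = aeval (coeffMap r t) (P.map r) := by
  rw [coeffMap_evAt, evAt, coe_eval₂RingHom, aeval_def]
  congr 1
  ext c : 1
  rw [algebraMap_laurentSeries_eq_single]
  rfl

/-- the key reduction step. -/
theorem C_dvd_of_red_sum_eq_zero (hr : Function.Surjective r) (hπ : Irreducible π)
    (ht : Transcendental k (coeffMap r t))
    (hind : LinearIndependent k⟮coeffMap r t⟯ (fun i => coeffMap r (b i)))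
    (P : Fin n → A[X]) (h : coeffMap r (∑ i, evAt t (P i) * b i) = 0) (i : Fin n) :
    C π ∣ P i := by
  rw [linearIndependent_iff_polyIndep] at hind
  have h1 : ∑ i ∈ Finset.univ, aeval (coeffMap r t) ((P i).map r) * coeffMap r (b i) = 0 := by
    rw [← h, map_sum]
    refine Finset.sum_congr rfl fun i _ => ?_
    rw [map_mul, red_evAt]
  have h2 := hind Finset.univ (fun i => (P i).map r) h1 i (Finset.mem_univ i)
  exact C_dvd_of_map_eq_zero r hr hπ ((transcendental_iff.mp ht) _ h2)

theorem C_pi_not_isUnit (hπ : Irreducible π) : ¬ IsUnit (C π : A[X]) := by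
  rw [Polynomial.isUnit_C]
  exact hπ.not_isUnit

theorem coeffMap_algebraMap_injective :
    Function.Injective (coeffMap (algebraMap A K) : LaurentSeries A → LaurentSeries K) := by
  intro x y h
  ext m
  apply IsFractionRing.injective A K
  rw [← coeffMap_coeff, ← coeffMap_coeff, h]

/-- descent: a relation `∑ P_i(t) b_i = 0` forces `P = 0`. -/
theorem eq_zero_of_sum_evAt_eq_zero (hr : Function.Surjective r) (hπ : Irreducible π)
    (ht : Transcendental k (coeffMap r t))
    (hind : LinearIndependent k⟮coeffMap r t⟯ (fun i => coeffMap r (b i)))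
    (P : Fin n → A[X]) (h : ∑ i, evAt t (P i) * b i = 0) (i : Fin n) : P i = 0 := by
  have key : ∀ (m : ℕ) (P : Fin n → A[X]), ∑ i, evAt t (P i) * b i = 0 →
      ∀ i, (C π : A[X]) ^ m ∣ P i := by
    intro m
    induction m with
    | zero => intro P _ i; simp
    | succ m ih =>
      intro P h i
      have hd := C_dvd_of_red_sum_eq_zero r t b hr hπ ht hind P (by rw [h, map_zero])
      choose P' hP' using hd
      have h' : ∑ i, evAt t (P' i) * b i = 0 := by
        have h2 : HahnSeries.C π * ∑ i, evAt t (P' i) * b i = 0 := by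
          rw [← h, Finset.mul_sum]
          refine Finset.sum_congr rfl fun i _ => ?_
          rw [hP' i, map_mul, evAt_C, mul_assoc]
        have hC : (HahnSeries.C π : LaurentSeries A) ≠ 0 := HahnSeries.C_ne_zero hπ.ne_zero
        exact (mul_eq_zero.mp h2).resolve_left hC
      rw [hP' i, pow_succ']
      exact mul_dvd_mul_left _ (ih P' h' i)
  by_contra hne
  obtain ⟨m, hm⟩ := FiniteMultiplicity.of_not_isUnit (C_pi_not_isUnit hπ) hne
  exact hm (key _ P h i)

/-- apply `Φ` to a combination of the `b'_i`. -/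
theorem Phi_sum_smul
    (hΦ : ∀ P : A[X], Φ (algebraMap A[X] F P) = coeffMap (algebraMap A K) (evAt t P))
    (b' : Fin n → F) (hb' : ∀ i, Φ (b' i) = coeffMap (algebraMap A K) (b i)) (P : Fin n → A[X]) :
    Φ (∑ i, P i • b' i) = coeffMap (algebraMap A K) (∑ i, evAt t (P i) * b i) := by
  rw [map_sum, map_sum]
  refine Finset.sum_congr rfl fun i _ => ?_
  rw [Algebra.smul_def, map_mul, hΦ, hb', map_mul]

/-- (a) -/
theorem exists_basis_lift (hr : Function.Surjective r) (hπ : Irreducible π)
    (hΦ : ∀ P : A[X], Φ (algebraMap A[X] F P) = coeffMap (algebraMap A K) (evAt t P))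
    (ht : Transcendental k (coeffMap r t))
    (hb : ∀ i, coeffMap (algebraMap A K) (b i) ∈ Set.range Φ)
    (hind : LinearIndependent k⟮coeffMap r t⟯ (fun i => coeffMap r (b i)))
    (hn : Module.finrank E F = n) (hn0 : 0 < n) :
    ∃ b' : Module.Basis (Fin n) E F, ∀ i, Φ (b' i) = coeffMap (algebraMap A K) (b i) := by
  have : Nonempty (Fin n) := ⟨⟨0, hn0⟩⟩
  choose b' hb' using hb
  have hli : LinearIndependent E b' := by
    rw [← LinearIndependent.iff_fractionRing A[X] E, Fintype.linearIndependent_iff]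
    intro P hP i
    apply eq_zero_of_sum_evAt_eq_zero r t b hr hπ ht hind P
    apply coeffMap_algebraMap_injective (K := K)
    rw [← Phi_sum_smul Φ t b hΦ b' hb' P, hP, map_zero, map_zero]
  refine ⟨basisOfLinearIndependentOfCardEqFinrank hli (by rw [hn, Fintype.card_fin]), fun i => ?_⟩
  rw [coe_basisOfLinearIndependentOfCardEqFinrank, hb']

/-- from a relation `Q f = ∑ P_i b'_i` to a relation between series. -/
theorem series_rel_of_rel
    (hΦ : ∀ P : A[X], Φ (algebraMap A[X] F P) = coeffMap (algebraMap A K) (evAt t P))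
    (b' : Fin n → F) (hb' : ∀ i, Φ (b' i) = coeffMap (algebraMap A K) (b i))
    (f : F) (g h : LaurentSeries A)
    (hf : Φ f * coeffMap (algebraMap A K) h = coeffMap (algebraMap A K) g)
    (Q : A[X]) (P : Fin n → A[X]) (hrel : Q • f = ∑ i, P i • b' i) :
    evAt t Q * g = (∑ i, evAt t (P i) * b i) * h := by
  apply coeffMap_algebraMap_injective (K := K)
  rw [map_mul, map_mul, ← Phi_sum_smul Φ t b hΦ b' hb' P, ← hrel, Algebra.smul_def, map_mul, hΦ,
    ← hf, mul_assoc]

/-- (b) the Gauss lemma -/
theorem exists_coords (hr : Function.Surjective r) (hπ : Irreducible π)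
    (hΦ : ∀ P : A[X], Φ (algebraMap A[X] F P) = coeffMap (algebraMap A K) (evAt t P))
    (ht : Transcendental k (coeffMap r t))
    (hind : LinearIndependent k⟮coeffMap r t⟯ (fun i => coeffMap r (b i)))
    (b' : Module.Basis (Fin n) E F) (hb' : ∀ i, Φ (b' i) = coeffMap (algebraMap A K) (b i))
    (f : F) (g h : LaurentSeries A) (hh : coeffMap r h ≠ 0)
    (hf : Φ f * coeffMap (algebraMap A K) h = coeffMap (algebraMap A K) g) :
    ∃ (Q : A[X]) (P : Fin n → A[X]), ¬ C π ∣ Q ∧ Q • f = ∑ i, P i • b' i ∧
      evAt t Q * g = (∑ i, evAt t (P i) * b i) * h ∧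
      (coeffMap r g = 0 → ∀ i, C π ∣ P i) := by
  -- a first relation with a nonzero denominator
  obtain ⟨⟨Q₀, hQ₀⟩, hQ₀'⟩ := IsLocalization.exist_integer_multiples_of_finite (nonZeroDivisors A[X])
    (fun i => b'.repr f i)
  choose P₀ hP₀ using hQ₀'
  have hQ₀ne : Q₀ ≠ 0 := nonZeroDivisors.ne_zero hQ₀
  have hrel₀ : Q₀ • f = ∑ i, P₀ i • b' i := by
    conv_lhs => rw [← b'.sum_repr f, Finset.smul_sum]
    refine Finset.sum_congr rfl fun i _ => ?_
    have h1 : algebraMap A[X] E (P₀ i) = Q₀ • b'.repr f i := hP₀ i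
    rw [← IsScalarTower.algebraMap_smul E (P₀ i) (b' i), h1, smul_assoc]
  -- the reduction step
  have hstep : ∀ (Q : A[X]) (P : Fin n → A[X]), Q • f = ∑ i, P i • b' i →
      coeffMap r (evAt t Q * g) = 0 → ∀ i, C π ∣ P i := by
    intro Q P hrel h0
    have h1 := series_rel_of_rel Φ t b hΦ b' hb' f g h hf Q P hrel
    rw [h1, map_mul] at h0
    exact C_dvd_of_red_sum_eq_zero r t b hr hπ ht hind P ((mul_eq_zero.mp h0).resolve_right hh)
  -- normalisation
  have hCF : algebraMap A[X] F (C π) ≠ 0 := by
    rw [IsScalarTower.algebraMap_apply A[X] E F]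
    intro h0
    have h1 := (map_eq_zero (algebraMap E F)).mp h0
    have h2 := (IsFractionRing.injective A[X] E) (h1.trans (map_zero _).symm)
    exact hπ.ne_zero (Polynomial.C_eq_zero.mp h2)
  have hnorm : ∀ (m : ℕ) (Q : A[X]) (P : Fin n → A[X]), ¬ (C π : A[X]) ^ (m + 1) ∣ Q →
      Q • f = ∑ i, P i • b' i →
      ∃ (Q' : A[X]) (P' : Fin n → A[X]), ¬ C π ∣ Q' ∧ Q' • f = ∑ i, P' i • b' i := by
    intro m
    induction m with
    | zero =>
      intro Q P hQ hrel
      exact ⟨Q, P, by simpa using hQ, hrel⟩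
    | succ m ih =>
      intro Q P hQ hrel
      by_cases hd : C π ∣ Q
      · obtain ⟨Q', rfl⟩ := hd
        have hP := hstep _ P hrel (by
          rw [map_mul, map_mul, evAt_C, map_mul]
          have : coeffMap r (HahnSeries.C π) = 0 := by
            ext j
            rw [coeffMap_coeff, HahnSeries.C_apply]
            by_cases hj : j = 0
            · subst hj
              rw [HahnSeries.coeff_single_same]
              have hmem : π ∈ RingHom.ker r := by
                have hmax : (RingHom.ker r).IsMaximal := RingHom.ker_isMaximal_of_surjective r hr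
                rw [IsLocalRing.eq_maximalIdeal hmax, hπ.maximalIdeal_eq]
                exact Ideal.mem_span_singleton_self π
              exact hmem
            · rw [HahnSeries.coeff_single_of_ne hj, map_zero]
              rfl
          rw [this, zero_mul, zero_mul])
        choose P' hP' using hP
        refine ih Q' P' (fun hdvd => hQ ?_) ?_
        · rw [pow_succ']
          exact mul_dvd_mul_left _ hdvd
        · have h2 : algebraMap A[X] F (C π) * (Q' • f)
              = algebraMap A[X] F (C π) * ∑ i, P' i • b' i := by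
            rw [← Algebra.smul_def, smul_smul, hrel, ← Algebra.smul_def, Finset.smul_sum]
            refine Finset.sum_congr rfl fun i _ => ?_
            rw [smul_smul, ← hP' i]
          exact mul_left_cancel₀ hCF h2
      · exact ⟨Q, P, hd, hrel⟩
  obtain ⟨m, hm⟩ := FiniteMultiplicity.of_not_isUnit (C_pi_not_isUnit hπ) hQ₀ne
  obtain ⟨Q, P, hQ, hrel⟩ := hnorm m Q₀ P₀ hm hrel₀
  refine ⟨Q, P, hQ, hrel, series_rel_of_rel Φ t b hΦ b' hb' f g h hf Q P hrel, fun hg => ?_⟩
  exact hstep Q P hrel (by rw [map_mul, hg, mul_zero])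

end Fermat.Agent.Crux.GM
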