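import Fermat.Agent.Crux.GM.Disc
import Fermat.Agent.Crux.G.Sat

/-!
# Crux / GM-H1c : unit discriminant from structure constants (abstract form)

`b'` an `E`-basis of `F` (`E = Frac A[X]`) of elements of `O_F`, `φ : A[X] → κ` a ring hom with
kernel `(π)`, `bb : Fin n → Ω` linearly independent and separable over `κ`, such that the structure
constants `P_ijl / Q_ij` of `b'` reduce (via `φ`) to structure constants of `bb`.
Then the discriminant of `b'` is a unit of `O_G`.
-/

set_option autoImplicit false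

open Polynomial

namespace Fermat.Agent.Crux.GM

open Fermat.Agent.Crux.G

theorem unitDisc_of_structure {A : Type*} [CommRing A] [IsDomain A] {π : A} (hπ : Prime π)
    {E F : Type*} [Field E] [Field F] [Algebra A[X] E] [IsFractionRing A[X] E]
    [Algebra A[X] F] [Algebra E F] [IsScalarTower A[X] E F]
    {κ Ω : Type*} [Field κ] [Field Ω] [Algebra κ Ω] (φ : A[X] →+* κ)
    (hφ : ∀ P : A[X], φ P = 0 ↔ C π ∣ P) {n : ℕ} (b' : Module.Basis (Fin n) E F)
    (hOL : ∀ i, IsOL π (b' i)) (bb : Fin n → Ω) (hli : LinearIndependent κ bb)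
    (hsep : ∀ y : Ω, IsAlgebraic κ y → IsSeparable κ y)
    (hmul : ∀ i j, ∃ (Q : A[X]) (P : Fin n → A[X]), ¬ C π ∣ Q ∧
      Q • (b' i * b' j) = ∑ l, P l • b' l ∧ φ Q • (bb i * bb j) = ∑ l, φ (P l) • bb l)
    (hone : ∃ (Q : A[X]) (P : Fin n → A[X]), ¬ C π ∣ Q ∧ φ Q • (1 : Ω) = ∑ l, φ (P l) • bb l) :
    UnitDisc π E F := by
  classical
  have hCπ : Prime (C π : A[X]) := Sat.prime_C hπ
  choose Q0 P0 hQ0 hE0 hΩ0 using hmul
  obtain ⟨Q1, P1, hQ1, hΩ1⟩ := hone
  -- common denominator
  set Q : A[X] := ∏ x : Fin n × Fin n, Q0 x.1 x.2 with hQdef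
  set P : Fin n → Fin n → Fin n → A[X] := fun i j l =>
    P0 i j l * ∏ x ∈ (Finset.univ : Finset (Fin n × Fin n)).erase (i, j), Q0 x.1 x.2 with hPdef
  have hQsplit : ∀ i j, Q = Q0 i j *
      ∏ x ∈ (Finset.univ : Finset (Fin n × Fin n)).erase (i, j), Q0 x.1 x.2 := by
    intro i j
    rw [hQdef]
    exact (Finset.mul_prod_erase Finset.univ (fun x : Fin n × Fin n => Q0 x.1 x.2)
      (Finset.mem_univ (i, j))).symm
  have hQ : ¬ C π ∣ Q := by
    intro h
    obtain ⟨x, -, hx⟩ := hCπ.exists_mem_finset_dvd h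
    exact hQ0 _ _ hx
  have hE : ∀ i j, Q • (b' i * b' j) = ∑ l, P i j l • b' l := by
    intro i j
    rw [hQsplit i j, mul_comm, mul_smul, hE0 i j, Finset.smul_sum]
    refine Finset.sum_congr rfl fun l _ => ?_
    rw [hPdef, smul_smul, mul_comm]
  have hΩ : ∀ i j, φ Q • (bb i * bb j) = ∑ l, φ (P i j l) • bb l := by
    intro i j
    rw [hQsplit i j, mul_comm, map_mul, mul_smul, hΩ0 i j, Finset.smul_sum]
    refine Finset.sum_congr rfl fun l _ => ?_
    rw [hPdef, smul_smul, ← map_mul, mul_comm]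
  have hφQ : φ Q ≠ 0 := fun h => hQ ((hφ Q).1 h)
  have hφQ1 : φ Q1 ≠ 0 := fun h => hQ1 ((hφ Q1).1 h)
  have hQ0' : Q ≠ 0 := Sat.ne_zero_of_not_dvd hQ
  have haQ : algebraMap A[X] E Q ≠ 0 := by
    rw [Ne, IsFractionRing.to_map_eq_zero_iff]
    exact hQ0'
  -- the numerator matrix
  set N : Matrix (Fin n) (Fin n) A[X] := Matrix.of fun i j => ∑ l, ∑ m, P i j l * P l m m
    with hNdef
  -- reduction side
  have hdetΩ : φ N.det ≠ 0 := by
    have h := det_structure_ne_zero bb hli (fun i j l => φ (P i j l) / φ Q)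
      (fun i j => by
        have := hΩ i j
        calc bb i * bb j = (φ Q)⁻¹ • (φ Q • (bb i * bb j)) := by
              rw [smul_smul, inv_mul_cancel₀ hφQ, one_smul]
          _ = ∑ l, (φ (P i j l) / φ Q) • bb l := by
              rw [this, Finset.smul_sum]
              refine Finset.sum_congr rfl fun l _ => ?_
              rw [smul_smul, div_eq_inv_mul])
      (fun l => φ (P1 l) / φ Q1)
      (by
        calc (1 : Ω) = (φ Q1)⁻¹ • (φ Q1 • (1 : Ω)) := by
              rw [smul_smul, inv_mul_cancel₀ hφQ1, one_smul]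
          _ = ∑ l, (φ (P1 l) / φ Q1) • bb l := by
              rw [hΩ1, Finset.smul_sum]
              refine Finset.sum_congr rfl fun l _ => ?_
              rw [smul_smul, div_eq_inv_mul])
      hsep
    intro h0
    apply h
    have hmat : (Matrix.of fun i j : Fin n =>
        ∑ l, ∑ m, (φ (P i j l) / φ Q) * (φ (P l m m) / φ Q)) =
        ((φ Q)⁻¹ ^ 2) • φ.mapMatrix N := by
      ext i j
      simp only [Matrix.of_apply, Matrix.smul_apply, RingHom.mapMatrix_apply, Matrix.map_apply,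
        hNdef, map_sum, map_mul, smul_eq_mul, Finset.mul_sum]
      refine Finset.sum_congr rfl fun l _ => Finset.sum_congr rfl fun m _ => ?_
      field_simp
    rw [hmat, Matrix.det_smul, ← RingHom.map_det, h0, mul_zero]
  have hdetN : ¬ C π ∣ N.det := fun h => hdetΩ ((hφ _).2 h)
  have hdetN0 : algebraMap A[X] E N.det ≠ 0 := by
    rw [Ne, IsFractionRing.to_map_eq_zero_iff]
    exact Sat.ne_zero_of_not_dvd hdetN
  -- generic side
  have htr : Algebra.traceMatrix E b' =
      ((algebraMap A[X] E Q)⁻¹ ^ 2) • (algebraMap A[X] E).mapMatrix N := by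
    ext i j
    rw [traceMatrix_eq_of_structure b'
      (fun i j l => algebraMap A[X] E (P i j l) / algebraMap A[X] E Q) (fun i j => by
        have := hE i j
        calc b' i * b' j = (algebraMap A[X] E Q)⁻¹ • (Q • (b' i * b' j)) := by
              rw [← algebraMap_smul E Q (b' i * b' j), smul_smul, inv_mul_cancel₀ haQ, one_smul]
          _ = ∑ l, (algebraMap A[X] E (P i j l) / algebraMap A[X] E Q) • b' l := by
              rw [this, Finset.smul_sum]
              refine Finset.sum_congr rfl fun l _ => ?_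
              rw [← algebraMap_smul E (P i j l) (b' l), smul_smul, div_eq_inv_mul]) i j]
    simp only [Matrix.smul_apply, RingHom.mapMatrix_apply, Matrix.map_apply,
      hNdef, Matrix.of_apply, map_sum, map_mul, smul_eq_mul, Finset.mul_sum]
    refine Finset.sum_congr rfl fun l _ => Finset.sum_congr rfl fun m _ => ?_
    field_simp
  refine ⟨n, b', hOL, (algebraMap A[X] E Q ^ 2) ^ n / algebraMap A[X] E N.det,
    ⟨N.det, (Q ^ 2) ^ n, hdetN, ?_⟩, ?_⟩
  · rw [Algebra.smul_def, map_pow, map_pow]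
    field_simp
  · rw [htr, Matrix.det_smul, ← RingHom.map_det, Fintype.card_fin, inv_pow, inv_pow]
    field_simp

/-- Variant: separability is only assumed for elements algebraic over `κ`. -/
theorem unitDisc_of_structure' {A : Type*} [CommRing A] [IsDomain A] {π : A} (hπ : Prime π)
    {E F : Type*} [Field E] [Field F] [Algebra A[X] E] [IsFractionRing A[X] E]
    [Algebra A[X] F] [Algebra E F] [IsScalarTower A[X] E F]
    {κ Ω : Type*} [Field κ] [Field Ω] [Algebra κ Ω] (φ : A[X] →+* κ)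
    (hφ : ∀ P : A[X], φ P = 0 ↔ C π ∣ P) {n : ℕ} (b' : Module.Basis (Fin n) E F)
    (hOL : ∀ i, IsOL π (b' i)) (bb : Fin n → Ω) (hli : LinearIndependent κ bb)
    (hsep : ∀ y : Ω, IsAlgebraic κ y → IsSeparable κ y)
    (hmul : ∀ i j, ∃ (Q : A[X]) (P : Fin n → A[X]), ¬ C π ∣ Q ∧
      Q • (b' i * b' j) = ∑ l, P l • b' l ∧ φ Q • (bb i * bb j) = ∑ l, φ (P l) • bb l)
    (hone : ∃ (Q : A[X]) (P : Fin n → A[X]), ¬ C π ∣ Q ∧ φ Q • (1 : Ω) = ∑ l, φ (P l) • bb l) :
    UnitDisc π E F := by
  exact unitDisc_of_structure hπ φ hφ b' hOL bb hli hsep hmul hone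

end Fermat.Agent.Crux.GM
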