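import Fermat.Agent.Crux.GM.Defs
import Fermat.Agent.Crux.GM.H1a
import Fermat.Agent.Crux.GM.Disc
import Fermat.Agent.Crux.GM.H1c
import Fermat.Agent.Crux.G.Sat

/-!
# Crux / GM-H1 : (H1) (basis form `UnitDisc`) and the `q`-link, from `q`-expansions

SETTING (one chart, abstract).  `A` DVR, `π`, `K = Frac A`, `r : A → k` surjective.
`E = Frac A[X]`, `F/E` finite of degree `n`, `Φ : F → K((q))` a ring hom with
`Φ(P) = ι (P(t))` for `P ∈ A[X]` (`t ∈ A((q))` the expansion of the coordinate), `t̄ = red t`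
transcendental over `k`.  `b_i ∈ A((q))` (`i < n`) with `ι b_i = Φ(b'_i)` and `b̄_i` linearly
independent over `k(t̄)`.

(a) `exists_basis_lift` : the `b'_i` are linearly independent over `E`, hence a basis (`hn`).
    [a relation `∑ P_i b'_i = 0`, `P_i ∈ A[X]` not all divisible by `π` (divide by the largest power of
    `C π`; `A[X]` is a UFD / use `Polynomial.C_dvd_iff_dvd_coeff` + the valuation of `A`);
    apply `Φ`, use injectivity of `ι`, reduce: `∑ P̄_i(t̄) b̄_i = 0`, so `P̄_i(t̄) = 0`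
    (`S28.linearIndependent_iff_polyIndep`), so `P̄_i = 0` (`ht`), so `C π ∣ P_i` (`ker r = (π)`).]
(b) `exists_coords` : **the Gauss lemma**.  If `Φ f * ι h = ι g`, `h̄ ≠ 0`, write `f = ∑ (P_i/Q) b'_i`
    with `(Q, P_1, …, P_n)` not all divisible by `π`.  In `A((q))`: `Q(t) g = (∑ P_i(t) b_i) h`.
    Reduce.  If `Q̄ = 0` then `∑ P̄_i(t̄) b̄_i = 0`, all `P̄_i = 0`: contradiction.  So `π ∤ Q`.
    If moreover `ḡ = 0` then all `P̄_i = 0`.
(c) `isOL_basis` : apply (b) to `f = b'_i b'_j` and `f = 1`; with a common denominator `Q`: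
    `(Q b'_i) Λ ⊆ Λ`, `Λ = ∑ A[X] b'_l ≠ 0`, so `Q • b'_i` is integral
    (`isIntegral_of_smul_mem_submodule`).
(d) `isOL_of_qexp`, `isPiOL_of_qexp` : (b) + (c) + `G.IsOL.smul/sum/of_smul`.
(e) `unitDisc_of_qexp` : structure constants `c_ijl = P_ijl / Q`; `Tr(b'_i b'_j) = N_ij / Q²`,
    `N_ij = ∑_{l,m} P_ijl P_lmm` (`traceMatrix_eq_of_structure`); `det = det N / Q^{2n}`.
    The reductions `c̄_ijl = P̄_ijl(t̄)/Q̄(t̄) ∈ k(t̄)` are structure constants of `b̄`, so
    `det N̄ (t̄) = Q̄(t̄)^{2n} det(∑ c̄ c̄) ≠ 0` by `det_structure_ne_zero`; hence `π ∤ det N` and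
    `c = Q^{2n} / det N ∈ O_G` is the inverse of the discriminant.
-/

set_option autoImplicit false

open Polynomial ModularCurve
open scoped IntermediateField

namespace Fermat.Agent.Crux.GM

open Fermat.Agent.Crux.G Fermat.Agent.S28

variable {A K k : Type*} [CommRing A] [IsDomain A] [IsDiscreteValuationRing A] [Field K]
  [Algebra A K] [IsFractionRing A K] [Field k] (r : A →+* k) {π : A}
variable {E F : Type*} [Field E] [Field F] [Algebra A[X] E] [IsFractionRing A[X] E]
  [Algebra A[X] F] [Algebra E F] [IsScalarTower A[X] E F]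
variable (Φ : F →+* LaurentSeries K) (t : LaurentSeries A) {n : ℕ} (b : Fin n → LaurentSeries A)

/-- (c) -/
theorem isOL_basis (hr : Function.Surjective r) (hπ : Irreducible π)
    (hΦ : ∀ P : A[X], Φ (algebraMap A[X] F P) = coeffMap (algebraMap A K) (evAt t P))
    (ht : Transcendental k (coeffMap r t))
    (hind : LinearIndependent k⟮coeffMap r t⟯ (fun i => coeffMap r (b i)))
    (b' : Module.Basis (Fin n) E F) (hb' : ∀ i, Φ (b' i) = coeffMap (algebraMap A K) (b i))
    (i : Fin n) : IsOL π (b' i) := by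
  classical
  have hp : Prime π := hπ.prime
  have hone : coeffMap r (1 : LaurentSeries A) ≠ 0 := by
    rw [map_one]; exact one_ne_zero
  -- structure constants of `b' i * b' j`
  have hstr : ∀ j : Fin n, ∃ (Q : A[X]) (P : Fin n → A[X]), ¬ C π ∣ Q ∧
      Q • (b' i * b' j) = ∑ l, P l • b' l := by
    intro j
    obtain ⟨Q, P, hQ, hQP, -, -⟩ := exists_coords r Φ t b hr hπ hΦ ht hind b' hb' (b' i * b' j)
      (b i * b j) 1 hone (by rw [map_mul, hb', hb', map_one, mul_one, map_mul])
    exact ⟨Q, P, hQ, hQP⟩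
  choose Q P hQ hQP using hstr
  have hprod : ∀ s : Finset (Fin n), ¬ C π ∣ ∏ j ∈ s, Q j := by
    intro s
    induction s using Finset.induction_on with
    | empty => simpa using Sat.not_dvd_one hp
    | insert a s ha ih =>
      rw [Finset.prod_insert ha]
      exact Sat.not_dvd_mul hp (hQ a) ih
  refine ⟨∏ j, Q j, hprod _, ?_⟩
  set Λ : Submodule A[X] F := Submodule.span A[X] (Set.range b') with hΛ
  have hmem : ∀ l, b' l ∈ Λ := fun l => Submodule.subset_span ⟨l, rfl⟩
  refine isIntegral_of_smul_mem_submodule (M := F) Λ ?_ ?_ _ ?_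
  · intro h
    have h1 : b' i ∈ (⊥ : Submodule A[X] F) := h ▸ hmem i
    exact b'.ne_zero i ((Submodule.mem_bot _).1 h1)
  · exact Submodule.fg_span (Set.finite_range b')
  · intro y hy
    induction hy using Submodule.span_induction with
    | mem y hy =>
      obtain ⟨j, rfl⟩ := hy
      have h1 : ((∏ j, Q j) • b' i) • b' j
          = (∏ l ∈ Finset.univ.erase j, Q l) • (Q j • (b' i * b' j)) := by
        rw [← Finset.mul_prod_erase Finset.univ Q (Finset.mem_univ j), smul_eq_mul,
          smul_mul_assoc, mul_comm (Q j), mul_smul]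
      rw [h1, hQP j]
      exact Λ.smul_mem _ (Λ.sum_mem fun l _ => Λ.smul_mem _ (hmem l))
    | zero => rw [smul_zero]; exact Λ.zero_mem
    | add y z _ _ hy hz => rw [smul_add]; exact Λ.add_mem hy hz
    | smul a y _ hy => rw [smul_comm]; exact Λ.smul_mem _ hy

/-- (d) **q-link, integrality**: a quotient `g/h` of integral series, `h̄ ≠ 0`, lies in `O_F`. -/
theorem isOL_of_qexp (hr : Function.Surjective r) (hπ : Irreducible π)
    (hΦ : ∀ P : A[X], Φ (algebraMap A[X] F P) = coeffMap (algebraMap A K) (evAt t P))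
    (ht : Transcendental k (coeffMap r t))
    (hb : ∀ i, coeffMap (algebraMap A K) (b i) ∈ Set.range Φ)
    (hind : LinearIndependent k⟮coeffMap r t⟯ (fun i => coeffMap r (b i)))
    (hn : Module.finrank E F = n) (hn0 : 0 < n)
    (f : F) (g h : LaurentSeries A) (hh : coeffMap r h ≠ 0)
    (hf : Φ f * coeffMap (algebraMap A K) h = coeffMap (algebraMap A K) g) : IsOL π f := by
  have hp : Prime π := hπ.prime
  obtain ⟨b', hb'⟩ := exists_basis_lift r Φ t b hr hπ hΦ ht hb hind hn hn0
  obtain ⟨Q, P, hQ, hQP, -, -⟩ := exists_coords r Φ t b hr hπ hΦ ht hind b' hb' f g h hh hf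
  refine IsOL.of_smul hp hQ ?_
  rw [hQP]
  exact IsOL.sum hp _ _ fun i _ => (isOL_basis r Φ t b hr hπ hΦ ht hind b' hb' i).smul (P i)

/-- (d) **q-link, reduction zero**: if moreover `ḡ = 0` then `g/h ∈ π O_F`. -/
theorem isPiOL_of_qexp (hr : Function.Surjective r) (hπ : Irreducible π)
    (hΦ : ∀ P : A[X], Φ (algebraMap A[X] F P) = coeffMap (algebraMap A K) (evAt t P))
    (ht : Transcendental k (coeffMap r t))
    (hb : ∀ i, coeffMap (algebraMap A K) (b i) ∈ Set.range Φ)
    (hind : LinearIndependent k⟮coeffMap r t⟯ (fun i => coeffMap r (b i)))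
    (hn : Module.finrank E F = n) (hn0 : 0 < n)
    (f : F) (g h : LaurentSeries A) (hh : coeffMap r h ≠ 0) (hg : coeffMap r g = 0)
    (hf : Φ f * coeffMap (algebraMap A K) h = coeffMap (algebraMap A K) g) : IsPiOL π f := by
  have hp : Prime π := hπ.prime
  have hfaith : FaithfulSMul A[X] F := by
    rw [faithfulSMul_iff_algebraMap_injective, IsScalarTower.algebraMap_eq A[X] E F]
    exact (algebraMap E F).injective.comp (IsFractionRing.injective A[X] E)
  obtain ⟨b', hb'⟩ := exists_basis_lift r Φ t b hr hπ hΦ ht hb hind hn hn0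
  obtain ⟨Q, P, hQ, hQP, -, hP⟩ := exists_coords r Φ t b hr hπ hΦ ht hind b' hb' f g h hh hf
  refine IsPiOL.of_smul hp hQ ?_
  rw [hQP]
  refine IsPiOL.sum hp _ _ fun i _ => ?_
  obtain ⟨P', hP'⟩ := hP hg i
  rw [hP', mul_smul]
  exact ((isOL_basis r Φ t b hr hπ hΦ ht hind b' hb' i).smul P').C_smul

/-- (e) **(H1), basis form.** -/
theorem unitDisc_of_qexp (hr : Function.Surjective r) (hπ : Irreducible π)
    (hΦ : ∀ P : A[X], Φ (algebraMap A[X] F P) = coeffMap (algebraMap A K) (evAt t P))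
    (ht : Transcendental k (coeffMap r t))
    (hb : ∀ i, coeffMap (algebraMap A K) (b i) ∈ Set.range Φ)
    (hind : LinearIndependent k⟮coeffMap r t⟯ (fun i => coeffMap r (b i)))
    (hn : Module.finrank E F = n) (hn0 : 0 < n)
    (hsep : ∀ y : LaurentSeries k, IsAlgebraic k⟮coeffMap r t⟯ y → IsSeparable k⟮coeffMap r t⟯ y) :
    UnitDisc π E F := by
  have hp : Prime π := hπ.prime
  obtain ⟨b', hb'⟩ := exists_basis_lift r Φ t b hr hπ hΦ ht hb hind hn hn0
  have hone : coeffMap r (1 : LaurentSeries A) ≠ 0 := by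
    rw [map_one]; exact one_ne_zero
  -- the reduction map `A[X] → k(t̄)`
  let φ : A[X] →+* k⟮coeffMap r t⟯ :=
    ((aeval (IntermediateField.AdjoinSimple.gen k (coeffMap r t)) :
      k[X] →ₐ[k] k⟮coeffMap r t⟯) : k[X] →+* k⟮coeffMap r t⟯).comp (mapRingHom r)
  have hφval : ∀ P : A[X], algebraMap k⟮coeffMap r t⟯ (LaurentSeries k) (φ P)
      = coeffMap r (evAt t P) := by
    intro P
    rw [red_evAt]
    change algebraMap k⟮coeffMap r t⟯ (LaurentSeries k)
      (aeval (IntermediateField.AdjoinSimple.gen k (coeffMap r t)) (P.map r)) = _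
    rw [← aeval_algebraMap_apply, IntermediateField.AdjoinSimple.algebraMap_gen]
  have hφ : ∀ P : A[X], φ P = 0 ↔ C π ∣ P := by
    intro P
    constructor
    · intro h
      have h1 := hφval P
      rw [h, map_zero, red_evAt] at h1
      exact C_dvd_of_map_eq_zero r hr hπ ((transcendental_iff.1 ht) _ h1.symm)
    · rintro ⟨P', rfl⟩
      have hπ0 : r π = 0 := by
        by_contra h0
        obtain ⟨u, hu⟩ := hr (r π)⁻¹
        have h1 : r (π * u - 1) = 0 := by
          rw [map_sub, map_mul, hu, mul_inv_cancel₀ h0, map_one, sub_self]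
        obtain ⟨v, hv⟩ := dvd_of_map_eq_zero r hr hπ h1
        exact hπ.not_isUnit (IsUnit.of_mul_eq_one (u - v) (by linear_combination hv))
      change aeval (IntermediateField.AdjoinSimple.gen k (coeffMap r t)) ((C π * P').map r) = 0
      rw [Polynomial.map_mul, Polynomial.map_C, hπ0, map_zero, zero_mul, map_zero]
  refine unitDisc_of_structure' hp φ hφ b'
    (fun i => isOL_basis r Φ t b hr hπ hΦ ht hind b' hb' i) (fun i => coeffMap r (b i)) hind hsep
    ?_ ?_
  · intro i j
    obtain ⟨Q, P, hQ, hQP, hev, -⟩ := exists_coords r Φ t b hr hπ hΦ ht hind b' hb' (b' i * b' j)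
      (b i * b j) 1 hone (by rw [map_mul, hb', hb', map_one, mul_one, map_mul])
    refine ⟨Q, P, hQ, hQP, ?_⟩
    have h := congrArg (coeffMap r) hev
    rw [mul_one, map_mul, map_mul, map_sum] at h
    rw [Algebra.smul_def, hφval, h]
    refine Finset.sum_congr rfl fun l _ => ?_
    rw [map_mul, Algebra.smul_def, hφval]
  · obtain ⟨Q, P, hQ, -, hev, -⟩ := exists_coords r Φ t b hr hπ hΦ ht hind b' hb' 1
      1 1 hone (by rw [map_one, map_one, mul_one])
    refine ⟨Q, P, hQ, ?_⟩
    have h := congrArg (coeffMap r) hev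
    rw [mul_one, mul_one, map_sum] at h
    rw [Algebra.smul_def, hφval, mul_one, h]
    refine Finset.sum_congr rfl fun l _ => ?_
    rw [map_mul, Algebra.smul_def, hφval]

end Fermat.Agent.Crux.GM
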