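import Fermat.Agent.ES.An.FormalRoot

/-!
# Crux / GM-Root : `d`-th roots in `κ((T))`, `κ` of characteristic `0`, not nec. algebraically closed

PROOF: copy of `ES.An.exists_pow_eq_laurentSeries` (same file: `exists_pow_eq_powerSeries` does the work);
the only change: the `d`-th root of the leading coefficient is given by `hlead` instead of `IsAlgClosed`.
-/

set_option autoImplicit false

namespace Fermat.Agent.Crux.GM

/-- **GM-Root.** -/
theorem exists_pow_eq_laurent {κ : Type*} [Field κ] [CharZero κ] (d : ℕ) (hd : 0 < d)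
    (g : LaurentSeries κ) (hg : g ≠ 0) (hord : (d : ℤ) ∣ g.order)
    (hlead : ∃ u : κ, u ^ d = g.leadingCoeff) : ∃ w : LaurentSeries κ, w ^ d = g := by
  obtain ⟨k, hk⟩ := hord
  set P := g.powerSeriesPart with hPdef
  have hPc : PowerSeries.constantCoeff P = g.leadingCoeff := by
    rw [← PowerSeries.coeff_zero_eq_constantCoeff_apply, hPdef, LaurentSeries.powerSeriesPart_coeff,
      HahnSeries.leadingCoeff_eq]
    simp
  have hP0 : PowerSeries.constantCoeff P ≠ 0 := by
    rw [hPc]
    exact HahnSeries.leadingCoeff_ne_zero.mpr hg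
  set c := PowerSeries.constantCoeff P with hc
  obtain ⟨u, hu⟩ := hlead
  rw [← hPc] at hu
  obtain ⟨R, hR, -⟩ := ES.An.exists_pow_eq_powerSeries d hd (PowerSeries.C c⁻¹ * P) (by
    rw [map_mul, PowerSeries.constantCoeff_C, ← hc, inv_mul_cancel₀ hP0])
  refine ⟨HahnSeries.single k (1 : κ) * HahnSeries.ofPowerSeries ℤ κ (PowerSeries.C u * R), ?_⟩
  have h1 : (PowerSeries.C u * R) ^ d = P := by
    rw [mul_pow, hR, ← map_pow, hu, ← mul_assoc, ← map_mul, mul_inv_cancel₀ hP0, map_one, one_mul]
  have h2 : d • k = g.order := by rw [hk]; simp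
  rw [mul_pow, HahnSeries.single_pow, one_pow, ← map_pow, h1, h2]
  exact LaurentSeries.single_order_mul_powerSeriesPart g

end Fermat.Agent.Crux.GM
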