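import Fermat.Agent.Crux.GM.Core
import Fermat.Agent.Crux.GM.Root

/-!
# Crux / GM-Main : the core over `(A, K)`, concrete fields inside `K((q))`

PLAN for `coreK_of_goodCoord`.  `𝕂 = LaurentSeries K`, `F_K = modularFunctionFieldFullC K M`,
`Ws = ι y₁ / ι y₂ ∈ F_K`, `Ws ≠ 0`.  `CharZero K` from `(algebraMap K Kb).injective`.
1. `d ∣ Ws.order`: `dvd_order_coe M d W' _ hdiv`, and `coeffMap` of an injective ring hom preserves the order.
2. `w : 𝕂`, `w ^ d = Ws` (`exists_pow_eq_laurent`, `hlc`).
3. `by_contra`: `∀ s ∈ F_K, s ^ d ≠ Ws`.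
4. `tK = castS K xh`, `E0 : IntermediateField K 𝕂 := K⟮tK⟯`, `hle : E0 ≤ F_K` (`hx.mem K`),
   `F0 : IntermediateField E0 𝕂 := IntermediateField.extendScalars hle`,
   `L0 : IntermediateField F0 𝕂 := F0⟮w⟯`;  `E = ↥E0`, `F = ↥F0`, `L = ↥L0`, `Φ = algebraMap L 𝕂`.
   `Algebra A E := ((algebraMap K E).comp (algebraMap A K)).toAlgebra`, the same for `L` through `E`
   (`IsScalarTower.of_algebraMap_eq fun _ => rfl`).
   * `finrank E F = n`: `IntermediateField.relfinrank_eq_finrank_of_le hle` + `hx.deg K`.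
   * `X ^ d - C W` irreducible over `F` (`X_pow_sub_C_irreducible_of_prime hd`), so it is `minpoly F w`;
     `finrank F L = d` (`IntermediateField.adjoin.finrank`), `hli` from `IntermediateField.adjoin.powerBasis`
     (or `G.kummer_linearIndependent_of_adjoin`).
   * `x = ⟨tK, _⟩`; `Transcendental A x` from `transcendental_of_order_neg` (`order_castS`, `hx.order_neg`);
     `hgen` from `IntermediateField.mem_adjoin_simple_iff` + clearing denominators
     (`IsLocalization.integerNormalization` / `IsFractionRing.div_surjective` coefficientwise).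
5. `core_abstract` gives `False`.
-/

set_option autoImplicit false

open Polynomial ModularCurve AlgebraicCurve
open scoped IntermediateField

namespace Fermat.Agent.Crux.GM

open Fermat.Agent.S24 (Kb FN)

section abstractGlue

variable {A K 𝕂 : Type*} [CommRing A] [IsDomain A] [Field K] [Algebra A K] [IsFractionRing A K]
  [Field 𝕂] [Algebra K 𝕂] (t : 𝕂)

omit [IsDomain A] [IsFractionRing A K] in
theorem Main.coe_eval₂_gen (φ : A →+* K⟮t⟯)
    (hφ : ∀ a, φ a = algebraMap K K⟮t⟯ (algebraMap A K a)) (P : A[X]) :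
    ((eval₂ φ (IntermediateField.AdjoinSimple.gen K t) P : K⟮t⟯) : 𝕂) =
      aeval t (P.map (algebraMap A K)) := by
  have h1 : ((eval₂ φ (IntermediateField.AdjoinSimple.gen K t) P : K⟮t⟯) : 𝕂) =
      algebraMap K⟮t⟯ 𝕂 (eval₂ φ (IntermediateField.AdjoinSimple.gen K t) P) := rfl
  rw [h1, Polynomial.hom_eval₂, aeval_def, eval₂_map]
  congr 1
  ext a
  simp only [RingHom.comp_apply, hφ]
  rfl

omit [IsDomain A] in
theorem Main.eq_zero_of_eval₂_gen (ht : Transcendental K t) (φ : A →+* K⟮t⟯)
    (hφ : ∀ a, φ a = algebraMap K K⟮t⟯ (algebraMap A K a)) (P : A[X])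
    (h : eval₂ φ (IntermediateField.AdjoinSimple.gen K t) P = 0) : P = 0 := by
  have h1 := Main.coe_eval₂_gen t φ hφ P
  rw [h, ZeroMemClass.coe_zero] at h1
  have h2 := (transcendental_iff.1 ht) _ h1.symm
  exact (Polynomial.map_eq_zero_iff (IsFractionRing.injective A K)).1 h2

theorem Main.exists_frac_gen (φ : A →+* K⟮t⟯)
    (hφ : ∀ a, φ a = algebraMap K K⟮t⟯ (algebraMap A K a)) (c : K⟮t⟯) :
    ∃ p q : A[X], q ≠ 0 ∧ c * eval₂ φ (IntermediateField.AdjoinSimple.gen K t) q =
      eval₂ φ (IntermediateField.AdjoinSimple.gen K t) p := by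
  obtain ⟨r, s, hc⟩ := (IntermediateField.mem_adjoin_simple_iff K c.1).1 c.2
  by_cases hs : aeval t s = 0
  · refine ⟨0, 1, one_ne_zero, ?_⟩
    have : c = 0 := Subtype.ext (by rw [hc, hs, div_zero]; rfl)
    rw [this]; simp
  · obtain ⟨a, ham, ha⟩ := IsLocalization.integerNormalization_spec (nonZeroDivisors A) r
    obtain ⟨b, hbm, hb⟩ := IsLocalization.integerNormalization_spec (nonZeroDivisors A) s
    set r' := IsLocalization.integerNormalization (nonZeroDivisors A) r
    set s' := IsLocalization.integerNormalization (nonZeroDivisors A) s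
    have ha0 : algebraMap K 𝕂 (algebraMap A K a) ≠ 0 := by
      rw [Ne, map_eq_zero, map_eq_zero_iff _ (IsFractionRing.injective A K)]
      exact nonZeroDivisors.ne_zero ham
    have hb0 : algebraMap K 𝕂 (algebraMap A K b) ≠ 0 := by
      rw [Ne, map_eq_zero, map_eq_zero_iff _ (IsFractionRing.injective A K)]
      exact nonZeroDivisors.ne_zero hbm
    have hr : aeval t (r'.map (algebraMap A K)) = algebraMap K 𝕂 (algebraMap A K a) * aeval t r := by
      rw [ha, ← IsScalarTower.algebraMap_smul K a r, map_smul, Algebra.smul_def]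
    have hs' : aeval t (s'.map (algebraMap A K)) = algebraMap K 𝕂 (algebraMap A K b) * aeval t s := by
      rw [hb, ← IsScalarTower.algebraMap_smul K b s, map_smul, Algebra.smul_def]
    have hq : ((eval₂ φ (IntermediateField.AdjoinSimple.gen K t) (C a * s') : K⟮t⟯) : 𝕂) =
        algebraMap K 𝕂 (algebraMap A K a) * (algebraMap K 𝕂 (algebraMap A K b) * aeval t s) := by
      rw [Main.coe_eval₂_gen t φ hφ, Polynomial.map_mul, map_mul, hs', Polynomial.map_C, aeval_C]
    have hp : ((eval₂ φ (IntermediateField.AdjoinSimple.gen K t) (C b * r') : K⟮t⟯) : 𝕂) =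
        algebraMap K 𝕂 (algebraMap A K b) * (algebraMap K 𝕂 (algebraMap A K a) * aeval t r) := by
      rw [Main.coe_eval₂_gen t φ hφ, Polynomial.map_mul, map_mul, hr, Polynomial.map_C, aeval_C]
    refine ⟨C b * r', C a * s', ?_, ?_⟩
    · intro h0
      rw [h0, eval₂_zero, ZeroMemClass.coe_zero] at hq
      exact mul_ne_zero ha0 (mul_ne_zero hb0 hs) hq.symm
    · apply Subtype.ext
      rw [MulMemClass.coe_mul, hq, hp, hc]
      field_simp

end abstractGlue

section kummerGlue

variable {F 𝕂 : Type*} [Field F] [Field 𝕂] [Algebra F 𝕂]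

theorem Main.minpoly_kummer (d : ℕ) (hd : d.Prime) (W : F) (w : 𝕂)
    (hw : w ^ d = algebraMap F 𝕂 W) (hno : ∀ b : F, b ^ d ≠ W) :
    IsIntegral F w ∧ (minpoly F w).natDegree = d := by
  have hirr : Irreducible (X ^ d - C W : F[X]) := X_pow_sub_C_irreducible_of_prime hd hno
  have hmon : (X ^ d - C W : F[X]).Monic := monic_X_pow_sub_C W hd.ne_zero
  have hev : aeval w (X ^ d - C W : F[X]) = 0 := by simp [hw]
  have hmin := minpoly.eq_of_irreducible_of_monic hirr hev hmon
  exact ⟨⟨_, hmon, hev⟩, by rw [← hmin, natDegree_X_pow_sub_C]⟩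

theorem Main.finrank_kummer (d : ℕ) (hd : d.Prime) (W : F) (w : 𝕂)
    (hw : w ^ d = algebraMap F 𝕂 W) (hno : ∀ b : F, b ^ d ≠ W) :
    Module.finrank F F⟮w⟯ = d := by
  obtain ⟨h1, h2⟩ := Main.minpoly_kummer d hd W w hw hno
  rw [IntermediateField.adjoin.finrank h1, h2]

theorem Main.linearIndependent_kummer (d : ℕ) (hd : d.Prime) (W : F) (w : 𝕂)
    (hw : w ^ d = algebraMap F 𝕂 W) (hno : ∀ b : F, b ^ d ≠ W) :
    LinearIndependent F (fun j : Fin d => (IntermediateField.AdjoinSimple.gen F w) ^ (j : ℕ)) := by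
  obtain ⟨h1, h2⟩ := Main.minpoly_kummer d hd W w hw hno
  have := linearIndependent_pow (K := F) (IntermediateField.AdjoinSimple.gen F w)
  rw [IntermediateField.minpoly_gen, h2] at this
  exact this

end kummerGlue

theorem Main.order_coeffMap {k K : Type*} [Field k] [Field K] (φ : k →+* K) (x : LaurentSeries k) :
    (coeffMap φ x).order = x.order := by
  rcases eq_or_ne x 0 with rfl | hx
  · simp
  have hx' : coeffMap φ x ≠ 0 := by
    intro h
    exact hx ((coeffMap φ).injective (by rw [h, map_zero]))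
  apply le_antisymm
  · refine HahnSeries.order_le_of_coeff_ne_zero ?_
    rw [coeffMap_coeff]
    simpa using (mt HahnSeries.coeff_order_eq_zero.mp hx)
  · refine HahnSeries.order_le_of_coeff_ne_zero ?_
    have := (mt HahnSeries.coeff_order_eq_zero.mp hx')
    rw [coeffMap_coeff] at this
    exact fun h => this (by rw [h, map_zero])

set_option maxHeartbeats 4000000 in
set_option synthInstance.maxHeartbeats 400000 in
/-- `core_abstract` for a tower of intermediate fields of `K((q))`. -/
theorem Main.core_tower (M : ℕ) [NeZero M] (ℓ : ℕ) (hℓ : ℓ.Prime) (xh : LaurentSeries ℤ)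
    (β : ℤ) (n : ℕ) (hx : GoodCoord M ℓ xh β n)
    {A K k : Type} [CommRing A] [IsDomain A] [IsDiscreteValuationRing A] [Field K] [CharZero K]
    [Algebra A K] [IsFractionRing A K] [Algebra K Kb] [Field k] [PerfectField k]
    (r : A →+* k) (hr : Function.Surjective r) (hrℓ : r ℓ = 0)
    (E0 : IntermediateField K (LaurentSeries K)) (F0 : IntermediateField E0 (LaurentSeries K))
    (L0 : IntermediateField F0 (LaurentSeries K))
    (hF0 : ∀ z, z ∈ modularFunctionFieldFullC K M ↔ z ∈ F0)
    (x : E0) (hx' : (x : LaurentSeries K) = castS K xh)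
    (hxt : ∀ P : A[X], eval₂ ((algebraMap K E0).comp (algebraMap A K)) x P = 0 → P = 0)
    (hgen : ∀ c : E0, ∃ p q : A[X], q ≠ 0 ∧
      c * eval₂ ((algebraMap K E0).comp (algebraMap A K)) x q =
        eval₂ ((algebraMap K E0).comp (algebraMap A K)) x p)
    (hn : Module.finrank E0 F0 = n)
    (d : ℕ) (hd : d.Prime) (hdℓ : d ≠ ℓ) (W : F0) (wL : L0)
    (hw : (wL : LaurentSeries K) ^ d = (W : LaurentSeries K))
    (hdeg : Module.finrank F0 L0 = d)
    (hli : LinearIndependent F0 (fun j : Fin d => wL ^ (j : ℕ)))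
    (y₁ y₂ : LaurentSeries A) (hred : coeffMap r y₁ = coeffMap r y₂) (hne : coeffMap r y₂ ≠ 0)
    (hW : (W : LaurentSeries K) * coeffMap (algebraMap A K) y₂ = coeffMap (algebraMap A K) y₁)
    (W' : FN M) (hW' : (W' : LaurentSeries Kb) = coeffMap (algebraMap K Kb) (W : LaurentSeries K))
    (hdiv : ∀ P : Place Kb (FN M), (d : ℤ) ∣ P.ord W') : False := by
  obtain ⟨π, hπ⟩ := IsDiscreteValuationRing.exists_irreducible A
  let iAE : Algebra A E0 := ((algebraMap K E0).comp (algebraMap A K)).toAlgebra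
  let iAL : Algebra A L0 :=
    ((algebraMap E0 L0).comp ((algebraMap K E0).comp (algebraMap A K))).toAlgebra
  have i1 : IsScalarTower A E0 L0 := IsScalarTower.of_algebraMap_eq fun _ => rfl
  have i2 : CharZero E0 := charZero_of_injective_algebraMap (algebraMap K E0).injective
  have i3 : FiniteDimensional E0 F0 := FiniteDimensional.of_finrank_pos (by rw [hn]; exact hx.n_pos)
  have i4 : FiniteDimensional F0 L0 := FiniteDimensional.of_finrank_pos (by rw [hdeg]; exact hd.pos)
  have i5 : FiniteDimensional E0 L0 := Module.Finite.trans F0 L0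
  refine core_abstract M ℓ xh β n r π (E := E0) (F := F0) (L := L0) x
    (algebraMap L0 (LaurentSeries K)) hℓ hx hr hrℓ hπ (transcendental_iff.2 hxt) hgen
    ?_ hx' ?_ hn d hd hdℓ W wL (Subtype.ext hw) hdeg hli y₁ y₂ hred hne hW W' hW' hdiv
  · intro a
    change algebraMap K (LaurentSeries K) (algebraMap A K a) = _
    rw [algebraMap_laurentSeries_eq_single, HahnSeries.C_apply]
  · intro z
    rw [hF0]
    exact ⟨fun hz => ⟨⟨z, hz⟩, rfl⟩, fun ⟨f, hf⟩ => hf ▸ f.2⟩

set_option maxHeartbeats 4000000 in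
set_option synthInstance.maxHeartbeats 400000 in
/-- **GM-Main.** -/
theorem coreK_of_goodCoord (M : ℕ) [NeZero M] (ℓ : ℕ) (hℓ : ℓ.Prime) (xh : LaurentSeries ℤ)
    (β : ℤ) (n : ℕ) (hx : GoodCoord M ℓ xh β n)
    {A K k : Type} [CommRing A] [IsDomain A] [IsDiscreteValuationRing A] [Field K]
    [Algebra A K] [IsFractionRing A K] [Algebra K Kb] [Field k] [PerfectField k]
    (r : A →+* k) (hr : Function.Surjective r) (hrℓ : r ℓ = 0)
    (d : ℕ) (hd : d.Prime) (hdℓ : d ≠ ℓ) (y₁ y₂ : LaurentSeries A)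
    (h₁ : coeffMap (algebraMap A K) y₁ ∈ modularFunctionFieldFullC K M)
    (h₂ : coeffMap (algebraMap A K) y₂ ∈ modularFunctionFieldFullC K M)
    (hred : coeffMap r y₁ = coeffMap r y₂) (hne : coeffMap r y₂ ≠ 0)
    (hlc : ∃ c : K, c ^ d =
      (coeffMap (algebraMap A K) y₁ / coeffMap (algebraMap A K) y₂).leadingCoeff)
    (W' : FN M) (hW' : (W' : LaurentSeries Kb) = coeffMap (algebraMap K Kb)
      (coeffMap (algebraMap A K) y₁ / coeffMap (algebraMap A K) y₂))
    (hdiv : ∀ P : Place Kb (FN M), (d : ℤ) ∣ P.ord W') :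
    ∃ s ∈ modularFunctionFieldFullC K M,
      s ^ d = coeffMap (algebraMap A K) y₁ / coeffMap (algebraMap A K) y₂ := by
  classical
  have hK0 : CharZero K :=
    ((algebraMap K Kb).charZero_iff (algebraMap K Kb).injective).2 inferInstance
  have hιinj : Function.Injective (coeffMap (algebraMap A K)) := by
    intro x y h
    ext m
    have := congrArg (fun z => z.coeff m) h
    exact IsFractionRing.injective A K (by simpa using this)
  have hy2 : coeffMap (algebraMap A K) y₂ ≠ 0 := by
    intro h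
    have : y₂ = 0 := hιinj (by rw [h, map_zero])
    exact hne (by rw [this, map_zero])
  have hy1 : coeffMap (algebraMap A K) y₁ ≠ 0 := by
    intro h
    have : y₁ = 0 := hιinj (by rw [h, map_zero])
    rw [this, map_zero] at hred
    exact hne hred.symm
  set Ws : LaurentSeries K := coeffMap (algebraMap A K) y₁ / coeffMap (algebraMap A K) y₂ with hWs
  have hWs0 : Ws ≠ 0 := div_ne_zero hy1 hy2
  have hWsF : Ws ∈ modularFunctionFieldFullC K M := div_mem h₁ h₂
  have hW'0 : W' ≠ 0 := by
    rintro rfl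
    rw [ZeroMemClass.coe_zero] at hW'
    exact hWs0 ((coeffMap (algebraMap K Kb)).injective (by rw [← hW', map_zero]))
  have hord : (d : ℤ) ∣ Ws.order := by
    have := dvd_order_coe M d W' hW'0 hdiv
    rwa [hW', Main.order_coeffMap] at this
  obtain ⟨w, hw⟩ := exists_pow_eq_laurent d hd.pos Ws hWs0 hord hlc
  by_contra hcon
  push Not at hcon
  have hle : K⟮castS K xh⟯ ≤ modularFunctionFieldFullC K M :=
    IntermediateField.adjoin_simple_le_iff.2 (hx.mem K)
  have htK : Transcendental K (castS K xh) :=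
    transcendental_of_order_neg _ (by rw [order_castS xh hx.leading]; exact hx.order_neg)
  have hno : ∀ b : IntermediateField.extendScalars hle, b ^ d ≠ ⟨Ws, hWsF⟩ := by
    intro b hb
    exact hcon b.1 b.2 (congrArg Subtype.val hb)
  exact Main.core_tower M ℓ hℓ xh β n hx r hr hrℓ K⟮castS K xh⟯
    (IntermediateField.extendScalars hle) (IntermediateField.extendScalars hle)⟮w⟯
    (fun _ => Iff.rfl) (IntermediateField.AdjoinSimple.gen K (castS K xh)) rfl
    (fun P hP => Main.eq_zero_of_eval₂_gen (A := A) _ htK _ (fun _ => rfl) P hP)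
    (fun c => Main.exists_frac_gen (A := A) _ _ (fun _ => rfl) c)
    ((IntermediateField.relfinrank_eq_finrank_of_le hle).symm.trans (hx.deg K))
    d hd hdℓ ⟨Ws, hWsF⟩ (IntermediateField.AdjoinSimple.gen _ w) hw
    (Main.finrank_kummer d hd _ w hw hno) (Main.linearIndependent_kummer d hd _ w hw hno)
    y₁ y₂ hred hne (div_mul_cancel₀ _ hy2) W' hW' hdiv

end Fermat.Agent.Crux.GM
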