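import Fermat.Agent.Crux.GM.Core
import Fermat.Agent.Crux.G.ChartInt
import Fermat.Agent.Crux.G.QLink

/-!
# Crux / GM : normality of the special fibre of the charts `x`, `x⁻¹` of a good coordinate (part A)

* `Normal.RedTo inc red a c` : `a = g/h` with `g, h ∈ O`, `red h ≠ 0`, `red g / red h = c`; calculus.
* `Normal.exists_pow_mul_red_ne_zero` : every nonzero `g ∈ A((q))` is `π^k g'` with `red g' ≠ 0`.
* `Normal.exists_coords_of_isOL` : the coordinates of an element of `O_F` with respect to the basis `b'` of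
  `GM/H1` lie in `O_G`  (converse of the `q`-link).
-/

set_option autoImplicit false
set_option linter.unusedSectionVars false

open Polynomial ModularCurve
open scoped IntermediateField

namespace Fermat.Agent.Crux.GM

open Fermat.Agent.Crux.G Fermat.Agent.S28 Fermat.Agent.S28.Build

namespace Normal

/-! ### Reduction of fractions -/

section val

variable {Ω O κ : Type*} [Field Ω] [CommRing O] [Field κ] (inc : O →+* Ω) (red : O →+* κ)

/-- `a = g / h` with `red h ≠ 0` and `red g / red h = c`. -/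
def RedTo (a : Ω) (c : κ) : Prop := ∃ g h : O, red h ≠ 0 ∧ a * inc h = inc g ∧ red g = c * red h

variable {inc red}

theorem redTo_inc (g : O) : RedTo inc red (inc g) (red g) := ⟨g, 1, by simp, by simp, by simp⟩

theorem redTo_zero : RedTo inc red 0 0 := by simpa using redTo_inc (inc := inc) (red := red) 0

theorem redTo_one : RedTo inc red 1 1 := by simpa using redTo_inc (inc := inc) (red := red) 1

theorem RedTo.add {a b : Ω} {c d : κ} (ha : RedTo inc red a c) (hb : RedTo inc red b d) :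
    RedTo inc red (a + b) (c + d) := by
  obtain ⟨g, h, h1, h2, h3⟩ := ha
  obtain ⟨g', h', h1', h2', h3'⟩ := hb
  refine ⟨g * h' + g' * h, h * h', by rw [map_mul]; exact mul_ne_zero h1 h1', ?_, ?_⟩
  · rw [map_mul, map_add, map_mul, map_mul, ← h2, ← h2']; ring
  · rw [map_add, map_mul, map_mul, map_mul, h3, h3']; ring

theorem RedTo.mul {a b : Ω} {c d : κ} (ha : RedTo inc red a c) (hb : RedTo inc red b d) :
    RedTo inc red (a * b) (c * d) := by
  obtain ⟨g, h, h1, h2, h3⟩ := ha
  obtain ⟨g', h', h1', h2', h3'⟩ := hb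
  refine ⟨g * g', h * h', by rw [map_mul]; exact mul_ne_zero h1 h1', ?_, ?_⟩
  · rw [map_mul, map_mul, ← h2, ← h2']; ring
  · rw [map_mul, map_mul, h3, h3']; ring

theorem RedTo.neg {a : Ω} {c : κ} (ha : RedTo inc red a c) : RedTo inc red (-a) (-c) := by
  obtain ⟨g, h, h1, h2, h3⟩ := ha
  exact ⟨-g, h, h1, by rw [map_neg, ← h2]; ring, by rw [map_neg, h3]; ring⟩

theorem RedTo.sub {a b : Ω} {c d : κ} (ha : RedTo inc red a c) (hb : RedTo inc red b d) :
    RedTo inc red (a - b) (c - d) := by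
  rw [sub_eq_add_neg, sub_eq_add_neg]
  exact ha.add hb.neg

theorem RedTo.pow {a : Ω} {c : κ} (ha : RedTo inc red a c) (n : ℕ) :
    RedTo inc red (a ^ n) (c ^ n) := by
  induction n with
  | zero => simpa using redTo_one (inc := inc) (red := red)
  | succ n ih => rw [pow_succ, pow_succ]; exact ih.mul ha

theorem RedTo.inv (hinc : Function.Injective inc) {a : Ω} {c : κ} (ha : RedTo inc red a c)
    (hc : c ≠ 0) : RedTo inc red a⁻¹ c⁻¹ := by
  obtain ⟨g, h, h1, h2, h3⟩ := ha
  have hg : red g ≠ 0 := by rw [h3]; exact mul_ne_zero hc h1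
  have hig : inc g ≠ 0 := by
    intro h0
    apply hg
    rw [hinc (h0.trans (map_zero inc).symm), map_zero]
  have ha0 : a ≠ 0 := by
    rintro rfl
    rw [zero_mul] at h2
    exact hig h2.symm
  refine ⟨h, g, hg, ?_, ?_⟩
  · rw [← h2]; field_simp
  · rw [h3]; field_simp

theorem RedTo.eval₂ {R : Type*} [CommRing R] (φ : R →+* Ω) (φ' : R →+* κ)
    (h : ∀ s, RedTo inc red (φ s) (φ' s)) {a : Ω} {c : κ} (ha : RedTo inc red a c) (P : R[X]) :
    RedTo inc red (P.eval₂ φ a) (P.eval₂ φ' c) := by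
  induction P using Polynomial.induction_on' with
  | add p q hp hq => rw [eval₂_add, eval₂_add]; exact hp.add hq
  | monomial n s => rw [eval₂_monomial, eval₂_monomial]; exact (h s).mul (ha.pow n)

theorem RedTo.unique (hinc : Function.Injective inc) {a : Ω} {c d : κ} (ha : RedTo inc red a c)
    (hb : RedTo inc red a d) : c = d := by
  obtain ⟨g, h, h1, h2, h3⟩ := ha
  obtain ⟨g', h', h1', h2', h3'⟩ := hb
  have e : g * h' = g' * h := by
    apply hinc
    rw [map_mul, map_mul, ← h2, ← h2']; ring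
  have e2 := congrArg red e
  rw [map_mul, map_mul, h3, h3'] at e2
  have e3 : (c - d) * (red h * red h') = 0 := by linear_combination e2
  rcases mul_eq_zero.1 e3 with h0 | h0
  · exact sub_eq_zero.1 h0
  · exact absurd h0 (mul_ne_zero h1 h1')

theorem RedTo.inM {a : Ω} (ha : RedTo inc red a 0) : QLink.InM inc red a := by
  obtain ⟨g, h, h1, h2, h3⟩ := ha
  exact ⟨g, h, h1, by rw [h3, zero_mul], h2⟩

end val

/-! ### `A((q))` -/

section series

variable {A K k : Type*} [CommRing A] [IsDomain A] [IsDiscreteValuationRing A] [Field K]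
  [Algebra A K] [IsFractionRing A K] [Field k] (r : A →+* k) {π : A}

theorem map_irreducible_eq_zero' (hr : Function.Surjective r) (hπ : Irreducible π) : r π = 0 := by
  have h1 : RingHom.ker r = IsLocalRing.maximalIdeal A :=
    IsLocalRing.eq_maximalIdeal (RingHom.ker_isMaximal_of_surjective r hr)
  rw [← RingHom.mem_ker, h1, IsLocalRing.mem_maximalIdeal]
  exact hπ.not_isUnit

theorem exists_pow_mul_red_ne_zero_aux (hr : Function.Surjective r) (hπ : Irreducible π) (N : ℕ) :
    ∀ (g : LaurentSeries A) (m : ℤ), ¬ π ^ (N + 1) ∣ g.coeff m →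
      ∃ (j : ℕ) (g' : LaurentSeries A), g = (HahnSeries.C π) ^ j * g' ∧ coeffMap r g' ≠ 0 := by
  induction N with
  | zero =>
    intro g m hm
    refine ⟨0, g, by simp, fun h0 => hm ?_⟩
    obtain ⟨g₁, rfl⟩ := exists_eq_C_mul_of_red_eq_zero r hr hπ h0
    rw [Build.coeff_C_mul, zero_add, pow_one]
    exact dvd_mul_right _ _
  | succ N ih =>
    intro g m hm
    by_cases h0 : coeffMap r g = 0
    · obtain ⟨g₁, rfl⟩ := exists_eq_C_mul_of_red_eq_zero r hr hπ h0
      obtain ⟨j, g', hg', hne⟩ := ih g₁ m (fun hd => hm (by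
        rw [Build.coeff_C_mul, pow_succ']
        exact mul_dvd_mul_left _ hd))
      exact ⟨j + 1, g', by rw [hg', pow_succ']; ring, hne⟩
    · exact ⟨0, g, by simp, h0⟩

/-- every nonzero `g ∈ A((q))` is `π^j g'` with `red g' ≠ 0`. -/
theorem exists_pow_mul_red_ne_zero (hr : Function.Surjective r) (hπ : Irreducible π)
    (g : LaurentSeries A) (hg : g ≠ 0) :
    ∃ (j : ℕ) (g' : LaurentSeries A), g = (HahnSeries.C π) ^ j * g' ∧ coeffMap r g' ≠ 0 := by
  obtain ⟨m, hm⟩ : ∃ m, g.coeff m ≠ 0 := by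
    by_contra hcon
    push Not at hcon
    exact hg (HahnSeries.ext (funext hcon))
  obtain ⟨N, hN⟩ := FiniteMultiplicity.of_not_isUnit hπ.not_isUnit hm
  exact exists_pow_mul_red_ne_zero_aux r hr hπ N g m hN

end series

/-! ### The converse of the `q`-link (chart level) -/

section chart

variable {A K k : Type*} [CommRing A] [IsDomain A] [IsDiscreteValuationRing A] [Field K]
  [Algebra A K] [IsFractionRing A K] [Field k] (r : A →+* k) {π : A}
variable {E F : Type*} [Field E] [Field F] [Algebra A[X] E] [IsFractionRing A[X] E]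
  [Algebra A[X] F] [Algebra E F] [IsScalarTower A[X] E F] [CharZero E] [FiniteDimensional E F]
variable (Φ : F →+* LaurentSeries K) (t : LaurentSeries A) {n : ℕ} (b : Fin n → LaurentSeries A)

theorem red_evAt_eq_zero_iff (hr : Function.Surjective r) (hπ : Irreducible π)
    (ht : Transcendental k (coeffMap r t)) (P : A[X]) :
    coeffMap r (evAt t P) = 0 ↔ C π ∣ P := by
  constructor
  · intro h
    rw [red_evAt] at h
    exact C_dvd_of_map_eq_zero r hr hπ ((transcendental_iff.1 ht) _ h)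
  · rintro ⟨P', rfl⟩
    rw [map_mul, map_mul]
    have : coeffMap r (evAt t (C π)) = 0 := by
      rw [red_evAt, Polynomial.map_C, map_irreducible_eq_zero' r hr hπ, map_zero, map_zero]
    rw [this, zero_mul]

theorem exists_frac (hΦ : ∀ P : A[X], Φ (algebraMap A[X] F P)
      = coeffMap (algebraMap A K) (evAt t P))
    (b' : Module.Basis (Fin n) E F) (hb' : ∀ i, Φ (b' i) = coeffMap (algebraMap A K) (b i))
    (y : F) : ∃ g h : LaurentSeries A, h ≠ 0 ∧
      Φ y * coeffMap (algebraMap A K) h = coeffMap (algebraMap A K) g := by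
  obtain ⟨⟨Q₀, hQ₀⟩, hQ₀'⟩ := IsLocalization.exist_integer_multiples_of_finite (nonZeroDivisors A[X])
    (fun i => b'.repr y i)
  choose P₀ hP₀ using hQ₀'
  have hQ₀ne : Q₀ ≠ 0 := nonZeroDivisors.ne_zero hQ₀
  have hrel₀ : Q₀ • y = ∑ i, P₀ i • b' i := by
    conv_lhs => rw [← b'.sum_repr y, Finset.smul_sum]
    refine Finset.sum_congr rfl fun i _ => ?_
    have h1 : algebraMap A[X] E (P₀ i) = Q₀ • b'.repr y i := hP₀ i
    rw [← IsScalarTower.algebraMap_smul E (P₀ i) (b' i), h1, smul_assoc]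
  refine ⟨∑ i, evAt t (P₀ i) * b i, evAt t Q₀, ?_, ?_⟩
  · intro h0
    have h1 := hΦ Q₀
    rw [h0, map_zero, map_eq_zero, IsScalarTower.algebraMap_apply A[X] E F, map_eq_zero] at h1
    exact hQ₀ne ((IsFractionRing.injective A[X] E) (h1.trans (map_zero _).symm))
  · rw [← Phi_sum_smul Φ t b hΦ b' hb' P₀, ← hrel₀, Algebra.smul_def, map_mul, hΦ, mul_comm]

/-- the coordinates of an element of `O_F` lie in `O_G`. -/
theorem exists_coords_of_isOL (hr : Function.Surjective r) (hπ : Irreducible π)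
    (hΦ : ∀ P : A[X], Φ (algebraMap A[X] F P) = coeffMap (algebraMap A K) (evAt t P))
    (ht : Transcendental k (coeffMap r t))
    (hind : LinearIndependent k⟮coeffMap r t⟯ (fun i => coeffMap r (b i)))
    (b' : Module.Basis (Fin n) E F) (hb' : ∀ i, Φ (b' i) = coeffMap (algebraMap A K) (b i))
    (z : F) (hz : IsOL π z) :
    ∃ (Q : A[X]) (P : Fin n → A[X]), ¬ C π ∣ Q ∧ Q • z = ∑ i, P i • b' i := by
  have hV : QLink.InV (coeffMap (algebraMap A K)) (coeffMap r) (Φ z) :=
    QLink.inV_of_isOL (π := π) (coeffMap_algebraMap_injective (K := K)) (evAt t)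
      (red_evAt_eq_zero_iff r t hr hπ ht)
      (fun g hg => by
        have : evAt t (C π) = HahnSeries.C π := by simp [evAt]
        rw [this]
        exact exists_pow_mul_red_ne_zero r hr hπ g hg)
      Φ hΦ (exists_frac Φ t b hΦ b' hb') hz
  obtain ⟨g, h, hh, e⟩ := hV
  obtain ⟨Q, P, hQ, hQP, -, -⟩ := exists_coords r Φ t b hr hπ hΦ ht hind b' hb' z g h hh e
  exact ⟨Q, P, hQ, hQP⟩

/-- an element of `π O_F` is a fraction `g/h`, `g, h ∈ A((q)) ∩ F`, `red h ≠ 0`, `red g = 0`. -/
theorem exists_frac_of_isPiOL (hr : Function.Surjective r) (hπ : Irreducible π)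
    (hΦ : ∀ P : A[X], Φ (algebraMap A[X] F P) = coeffMap (algebraMap A K) (evAt t P))
    (ht : Transcendental k (coeffMap r t))
    (hind : LinearIndependent k⟮coeffMap r t⟯ (fun i => coeffMap r (b i)))
    (b' : Module.Basis (Fin n) E F) (hb' : ∀ i, Φ (b' i) = coeffMap (algebraMap A K) (b i))
    (z : F) (hz : IsPiOL π z) :
    ∃ g h : LaurentSeries A, coeffMap (algebraMap A K) g ∈ Set.range Φ ∧
      coeffMap (algebraMap A K) h ∈ Set.range Φ ∧ coeffMap r h ≠ 0 ∧ coeffMap r g = 0 ∧
      Φ z * coeffMap (algebraMap A K) h = coeffMap (algebraMap A K) g := by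
  obtain ⟨z', hz', rfl⟩ := hz
  obtain ⟨Q, P, hQ, hQP⟩ := exists_coords_of_isOL r Φ t b hr hπ hΦ ht hind b' hb' z' hz'
  refine ⟨evAt t (C π) * ∑ i, evAt t (P i) * b i, evAt t Q, ?_, ⟨_, hΦ Q⟩, ?_, ?_, ?_⟩
  · refine ⟨algebraMap A[X] F (C π) * ∑ i, P i • b' i, ?_⟩
    rw [map_mul, map_mul, hΦ, Phi_sum_smul Φ t b hΦ b' hb' P]
  · exact fun h0 => hQ ((red_evAt_eq_zero_iff r t hr hπ ht Q).1 h0)
  · rw [map_mul, (red_evAt_eq_zero_iff r t hr hπ ht (C π)).2 dvd_rfl, zero_mul]
  · rw [map_mul, ← Phi_sum_smul Φ t b hΦ b' hb' P, ← hQP, Algebra.smul_def, Algebra.smul_def,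
      map_mul, map_mul, hΦ, hΦ]
    ring

end chart

end Normal

end Fermat.Agent.Crux.GM
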