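import Fermat.Agent.Crux.GM.NormalA

/-!
# Crux / GM : normality of the special fibre of the charts `x`, `x⁻¹` of a good coordinate (part B)

Abstract form, in the setting of `GM/Core.lean` with `L = F`.

`Normal.homog θ P g h = ∑_{i ≤ N} θ(P_i) g^i h^(N-i)`, `N = deg P` (homogenisation of `P(g/h)`).

`Normal.normal_abstract` : `g, h ∈ A((q)) ∩ F`, `red h ≠ 0`, `P` monic over `A[X]` with
`red (homog P g h) = 0` (i.e. `ḡ/h̄` is a root of `P̄`, coefficients evaluated at `X ↦ t̄`).  Then there are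
`g', h' ∈ A((q)) ∩ F`, `red h' ≠ 0`, `ḡ'/h̄' = ḡ/h̄`, and a monic `Q` over `A[X]` with `homog Q g' h' = 0`
(i.e. `g'/h'` is integral over `A[t]`).  For `t = x` and for `t = x⁻¹`.
-/

set_option autoImplicit false
set_option linter.unusedSectionVars false
set_option linter.style.haveILetI false

open Polynomial ModularCurve AlgebraicCurve
open scoped IntermediateField

namespace Fermat.Agent.Crux.GM

open Fermat.Agent.Crux.G Fermat.Agent.S28 Fermat.Agent.S28.Build
open Fermat.Agent.S24 (Kb FN)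

namespace Normal

/-! ### Homogenisation -/

section homog

variable {R O : Type*} [CommRing R] [CommRing O]

/-- `∑_{i ≤ N} θ(P_i) g^i h^(N-i)`, `N = deg P`. -/
noncomputable def homog (θ : R →+* O) (P : R[X]) (g h : O) : O :=
  ∑ i ∈ Finset.range (P.natDegree + 1), θ (P.coeff i) * g ^ i * h ^ (P.natDegree - i)

theorem map_homog {O' : Type*} [CommRing O'] (τ : O →+* O') (θ : R →+* O) (P : R[X]) (g h : O) :
    τ (homog θ P g h) = homog (τ.comp θ) P (τ g) (τ h) := by
  simp only [homog, map_sum, map_mul, map_pow, RingHom.comp_apply]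

/-- `P(a) h^N = homog P g h` if `a h = g`. -/
theorem eval₂_mul_pow (θ : R →+* O) (P : R[X]) {a g h : O} (e : a * h = g) :
    P.eval₂ θ a * h ^ P.natDegree = homog θ P g h := by
  rw [eval₂_eq_sum_range, Finset.sum_mul, homog]
  refine Finset.sum_congr rfl fun i hi => ?_
  have hi' : i ≤ P.natDegree := Nat.lt_succ_iff.1 (Finset.mem_range.1 hi)
  have h1 : h ^ P.natDegree = h ^ i * h ^ (P.natDegree - i) := by
    rw [← pow_add, Nat.add_sub_cancel' hi']
  rw [h1, ← e, mul_pow]
  ring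

end homog

section

variable (M : ℕ) [NeZero M] (ℓ : ℕ) (xh : LaurentSeries ℤ) (β : ℤ) (n : ℕ)
variable {A K k : Type} [CommRing A] [IsDomain A] [IsDiscreteValuationRing A] [Field K]
  [Algebra A K] [IsFractionRing A K] [Algebra K Kb] [Field k] (r : A →+* k) (π : A)
variable {E F : Type} [Field E] [Field F] [Algebra A E] [Algebra E F]
  [Algebra A F] [IsScalarTower A E F]
variable (x : E) (Φ : F →+* LaurentSeries K)

/-- the converse of the `q`-link in the setting of `GM/Core`. -/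
theorem frac_of_isPiOLx [CharZero E] [FiniteDimensional E F] (hℓ : ℓ.Prime)
    (hx : GoodCoord M ℓ xh β n)
    (hr : Function.Surjective r) (hrℓ : r ℓ = 0) (hπ : Irreducible π)
    (hxt : Transcendental A x)
    (hgen : ∀ c : E, ∃ p q : A[X], q ≠ 0 ∧ c * aeval x q = aeval x p)
    (hΦA : ∀ a : A, Φ (algebraMap A F a) = HahnSeries.C (algebraMap A K a))
    (hΦx : Φ (algebraMap E F x) = castS K xh)
    (hΦF : ∀ z : LaurentSeries K, z ∈ modularFunctionFieldFullC K M ↔ ∃ f : F, Φ f = z)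
    (hn : Module.finrank E F = n) (z : F) (hz : IsPiOLx π x z) :
    ∃ g h : LaurentSeries A, coeffMap (algebraMap A K) g ∈ Set.range Φ ∧
      coeffMap (algebraMap A K) h ∈ Set.range Φ ∧ coeffMap r h ≠ 0 ∧ coeffMap r g = 0 ∧
      Φ z * coeffMap (algebraMap A K) h = coeffMap (algebraMap A K) g := by
  classical
  have : Fact ℓ.Prime := ⟨hℓ⟩
  have hchar : CharP k ℓ := by
    have : (ℓ : k) = 0 := by rw [← map_natCast r, hrℓ]
    exact (CharP.charP_iff_prime_eq_zero hℓ).mpr this
  have : CharZero K := (algebraMap K Kb).charZero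
  obtain ⟨b0, hb0mem, hb0ind⟩ := hx.basis k
  let := algE (A := A) x
  let := algL (A := A) F x
  have := isScalarTower_alg (A := A) (L := F) x
  have := isFractionRing_algE hxt hgen
  have hΦ : ∀ P : A[X], Φ (algebraMap A[X] F P)
      = coeffMap (algebraMap A K) (evAt (castS A xh) P) := by
    intro P
    exact Phi_algebraMap_chart xh x Φ hΦA hΦx P
  have hrt : coeffMap r (castS A xh) = castS k xh := coeffMap_castS r xh
  have hord : (castS k xh).order = xh.order := order_castS xh hx.leading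
  have ht : Transcendental k (coeffMap r (castS A xh)) := by
    rw [hrt]
    exact transcendental_of_order_neg _ (by rw [hord]; exact hx.order_neg)
  have hb : ∀ i, coeffMap (algebraMap A K) (castS A (b0 i)) ∈ Set.range Φ := by
    intro i
    rw [coeffMap_castS]
    obtain ⟨f, hf⟩ := (hΦF _).1 (hb0mem K i)
    exact ⟨f, hf⟩
  have hind : LinearIndependent k⟮coeffMap r (castS A xh)⟯
      (fun i => coeffMap r (castS A (b0 i))) := by
    rw [hrt]
    simp only [coeffMap_castS]
    exact hb0ind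
  obtain ⟨b', hb'⟩ := exists_basis_lift r Φ (castS A xh) (fun i => castS A (b0 i)) hr hπ hΦ ht hb
    hind hn hx.n_pos
  exact exists_frac_of_isPiOL r Φ (castS A xh) (fun i => castS A (b0 i)) hr hπ hΦ ht hind b' hb' z hz

/-- normality in one chart `y` (`= x` or `x⁻¹`), from the `q`-link. -/
theorem normal_chart [CharZero E] [FiniteDimensional E F] (hπ : Irreducible π)
    (hΦA : ∀ a : A, Φ (algebraMap A F a) = HahnSeries.C (algebraMap A K a))
    (hQ1 : ∀ (f : F) (g h : LaurentSeries A), coeffMap r h ≠ 0 →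
      Φ f * coeffMap (algebraMap A K) h = coeffMap (algebraMap A K) g → IsOLx π x f)
    (hQ2 : ∀ (f : F) (g h : LaurentSeries A), coeffMap r h ≠ 0 → coeffMap r g = 0 →
      Φ f * coeffMap (algebraMap A K) h = coeffMap (algebraMap A K) g → IsPiOLx π x f)
    (hQ3 : ∀ z : F, IsPiOLx π x z → ∃ g h : LaurentSeries A,
      coeffMap (algebraMap A K) g ∈ Set.range Φ ∧
      coeffMap (algebraMap A K) h ∈ Set.range Φ ∧ coeffMap r h ≠ 0 ∧ coeffMap r g = 0 ∧
      Φ z * coeffMap (algebraMap A K) h = coeffMap (algebraMap A K) g)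
    (y : E) (ty : LaurentSeries A) (hy : Φ (algebraMap E F y) = coeffMap (algebraMap A K) ty)
    (hyt : Transcendental A y)
    (hygen : ∀ c : E, ∃ p q : A[X], q ≠ 0 ∧ c * aeval y q = aeval y p)
    (hOL : ∀ z : F, IsOLx π y z ↔ IsOLx π x z) (hPi : ∀ z : F, IsPiOLx π y z ↔ IsPiOLx π x z)
    (H1 : TracePerfectx F π y) (B : Finset A)
    (hB : ∀ β ∈ B, ∀ β' ∈ B, π ∣ β - β' → β = β') (H2 : Unramx F π y B)
    (g h : LaurentSeries A) (hg : coeffMap (algebraMap A K) g ∈ Set.range Φ)
    (hh : coeffMap (algebraMap A K) h ∈ Set.range Φ) (hne : coeffMap r h ≠ 0)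
    (P : A[X][X]) (hP : P.Monic) (hPz : coeffMap r (homog (evAt ty) P g h) = 0) :
    ∃ g' h' : LaurentSeries A, coeffMap (algebraMap A K) g' ∈ Set.range Φ ∧
      coeffMap (algebraMap A K) h' ∈ Set.range Φ ∧ coeffMap r h' ≠ 0 ∧
      coeffMap r (g' * h) = coeffMap r (g * h') ∧
      ∃ Q : A[X][X], Q.Monic ∧ homog (evAt ty) Q g' h' = 0 := by
  have hιinj : Function.Injective (coeffMap (algebraMap A K)) :=
    Build.coeffMap_injective _ (IsFractionRing.injective A K)
  have hh0 : coeffMap (algebraMap A K) h ≠ 0 := by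
    intro h0
    apply hne
    rw [hιinj (h0.trans (map_zero _).symm), map_zero]
  obtain ⟨fg, hfg⟩ := hg
  obtain ⟨fh, hfh⟩ := hh
  have hfh0 : fh ≠ 0 := by
    rintro rfl
    rw [map_zero] at hfh
    exact hh0 hfh.symm
  set f : F := fg / fh with hfdef
  have hf : Φ f * coeffMap (algebraMap A K) h = coeffMap (algebraMap A K) g := by
    rw [hfdef, map_div₀, hfg, hfh, div_mul_cancel₀ _ hh0]
  -- the coefficient homomorphism
  set φ : A[X] →+* F := (algebraMap E F).comp ((aeval y : A[X] →ₐ[A] E) : A[X] →+* E) with hφ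
  have hΦφ : Φ.comp φ = (coeffMap (algebraMap A K)).comp (evAt ty) := by
    apply Polynomial.ringHom_ext
    · intro a
      simp only [hφ, RingHom.comp_apply, RingHom.coe_coe, aeval_C, evAt,
        coe_eval₂RingHom, eval₂_C]
      rw [← IsScalarTower.algebraMap_apply, hΦA, HahnSeries.C_apply, HahnSeries.C_apply,
        coeffMap_single]
    · simp only [hφ, RingHom.comp_apply, RingHom.coe_coe, aeval_X, evAt,
        coe_eval₂RingHom, eval₂_X]
      exact hy
  have hev : ∀ (Q : A[X][X]) (a : F) (g₁ h₁ : LaurentSeries A),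
      Φ a * coeffMap (algebraMap A K) h₁ = coeffMap (algebraMap A K) g₁ →
      Φ (Q.eval₂ φ a) * coeffMap (algebraMap A K) (h₁ ^ Q.natDegree)
        = coeffMap (algebraMap A K) (homog (evAt ty) Q g₁ h₁) := by
    intro Q a g₁ h₁ e
    rw [Polynomial.hom_eval₂, hΦφ, map_pow, eval₂_mul_pow _ Q e, map_homog]
  have hfOL : IsOLx π y f := (hOL f).2 (hQ1 f g h hne hf)
  have hPe : IsPiOLx π y (P.eval₂ φ f) :=
    (hPi _).2 (hQ2 _ _ (h ^ P.natDegree) (by rw [map_pow]; exact pow_ne_zero _ hne) hPz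
      (hev P f g h hf))
  obtain ⟨a, ha, haf⟩ := chartIntx hπ hyt hygen H1 B hB H2 f hfOL P hP hPe
  obtain ⟨g₁, h₁, ⟨fg₁, hfg₁⟩, ⟨fh₁, hfh₁⟩, hne₁, hg₁0, e₁⟩ := hQ3 _ ((hPi _).1 haf)
  have ea : Φ a * coeffMap (algebraMap A K) (h * h₁)
      = coeffMap (algebraMap A K) (g * h₁ + g₁ * h) := by
    have : Φ a = Φ f + Φ (a - f) := by rw [← map_add]; congr 1; ring
    rw [this, map_mul, map_add, map_mul, map_mul, ← hf, ← e₁]
    ring
  refine ⟨g * h₁ + g₁ * h, h * h₁, ⟨fg * fh₁ + fg₁ * fh, ?_⟩, ⟨fh * fh₁, ?_⟩, ?_, ?_, ?_⟩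
  · simp only [map_add, map_mul, hfg, hfh, hfg₁, hfh₁]
  · simp only [map_mul, hfh, hfh₁]
  · rw [map_mul]; exact mul_ne_zero hne hne₁
  · simp only [map_add, map_mul, hg₁0]
    ring
  · obtain ⟨Q, hQ, hQa⟩ := (intX_iff y a).1 ha
    refine ⟨Q, hQ, hιinj ?_⟩
    rw [← hev Q a _ _ ea, hQa, map_zero, zero_mul, map_zero]

/-- **Normality of the two charts, abstract form.** -/
theorem normal_abstract [PerfectField k] [CharZero E] [FiniteDimensional E F] (hℓ : ℓ.Prime)
    (hx : GoodCoord M ℓ xh β n)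
    (hr : Function.Surjective r) (hrℓ : r ℓ = 0) (hπ : Irreducible π)
    (hxt : Transcendental A x)
    (hgen : ∀ c : E, ∃ p q : A[X], q ≠ 0 ∧ c * aeval x q = aeval x p)
    (hΦA : ∀ a : A, Φ (algebraMap A F a) = HahnSeries.C (algebraMap A K a))
    (hΦx : Φ (algebraMap E F x) = castS K xh)
    (hΦF : ∀ z : LaurentSeries K, z ∈ modularFunctionFieldFullC K M ↔ ∃ f : F, Φ f = z)
    (hn : Module.finrank E F = n)
    (th : LaurentSeries ℤ) (hth : th = xh ∨ xh * th = 1)
    (g h : LaurentSeries A) (hg : coeffMap (algebraMap A K) g ∈ modularFunctionFieldFullC K M)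
    (hh : coeffMap (algebraMap A K) h ∈ modularFunctionFieldFullC K M) (hne : coeffMap r h ≠ 0)
    (P : A[X][X]) (hP : P.Monic) (hPz : coeffMap r (homog (evAt (castS A th)) P g h) = 0) :
    ∃ g' h' : LaurentSeries A, coeffMap (algebraMap A K) g' ∈ modularFunctionFieldFullC K M ∧
      coeffMap (algebraMap A K) h' ∈ modularFunctionFieldFullC K M ∧ coeffMap r h' ≠ 0 ∧
      coeffMap r (g' * h) = coeffMap r (g * h') ∧
      ∃ Q : A[X][X], Q.Monic ∧ homog (evAt (castS A th)) Q g' h' = 0 := by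
  classical
  have hrange : ∀ z : LaurentSeries K, z ∈ modularFunctionFieldFullC K M ↔ z ∈ Set.range Φ := hΦF
  obtain ⟨H1, hQ1, hQ2⟩ := H1_of_goodCoord (L := F) M ℓ xh β n r π x Φ hℓ hx hr hrℓ hπ hxt hgen
    hΦA hΦx hΦF hn
  have hQ3 := frac_of_isPiOLx M ℓ xh β n r π x Φ hℓ hx hr hrℓ hπ hxt hgen hΦA hΦx hΦF hn
  obtain ⟨hrβ, β', hβ'⟩ := exists_inv_intCast ℓ β r hℓ hr hrℓ hx.hβ
  have hrπ := map_irreducible_eq_zero r π hr hπ
  obtain ⟨H2, H2'⟩ := H2_of_goodCoord (L := F) M ℓ xh β n π x Φ hx hπ hxt hgen hΦA hΦx hΦF hn 1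
    one_pos 1 one_ne_zero 1 (by simp) (Module.finrank_self F)
    (by rw [linearIndependent_unique_iff]; simp) 1 (by simp) (fun P => by simp) β' hβ'
    {0, (β : A)} {0, β'} (by simp) (by simp) (by simp) (by simp)
  have hndvd : ∀ a : A, r a ≠ 0 → ¬ π ∣ a := by
    rintro a ha ⟨b, rfl⟩
    rw [map_mul, hrπ, zero_mul] at ha
    exact ha rfl
  have hrβ' : r β' ≠ 0 := by
    intro h
    have := congrArg r hβ'
    rw [map_mul, h, zero_mul, map_one] at this
    exact zero_ne_one this
  have hx0 : x ≠ 0 := fun h => hxt (h ▸ isAlgebraic_zero)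
  simp only [hrange] at hg hh ⊢
  rcases hth with rfl | hth
  · refine normal_chart r π x Φ hπ hΦA hQ1 hQ2 hQ3 x (castS A th) (by rw [hΦx, coeffMap_castS])
      hxt hgen (fun _ => Iff.rfl) (fun _ => Iff.rfl) H1 {0, (β : A)} ?_ H2 g h hg hh hne P hP hPz
    intro a ha b hb hab
    simp only [Finset.mem_insert, Finset.mem_singleton] at ha hb
    rcases ha with rfl | rfl <;> rcases hb with rfl | rfl
    · rfl
    · exact absurd ((dvd_neg).mp (by simpa using hab)) (hndvd _ hrβ)
    · exact absurd (by simpa using hab) (hndvd _ hrβ)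
    · rfl
  · refine normal_chart r π x Φ hπ hΦA hQ1 hQ2 hQ3 x⁻¹ (castS A th) ?_
      (transcendental_inv hxt) (hgen_inv hxt hgen) (isOLx_inv_iff hπ.prime hx0)
      (isPiOLx_inv_iff hπ.prime hx0) (tracePerfectx_inv hπ.prime hx0 H1) {0, β'} ?_ H2' g h hg hh
      hne P hP hPz
    · rw [map_inv₀, map_inv₀, hΦx, coeffMap_castS]
      have h1 : castS K xh * castS K th = 1 := by rw [← map_mul, hth, map_one]
      exact inv_eq_of_mul_eq_one_right h1
    · intro a ha b hb hab
      simp only [Finset.mem_insert, Finset.mem_singleton] at ha hb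
      rcases ha with rfl | rfl <;> rcases hb with rfl | rfl
      · rfl
      · exact absurd ((dvd_neg).mp (by simpa using hab)) (hndvd _ hrβ')
      · exact absurd (by simpa using hab) (hndvd _ hrβ')
      · rfl

end

end Normal

end Fermat.Agent.Crux.GM
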