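import Fermat.Agent.Crux.GM.NormalB
import Fermat.Agent.Crux.GM.Main

/-!
# Crux / GM : normality of the special fibre of the charts `x`, `x⁻¹` of a good coordinate,
over a discrete valuation ring `A` with fraction field `K ⊆ ℚ̄`, concrete fields inside `K((q))`.
-/

set_option autoImplicit false

open Polynomial ModularCurve AlgebraicCurve
open scoped IntermediateField

namespace Fermat.Agent.Crux.GM

open Fermat.Agent.S24 (Kb FN)
open Fermat.Agent.S28 (evAt)

namespace Normal

set_option maxHeartbeats 4000000 in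
set_option synthInstance.maxHeartbeats 400000 in
/-- `normal_abstract` for a tower of intermediate fields of `K((q))`. -/
theorem normal_tower (M : ℕ) [NeZero M] (ℓ : ℕ) (hℓ : ℓ.Prime) (xh : LaurentSeries ℤ)
    (β : ℤ) (n : ℕ) (hx : GoodCoord M ℓ xh β n)
    {A K k : Type} [CommRing A] [IsDomain A] [IsDiscreteValuationRing A] [Field K] [CharZero K]
    [Algebra A K] [IsFractionRing A K] [Algebra K Kb] [Field k] [PerfectField k]
    (r : A →+* k) (hr : Function.Surjective r) (hrℓ : r ℓ = 0)
    (E0 : IntermediateField K (LaurentSeries K)) (F0 : IntermediateField E0 (LaurentSeries K))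
    (hF0 : ∀ z, z ∈ modularFunctionFieldFullC K M ↔ z ∈ F0)
    (x : E0) (hx' : (x : LaurentSeries K) = castS K xh)
    (hxt : ∀ P : A[X], eval₂ ((algebraMap K E0).comp (algebraMap A K)) x P = 0 → P = 0)
    (hgen : ∀ c : E0, ∃ p q : A[X], q ≠ 0 ∧
      c * eval₂ ((algebraMap K E0).comp (algebraMap A K)) x q =
        eval₂ ((algebraMap K E0).comp (algebraMap A K)) x p)
    (hn : Module.finrank E0 F0 = n)
    (th : LaurentSeries ℤ) (hth : th = xh ∨ xh * th = 1)
    (g h : LaurentSeries A) (hg : coeffMap (algebraMap A K) g ∈ modularFunctionFieldFullC K M)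
    (hh : coeffMap (algebraMap A K) h ∈ modularFunctionFieldFullC K M) (hne : coeffMap r h ≠ 0)
    (P : A[X][X]) (hP : P.Monic) (hPz : coeffMap r (homog (evAt (castS A th)) P g h) = 0) :
    ∃ g' h' : LaurentSeries A, coeffMap (algebraMap A K) g' ∈ modularFunctionFieldFullC K M ∧
      coeffMap (algebraMap A K) h' ∈ modularFunctionFieldFullC K M ∧ coeffMap r h' ≠ 0 ∧
      coeffMap r (g' * h) = coeffMap r (g * h') ∧
      ∃ Q : A[X][X], Q.Monic ∧ homog (evAt (castS A th)) Q g' h' = 0 := by
  obtain ⟨π, hπ⟩ := IsDiscreteValuationRing.exists_irreducible A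
  let iAE : Algebra A E0 := ((algebraMap K E0).comp (algebraMap A K)).toAlgebra
  let iAF : Algebra A F0 :=
    ((algebraMap E0 F0).comp ((algebraMap K E0).comp (algebraMap A K))).toAlgebra
  have i1 : IsScalarTower A E0 F0 := IsScalarTower.of_algebraMap_eq fun _ => rfl
  have i2 : CharZero E0 := charZero_of_injective_algebraMap (algebraMap K E0).injective
  have i3 : FiniteDimensional E0 F0 := FiniteDimensional.of_finrank_pos (by rw [hn]; exact hx.n_pos)
  refine normal_abstract M ℓ xh β n r π (E := E0) (F := F0) x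
    (algebraMap F0 (LaurentSeries K)) hℓ hx hr hrℓ hπ (transcendental_iff.2 hxt) hgen
    ?_ hx' ?_ hn th hth g h hg hh hne P hP hPz
  · intro a
    change algebraMap K (LaurentSeries K) (algebraMap A K a) = _
    rw [algebraMap_laurentSeries_eq_single, HahnSeries.C_apply]
  · intro z
    rw [hF0]
    exact ⟨fun hz => ⟨⟨z, hz⟩, rfl⟩, fun ⟨f, hf⟩ => hf ▸ f.2⟩

end Normal

open Fermat.Agent.Crux.GM.Normal in
set_option maxHeartbeats 4000000 in
set_option synthInstance.maxHeartbeats 400000 in
/-- **Normality of the special fibre of the charts `x` (`th = xh`) and `x⁻¹` (`xh * th = 1`).**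
`g, h ∈ A((q)) ∩ F_K`, `h̄ ≠ 0`, `ḡ/h̄` a root of the monic `P̄` (coefficients evaluated at `X ↦ t̄`).  Then there are
`g', h' ∈ A((q)) ∩ F_K`, `h̄' ≠ 0`, `ḡ'/h̄' = ḡ/h̄`, with `g'/h'` integral over `A[t]`. -/
theorem normalK_of_goodCoord (M : ℕ) [NeZero M] (ℓ : ℕ) (hℓ : ℓ.Prime) (xh : LaurentSeries ℤ)
    (β : ℤ) (n : ℕ) (hx : GoodCoord M ℓ xh β n)
    {A K k : Type} [CommRing A] [IsDomain A] [IsDiscreteValuationRing A] [Field K]
    [Algebra A K] [IsFractionRing A K] [Algebra K Kb] [Field k] [PerfectField k]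
    (r : A →+* k) (hr : Function.Surjective r) (hrℓ : r ℓ = 0)
    (th : LaurentSeries ℤ) (hth : th = xh ∨ xh * th = 1)
    (g h : LaurentSeries A) (hg : coeffMap (algebraMap A K) g ∈ modularFunctionFieldFullC K M)
    (hh : coeffMap (algebraMap A K) h ∈ modularFunctionFieldFullC K M) (hne : coeffMap r h ≠ 0)
    (P : A[X][X]) (hP : P.Monic) (hPz : coeffMap r (homog (evAt (castS A th)) P g h) = 0) :
    ∃ g' h' : LaurentSeries A, coeffMap (algebraMap A K) g' ∈ modularFunctionFieldFullC K M ∧
      coeffMap (algebraMap A K) h' ∈ modularFunctionFieldFullC K M ∧ coeffMap r h' ≠ 0 ∧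
      coeffMap r (g' * h) = coeffMap r (g * h') ∧
      ∃ Q : A[X][X], Q.Monic ∧ homog (evAt (castS A th)) Q g' h' = 0 := by
  classical
  have hK0 : CharZero K :=
    ((algebraMap K Kb).charZero_iff (algebraMap K Kb).injective).2 inferInstance
  have hle : K⟮castS K xh⟯ ≤ modularFunctionFieldFullC K M :=
    IntermediateField.adjoin_simple_le_iff.2 (hx.mem K)
  have htK : Transcendental K (castS K xh) :=
    transcendental_of_order_neg _ (by rw [order_castS xh hx.leading]; exact hx.order_neg)
  exact normal_tower M ℓ hℓ xh β n hx r hr hrℓ K⟮castS K xh⟯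
    (IntermediateField.extendScalars hle)
    (fun _ => Iff.rfl) (IntermediateField.AdjoinSimple.gen K (castS K xh)) rfl
    (fun P hP => Main.eq_zero_of_eval₂_gen (A := A) _ htK _ (fun _ => rfl) P hP)
    (fun c => Main.exists_frac_gen (A := A) _ _ (fun _ => rfl) c)
    ((IntermediateField.relfinrank_eq_finrank_of_le hle).symm.trans (hx.deg K))
    th hth g h hg hh hne P hP hPz

end Fermat.Agent.Crux.GM
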