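import Fermat.Agent.Crux.GM.Defs
import Fermat.Agent.S24.Sturm.Kernel
import Fermat.Agent.S28.FormalBasic
import Fermat.Agent.Gamma0Comb.Index

/-!
# Crux / GM-SturmGen : integral `q`-series which are `q`-expansions of modular forms on `Γ₀(N)`,
and the Sturm bound for them.

`IsQ N k x` : `x ∈ ℤ((q))` is the `q`-expansion of a modular form of weight `k` on `Γ₀(N)`.
-/

set_option autoImplicit false

open ModularCurve UpperHalfPlane
open scoped MatrixGroups

namespace Fermat.Agent.Crux.GM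

open Fermat.Agent.S28 Fermat.Agent.S28.Build Fermat.Agent.S24 Fermat.Agent.S24.Sturm

noncomputable section

/-- `x ∈ ℤ((q))` is the `q`-expansion of a modular form of weight `k` on `Γ₀(N)`. -/
def IsQ (N : ℕ) (k : ℤ) (x : LaurentSeries ℤ) : Prop :=
  ∃ F : HolCusp 1, IsMF N k (F : ℍ → ℂ) ∧ laurent 1 F = coeffMap (Int.castRingHom ℂ) x

namespace IsQ

variable {N : ℕ} {k k' : ℤ} {x y : LaurentSeries ℤ}

theorem cast (h : k = k') (hx : IsQ N k x) : IsQ N k' x := h ▸ hx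

theorem add (hx : IsQ N k x) (hy : IsQ N k y) : IsQ N k (x + y) := by
  obtain ⟨F, hF, eF⟩ := hx
  obtain ⟨G, hG, eG⟩ := hy
  exact ⟨F + G, hF.add hG, by rw [map_add, map_add, eF, eG]⟩

theorem mul (hx : IsQ N k x) (hy : IsQ N k' y) : IsQ N (k + k') (x * y) := by
  obtain ⟨F, hF, eF⟩ := hx
  obtain ⟨G, hG, eG⟩ := hy
  exact ⟨F * G, hF.mul hG, by rw [map_mul, map_mul, eF, eG]⟩

theorem intMul (c : ℤ) (hx : IsQ N k x) : IsQ N k ((c : LaurentSeries ℤ) * x) := by
  obtain ⟨F, hF, eF⟩ := hx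
  refine ⟨(c : ℂ) • F, hF.smul (c : ℂ), ?_⟩
  rw [Algebra.smul_def, map_mul, AlgHom.commutes, eF, map_mul, map_intCast]
  congr 1
  simp

theorem neg (hx : IsQ N k x) : IsQ N k (-x) := by
  have := hx.intMul (-1)
  simpa using this

theorem sub (hx : IsQ N k x) (hy : IsQ N k y) : IsQ N k (x - y) := by
  rw [sub_eq_add_neg]
  exact hx.add hy.neg

theorem one : IsQ N 0 1 := ⟨1, IsMF.one, by rw [map_one, map_one]⟩

theorem pow (hx : IsQ N k x) (n : ℕ) : IsQ N (k * n) (x ^ n) := by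
  induction n with
  | zero => simpa using IsQ.one
  | succ n ih =>
    rw [pow_succ]
    exact (ih.mul hx).cast (by push_cast; ring)

/-- **Sturm bound** for integral `q`-series. -/
theorem eq_zero_of_sturm [NeZero N] {w n : ℕ} (hx : IsQ N (12 * w) x)
    (hn : (CongruenceSubgroup.Gamma0 N).index = n)
    (h : ∀ m : ℕ, m ≤ w * n → x.coeff (m : ℤ) = 0) : x = 0 := by
  obtain ⟨F, ⟨g, hg⟩, eF⟩ := hx
  have hFb : IsBoundedAtImInfty (F : ℍ → ℂ) :=
    IsMF.bounded (N := N) (k := 12 * w) (F := (F : ℍ → ℂ)) ⟨g, hg⟩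
  have hps : laurent 1 F = HahnSeries.ofPowerSeries ℤ ℂ (qExpansion 1 (F : ℍ → ℂ)) :=
    QDict.laurent_one_of_bounded F hFb
  have hg0 : g = 0 := by
    apply ModularForm.sturm_bound_Gamma0 N g
    intro m hm
    have h12 : ((12 * (w : ℤ)) * ((CongruenceSubgroup.Gamma0 N).index : ℤ)).toNat / 12 = w * n := by
      rw [hn, show (12 * (w : ℤ)) * (n : ℤ) = ((12 * (w * n) : ℕ) : ℤ) by push_cast; ring,
        Int.toNat_natCast, Nat.mul_div_cancel_left _ (by norm_num)]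
    rw [h12] at hm
    rw [hg, ← HahnSeries.ofPowerSeries_apply_coeff (Γ := ℤ), ← hps, eF, coeffMap_coeff, h m hm,
      map_zero]
  have hF0 : F = 0 := Subtype.ext (by rw [← hg, hg0]; rfl)
  apply coeffMap_injective (Int.castRingHom ℂ) Int.cast_injective
  rw [← eF, hF0, map_zero, map_zero]

end IsQ

/-- `E₄` as a Laurent series over `ℤ`. -/
def E4L : LaurentSeries ℤ := HahnSeries.ofPowerSeries ℤ ℤ eisenstein4

theorem isQ_E4 (N d : ℕ) [NeZero d] (hdN : d ∣ N) : IsQ N 4 (V ℤ d E4L) :=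
  ⟨QDict.E4d d, isMF_comp_mulH N d hdN ModularForm.E₄, by
    rw [QDict.laurent_E4d, coeffMap_V, E4L, Build.coeffMap_ofPowerSeries]⟩

theorem ofPowerSeries_DC : HahnSeries.ofPowerSeries ℤ ℂ DC = deltaC ℂ := by
  rw [DC, deltaC, map_mul, map_mul, PowerSeries.map_X, HahnSeries.ofPowerSeries_X]

theorem isQ_delta (N d : ℕ) [NeZero d] (hdN : d ∣ N) : IsQ N 12 (V ℤ d (deltaC ℤ)) :=
  ⟨QDict.Dd d, isMF_Bd N d hdN, by
    rw [QDict.laurent_Dd, coeffMap_V, coeffMap_deltaC, ofPowerSeries_DC]⟩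

theorem isQ_delta_one (N : ℕ) : IsQ N 12 (deltaC ℤ) := by
  have := isQ_delta N 1 (one_dvd N)
  rwa [V, qExpand_one_apply] at this

theorem isQ_E4_one (N : ℕ) : IsQ N 4 E4L := by
  have := isQ_E4 N 1 (one_dvd N)
  rwa [V, qExpand_one_apply] at this

theorem index_Gamma0_two : (CongruenceSubgroup.Gamma0 2).index = 3 := by
  rw [Gamma0Comb.index_Gamma0]
  decide +kernel

theorem index_Gamma0_three : (CongruenceSubgroup.Gamma0 3).index = 4 := by
  rw [Gamma0Comb.index_Gamma0]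
  decide +kernel

end

end Fermat.Agent.Crux.GM
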