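import Fermat.Agent.Crux.GM.Defs
import Fermat.Agent.S24.Packages

/-!
# Crux / GM-T4 : packages for a coordinate `x` with `P(x) = j x` from packages for `j`

See the header of `Crux/GM/Tower.lean`, (T4).
-/

set_option autoImplicit false

open ModularCurve Polynomial
open scoped IntermediateField

namespace Fermat.Agent.Crux.GM

open Fermat.Agent.S24 (Kb FN)

namespace TowerPack

/-- a power series with nonzero constant coefficient has order `0` as a Laurent series. -/
theorem order_ofPowerSeries (s : PowerSeries ℂ) (hs : PowerSeries.constantCoeff s ≠ 0) :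
    HahnSeries.ofPowerSeries ℤ ℂ s ≠ 0 ∧ (HahnSeries.ofPowerSeries ℤ ℂ s).order = 0 := by
  have h0 : (HahnSeries.ofPowerSeries ℤ ℂ s).coeff 0 ≠ 0 := by
    have := HahnSeries.ofPowerSeries_apply_coeff (Γ := ℤ) s 0
    rw [Nat.cast_zero] at this
    rw [this]
    simpa using hs
  have hne : HahnSeries.ofPowerSeries ℤ ℂ s ≠ 0 := by
    intro h
    rw [h] at h0
    exact h0 rfl
  refine ⟨hne, le_antisymm (HahnSeries.order_le_of_coeff_ne_zero h0) ?_⟩
  rw [HahnSeries.le_order_iff_forall hne]
  intro k hk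
  have := PowerSeries.coeff_coe (R := ℂ) s k
  rw [if_pos hk] at this
  exact this

/-- a Laurent series without negative terms is a power series. -/
theorem exists_powerSeries (f : LaurentSeries ℂ) (hf : ∀ k < 0, f.coeff k = 0) :
    ∃ r : PowerSeries ℂ, HahnSeries.ofPowerSeries ℤ ℂ r = f ∧
      PowerSeries.constantCoeff r = f.coeff 0 := by
  refine ⟨PowerSeries.mk fun n => f.coeff n, ?_, ?_⟩
  · ext k
    have := PowerSeries.coeff_coe (R := ℂ) (PowerSeries.mk fun n => f.coeff n) k
    refine this.trans ?_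
    split_ifs with hk
    · exact (hf k hk).symm
    · rw [PowerSeries.coeff_mk, Int.natCast_natAbs, abs_of_nonneg (not_lt.mp hk)]
  · rw [← PowerSeries.coeff_zero_eq_constantCoeff_apply, PowerSeries.coeff_mk]
    simp

theorem algebraMap_eq_comp :
    (algebraMap Kb (LaurentSeries ℂ)) =
      (HahnSeries.ofPowerSeries ℤ ℂ).comp ((PowerSeries.C).comp (algebraMap Kb ℂ)) := by
  ext1 r
  rw [Fermat.Agent.S24.Packages.algebraMap_Kb, RingHom.comp_apply, RingHom.comp_apply,
    HahnSeries.ofPowerSeries_C]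

/-- **value of a polynomial at a series congruent to a constant.** -/
theorem order_aeval (H : Kb[X]) (c' : Kb) (ρ : LaurentSeries ℂ)
    (hρ : 0 < (ρ - algebraMap Kb (LaurentSeries ℂ) c').order) (hH0 : H.eval c' ≠ 0) :
    aeval ρ H ≠ 0 ∧ (aeval ρ H).order = 0 := by
  have hco : ∀ k ≤ 0, ρ.coeff k = (algebraMap Kb (LaurentSeries ℂ) c').coeff k := by
    intro k hk
    have := HahnSeries.coeff_eq_zero_of_lt_order (lt_of_le_of_lt hk hρ)
    rw [HahnSeries.coeff_sub, sub_eq_zero] at this
    exact this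
  obtain ⟨r, hr, hr0⟩ := exists_powerSeries ρ (fun k hk => by
    rw [hco k hk.le, Fermat.Agent.S24.Packages.algebraMap_Kb, HahnSeries.C_apply,
      HahnSeries.coeff_single_of_ne hk.ne])
  have hr0' : PowerSeries.constantCoeff r = algebraMap Kb ℂ c' := by
    rw [hr0, hco 0 le_rfl, Fermat.Agent.S24.Packages.algebraMap_Kb, HahnSeries.C_apply,
      HahnSeries.coeff_single_same]
  have h1 : aeval ρ H = HahnSeries.ofPowerSeries ℤ ℂ
      (H.eval₂ ((PowerSeries.C).comp (algebraMap Kb ℂ)) r) := by
    rw [aeval_def, algebraMap_eq_comp, Polynomial.hom_eval₂, hr]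
  have h2 : PowerSeries.constantCoeff (H.eval₂ ((PowerSeries.C).comp (algebraMap Kb ℂ)) r)
      = algebraMap Kb ℂ (H.eval c') := by
    rw [Polynomial.hom_eval₂, hr0', ← Polynomial.eval₂_at_apply]
    congr 1
  rw [h1]
  apply order_ofPowerSeries
  rw [h2]
  exact (_root_.map_ne_zero _).mpr hH0

/-- if all factors are nonzero of order `≤ 0` then so is the product. -/
theorem order_prod_le (s : Multiset (LaurentSeries ℂ)) (h : ∀ y ∈ s, y ≠ 0 ∧ y.order ≤ 0) :
    s.prod ≠ 0 ∧ s.prod.order ≤ 0 := by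
  induction s using Multiset.induction_on with
  | empty => simp
  | cons a s ih =>
    obtain ⟨h1, h2⟩ := ih fun y hy => h y (Multiset.mem_cons_of_mem hy)
    obtain ⟨h3, h4⟩ := h a (Multiset.mem_cons_self a s)
    rw [Multiset.prod_cons]
    refine ⟨mul_ne_zero h3 h1, ?_⟩
    rw [HahnSeries.order_mul h3 h1]
    omega

theorem exists_order_pos (s : Multiset (LaurentSeries ℂ)) (h0 : s.prod ≠ 0)
    (h : 0 < s.prod.order) : ∃ y ∈ s, 0 < y.order := by
  by_contra hcon
  push Not at hcon
  have := (order_prod_le s fun y hy => ⟨fun hy0 => h0 (Multiset.prod_eq_zero (hy0 ▸ hy)),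
    hcon y hy⟩).2
  omega

/-- the counting lemma. -/
theorem counting {α β : Type*} [DecidableEq β] (s : Finset α) (f : α → β) (D n' : ℕ)
    (hn' : 0 < n') (hcard : s.card = D * n') (hD : (s.image f).card ≤ D)
    (hfib : ∀ b ∈ s.image f, (s.filter fun a => f a = b).card ≤ n') :
    (s.image f).card = D ∧ ∀ b ∈ s.image f, (s.filter fun a => f a = b).card = n' := by
  have hsum := Finset.card_eq_sum_card_image f s
  have hall : ∀ b ∈ s.image f, (s.filter fun a => f a = b).card = n' := by
    by_contra hcon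
    push Not at hcon
    obtain ⟨b, hb, hne⟩ := hcon
    have hlt : ∑ b ∈ s.image f, (s.filter fun a => f a = b).card < ∑ _b ∈ s.image f, n' :=
      Finset.sum_lt_sum hfib ⟨b, hb, lt_of_le_of_ne (hfib b hb) hne⟩
    rw [Finset.sum_const, smul_eq_mul, ← hsum, hcard] at hlt
    exact absurd (Nat.mul_le_mul_right n' hD) (not_le.mpr hlt)
  refine ⟨?_, hall⟩
  rw [Finset.sum_congr rfl hall, Finset.sum_const, smul_eq_mul, hcard] at hsum
  exact (Nat.eq_of_mul_eq_mul_right hn' hsum).symm

end TowerPack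

open TowerPack in
/-- (T4) -/
theorem hasPack_tower' (M : ℕ) [NeZero M] (nM n' : ℕ) (j x : FN M) (P : Kb[X]) (hP : P.Monic)
    (hD : 2 ≤ P.natDegree) (hid : aeval x P = j * x)
    (hn' : Module.finrank Kb⟮x⟯ (FN M) = n') (hmul : nM = P.natDegree * n')
    (c' : Kb) (hc' : c' ≠ 0) (c : Kb) (hc : P.eval c' = c * c') (E0 : ℕ) (hE0 : 0 < E0)
    (H : Kb[X]) (hH : P - C c * X = (X - C c') ^ E0 * H) (hH0 : H.eval c' ≠ 0)
    (σ : Fin nM → FN M →ₐ[Kb] LaurentSeries ℂ) (hinj : Function.Injective σ)
    (hj : ∀ a b, σ a j = σ b j)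
    (hord : ∀ a, (σ a (j - algebraMap Kb (FN M) c)).order = E0) : HasPack M n' x c' := by
  classical
  rcases Nat.eq_zero_or_pos n' with h0 | hn'pos
  · subst h0
    exact ⟨fun a => a.elim0, fun a => a.elim0, fun a => a.elim0, fun a => a.elim0⟩
  have hfree : Module.Free Kb⟮x⟯ (FN M) := Module.Free.of_divisionRing _ _
  have hfd : FiniteDimensional Kb⟮x⟯ (FN M) :=
    Module.finite_of_finrank_pos (by rw [hn']; exact hn'pos)
  have hnM : 0 < nM := by
    rw [hmul]; exact Nat.mul_pos (by omega) hn'pos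
  obtain ⟨υ, hυ⟩ : ∃ υ : LaurentSeries ℂ, ∀ a, σ a j = υ := ⟨σ ⟨0, hnM⟩ j, fun a => hj a _⟩
  set cst : Kb →+* LaurentSeries ℂ := algebraMap Kb (LaurentSeries ℂ) with hcst
  have hυc : (υ - cst c).order = E0 := by
    have := hord ⟨0, hnM⟩
    rwa [map_sub, hυ, AlgHom.commutes] at this
  have hυc0 : υ - cst c ≠ 0 := by
    intro h
    rw [h, HahnSeries.order_zero] at hυc
    omega
  have hPρ : ∀ a, aeval (σ a x) P = υ * σ a x := by
    intro a
    rw [Polynomial.aeval_algHom_apply, hid, map_mul, hυ]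
  -- the polynomial `G`
  set G : (LaurentSeries ℂ)[X] := P.map cst - C υ * X with hG
  have hPm : (P.map cst).Monic := hP.map cst
  have hPd : (P.map cst).natDegree = P.natDegree := hP.natDegree_map cst
  have hlt : (C υ * X : (LaurentSeries ℂ)[X]).degree < (P.map cst).degree := by
    refine lt_of_le_of_lt (degree_C_mul_X_le υ) ?_
    rw [degree_eq_natDegree hPm.ne_zero, hPd]
    exact_mod_cast (by omega : 1 < P.natDegree)
  have hGm : G.Monic := hPm.sub_of_left hlt
  have hGd : G.natDegree = P.natDegree := by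
    rw [hG, natDegree_sub_eq_left_of_natDegree_lt
      (lt_of_le_of_lt ((natDegree_C_mul_le υ X).trans natDegree_X_le) (by rw [hPd]; omega)), hPd]
  have hGeval : ∀ y : LaurentSeries ℂ, G.eval y = aeval y P - υ * y := by
    intro y
    rw [hG, eval_sub, eval_map, eval_mul, eval_C, eval_X, aeval_def]
  have hroot : ∀ a, σ a x ∈ G.roots := by
    intro a
    rw [mem_roots hGm.ne_zero, IsRoot.def, hGeval, hPρ, sub_self]
  -- counting
  have hSsub : (Finset.univ.image fun a => σ a x) ⊆ G.roots.toFinset := by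
    intro y hy
    obtain ⟨a, -, rfl⟩ := Finset.mem_image.1 hy
    exact Multiset.mem_toFinset.2 (hroot a)
  have hrc : Multiset.card G.roots ≤ P.natDegree := hGd ▸ G.card_roots'
  have hSle : (Finset.univ.image fun a => σ a x).card ≤ P.natDegree :=
    (Finset.card_le_card hSsub).trans ((Multiset.toFinset_card_le _).trans hrc)
  have hfib : ∀ y ∈ Finset.univ.image fun a => σ a x,
      (Finset.univ.filter fun a => σ a x = y).card ≤ n' := by
    intro y _
    have h1 := Fermat.Agent.S24.Packages.card_le_finrank_of_embeddings x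
      (fun a : {a : Fin nM // σ a x = y} => σ a.1) (fun a b hab => Subtype.ext (hinj hab))
      (fun a b => by rw [a.2, b.2])
    rw [hn', Nat.card_eq_fintype_card, Fintype.card_subtype] at h1
    exact h1
  obtain ⟨hScard, hfibcard⟩ := counting Finset.univ (fun a => σ a x) P.natDegree n' hn'pos
    (by rw [Finset.card_univ, Fintype.card_fin, hmul]) hSle hfib
  have hSeq : (Finset.univ.image fun a => σ a x) = G.roots.toFinset :=
    Finset.eq_of_subset_of_card_le hSsub
      (by rw [hScard]; exact (Multiset.toFinset_card_le _).trans hrc)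
  have hrcard : Multiset.card G.roots = G.natDegree := by
    rw [hGd]
    refine le_antisymm hrc ?_
    rw [← hScard, hSeq]
    exact Multiset.toFinset_card_le _
  -- factorisation of `G`, evaluated at `c'`
  have hprod := prod_multiset_X_sub_C_of_monic_of_roots_card_eq hGm hrcard
  have hev : (G.roots.map fun y => cst c' - y).prod = (cst c - υ) * cst c' := by
    have h1 := congrArg (eval (cst c')) hprod
    rw [eval_multiset_prod, Multiset.map_map, hGeval, aeval_def, eval₂_at_apply, hc, map_mul] at h1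
    rw [sub_mul, ← h1]
    congr 1
    refine Multiset.map_congr rfl fun y _ => ?_
    simp
  have hcst0 : ∀ d : Kb, d ≠ 0 → cst d ≠ 0 ∧ (cst d).order = 0 := by
    intro d hd
    refine ⟨(_root_.map_ne_zero cst).mpr hd, ?_⟩
    rw [hcst, Fermat.Agent.S24.Packages.algebraMap_Kb, HahnSeries.order_C]
  have hcυ0 : cst c - υ ≠ 0 := sub_ne_zero.mpr (sub_ne_zero.mp hυc0).symm
  have hcυ : (cst c - υ).order = E0 := by
    rw [← neg_sub, HahnSeries.order_neg, hυc]
  obtain ⟨y, hy, hypos⟩ := exists_order_pos (G.roots.map fun y => cst c' - y)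
    (by rw [hev]; exact mul_ne_zero hcυ0 (hcst0 c' hc').1)
    (by rw [hev, HahnSeries.order_mul hcυ0 (hcst0 c' hc').1, hcυ, (hcst0 c' hc').2]; omega)
  obtain ⟨ρ, hρroot, rfl⟩ := Multiset.mem_map.1 hy
  have hρpos : 0 < (ρ - cst c').order := by
    rw [← neg_sub, HahnSeries.order_neg]; exact hypos
  have hρS : ρ ∈ Finset.univ.image fun a => σ a x := by
    rw [hSeq]; exact Multiset.mem_toFinset.2 hρroot
  have hρP : aeval ρ P = υ * ρ := by
    obtain ⟨a, -, rfl⟩ := Finset.mem_image.1 hρS
    exact hPρ a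
  -- the order of `ρ - c'`
  have hρ0 := order_aeval X c' ρ hρpos (by simpa using hc')
  rw [aeval_X] at hρ0
  have hHρ := order_aeval H c' ρ hρpos hH0
  have hρc0 : ρ - cst c' ≠ 0 := by
    intro h
    rw [h, HahnSeries.order_zero] at hρpos
    exact lt_irrefl _ hρpos
  have hrel : (υ - cst c) * ρ = (ρ - cst c') ^ E0 * aeval ρ H := by
    have h1 := congrArg (aeval ρ) hH
    simp only [map_sub, map_mul, map_pow, aeval_X, aeval_C] at h1
    rw [← h1, hρP, sub_mul]
  have hordρ : (ρ - cst c').order = 1 := by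
    have h1 := congrArg HahnSeries.order hrel
    rw [HahnSeries.order_mul hυc0 hρ0.1, HahnSeries.order_mul (pow_ne_zero _ hρc0) hHρ.1,
      HahnSeries.order_pow, hυc, hρ0.2, hHρ.2, add_zero, add_zero, nsmul_eq_mul] at h1
    have hE : (E0 : ℤ) ≠ 0 := by exact_mod_cast hE0.ne'
    exact (mul_left_cancel₀ hE (by rw [mul_one]; exact h1)).symm
  -- the package
  have hcardρ := hfibcard ρ hρS
  set e := (Finset.univ.filter fun a => σ a x = ρ).orderEmbOfFin hcardρ with he
  have hemem : ∀ i, σ (e i) x = ρ := fun i =>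
    (Finset.mem_filter.1 (Finset.orderEmbOfFin_mem _ hcardρ i)).2
  refine ⟨fun i => σ (e i), hinj.comp e.injective, fun a b => by rw [hemem, hemem], fun a => ?_⟩
  rw [map_sub, hemem, AlgHom.commutes]
  exact hordρ

end Fermat.Agent.Crux.GM
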