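import Fermat.Agent.Crux.GM.Deg
import Fermat.Agent.Crux.GM.Fricke
import Fermat.Agent.Crux.GM.TowerPack

/-!
# Crux / GM-Tower : passing from the coordinate `t = j_M` to a coordinate `x` with `P(x) = t x`

`P` monic of degree `D ≥ 2`, `P(0) ≠ 0`; so `t = P(x)/x`, `K(t) ⊆ K(x)`, `[K(x):K(t)] = D`.

(T1) `relfinrank_adjoin_of_ratfun`: Mathlib `RatFunc.finrank_eq_max_natDegree` (`FieldTheory/RatFunc/IntermediateField.lean`)
     for `f = P/X` (`num = P`, `denom = X`, coprime since `P(0) ≠ 0`), transported by the isomorphism `K(X) ≃ K⟮x⟯`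
     (`x` transcendental).  Or directly: `P(Y) - t Y` is irreducible over `K(t)` (degree one in `t`, Gauss).
(T2) `relfinrank_tower`: `IntermediateField.relfinrank_mul_relfinrank`.
(T3) `exists_basis_monoS_over`: the proof of `S28.exists_basis_monoS` with `L := K⟮x⟯` instead of `K⟮j_M⟯`
     (the monomials span `F_K` over `K⟮j_M⟯`, a fortiori over `K⟮x⟯`), then `S28.exists_mem_monoS_coeffMap`.
(T4) `hasPack_tower`.  `υ := σ_a j` (independent of `a`), `ord(υ - c) = E0 ≥ 1`.  `ρ_a := σ_a x` is a root of the monic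
     polynomial `G = P - υ Y` of degree `D` over `ℂ((T))`, whose coefficients have order `≥ 0`; so `ord ρ_a ≥ 0`.
     * fibres of `a ↦ ρ_a` have at most `n'` elements (`S24.Packages.card_le_finrank_of_embeddings`), there are at most `D`
       values, and `nM = D n'`: so there are exactly `D` values, every fibre has `n'` elements, `G = ∏_ρ (Y - ρ)`.
     * `∏_ρ (c' - ρ) = G(c') = P(c') - υ c' = (c - υ) c'` has order `E0 > 0`: some `ρ` has `ord(ρ - c') ≥ 1`.
     * for this `ρ`: `(ρ - c')^E0 H(ρ) = P(ρ) - c ρ = (υ - c) ρ`, `ord H(ρ) = 0` (`H(c') ≠ 0`), `ord ρ = 0` (`c' ≠ 0`):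
       `E0 * ord(ρ - c') = E0`, so `ord(ρ - c') = 1`.  The fibre over `ρ` is the package.
-/

set_option autoImplicit false

open ModularCurve Polynomial
open scoped IntermediateField

namespace Fermat.Agent.Crux.GM

open Fermat.Agent.S28
open Fermat.Agent.S24 (Kb FN)

/-- numerator and denominator of `P / X`, up to degree -/
theorem T1_natDegree_num_denom {K : Type*} [Field K] (P : K[X]) (hP0 : P.eval 0 ≠ 0) :
    (algebraMap K[X] (RatFunc K) P / algebraMap K[X] (RatFunc K) X).num.natDegree = P.natDegree ∧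
    (algebraMap K[X] (RatFunc K) P / algebraMap K[X] (RatFunc K) X).denom.natDegree = 1 := by
  classical
  have hcop : IsCoprime P X := by
    rw [isCoprime_comm]
    refine (Polynomial.irreducible_X.coprime_iff_not_dvd).mpr ?_
    rw [Polynomial.X_dvd_iff, Polynomial.coeff_zero_eq_eval_zero]
    exact hP0
  have hu : IsUnit (gcd P X) := (gcd_isUnit_iff P X).mpr hcop
  obtain ⟨u, hu0, hu⟩ := Polynomial.isUnit_iff.mp hu
  have hu0' : u ≠ 0 := hu0.ne_zero
  rw [RatFunc.num_div, RatFunc.denom_div _ X_ne_zero, ← hu, Polynomial.div_C, Polynomial.div_C]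
  have h1 : (X * C u⁻¹ : K[X]).leadingCoeff⁻¹ ≠ 0 := by
    simp [hu0']
  rw [natDegree_C_mul h1, natDegree_C_mul h1, natDegree_mul_C (inv_ne_zero hu0'),
    natDegree_mul_C (inv_ne_zero hu0'), natDegree_X]
  exact ⟨rfl, rfl⟩

/-- (T1) -/
theorem relfinrank_adjoin_of_ratfun {K 𝕃 : Type*} [Field K] [Field 𝕃] [Algebra K 𝕃] (x t : 𝕃)
    (hx : Transcendental K x) (P : K[X]) (hP : P.Monic) (hD : 2 ≤ P.natDegree)
    (hP0 : P.eval 0 ≠ 0) (hid : aeval x P = t * x) :
    K⟮t⟯ ≤ K⟮x⟯ ∧ (K⟮t⟯).relfinrank K⟮x⟯ = P.natDegree := by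
  have hinj : Function.Injective (aeval (R := K) x) := transcendental_iff_injective.mp hx
  have hx0 : x ≠ 0 := fun h => hx (h ▸ isAlgebraic_zero)
  let φ : RatFunc K →ₐ[K] 𝕃 := RatFunc.liftAlgHom (aeval (R := K) x)
    (nonZeroDivisors_le_comap_nonZeroDivisors_of_injective _ hinj)
  let f : RatFunc K := algebraMap K[X] (RatFunc K) P / algebraMap K[X] (RatFunc K) X
  have hφX : φ RatFunc.X = x := by
    have := RatFunc.liftAlgHom_apply_div (aeval (R := K) x)
      (nonZeroDivisors_le_comap_nonZeroDivisors_of_injective _ hinj) X 1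
    simpa [RatFunc.algebraMap_X] using this
  have hφf : φ f = t := by
    have := RatFunc.liftAlgHom_apply_div (aeval (R := K) x)
      (nonZeroDivisors_le_comap_nonZeroDivisors_of_injective _ hinj) P X
    rw [aeval_X, hid, mul_div_cancel_right₀ _ hx0] at this
    exact this
  have h1 : (K⟮f⟯).map φ = K⟮t⟯ := by
    rw [IntermediateField.adjoin_map, Set.image_singleton, hφf]
  have h2 : (⊤ : IntermediateField K (RatFunc K)).map φ = K⟮x⟯ := by
    rw [← RatFunc.adjoin_X, IntermediateField.adjoin_map, Set.image_singleton, hφX]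
  rw [← h1, ← h2]
  refine ⟨IntermediateField.map_mono _ le_top, ?_⟩
  rw [IntermediateField.relfinrank_map_map, IntermediateField.relfinrank_top_right,
    RatFunc.finrank_eq_max_natDegree, (T1_natDegree_num_denom P hP0).1,
    (T1_natDegree_num_denom P hP0).2]
  omega

/-- (T2) -/
theorem relfinrank_tower (K : Type) [Field K] (M : ℕ) [NeZero M] (x : LaurentSeries K)
    (hxF : x ∈ modularFunctionFieldFullC K M) (hx : Transcendental K x) (P : K[X]) (hP : P.Monic)
    (hD : 2 ≤ P.natDegree) (hP0 : P.eval 0 ≠ 0) (hid : aeval x P = V K M (J K) * x) :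
    P.natDegree * (K⟮x⟯).relfinrank (modularFunctionFieldFullC K M) =
      (K⟮V K M (J K)⟯).relfinrank (modularFunctionFieldFullC K M) := by
  obtain ⟨hle, hrel⟩ := relfinrank_adjoin_of_ratfun x (V K M (J K)) hx P hP hD hP0 hid
  have hxle : K⟮x⟯ ≤ modularFunctionFieldFullC K M := by
    rw [IntermediateField.adjoin_simple_le_iff]
    exact hxF
  rw [← hrel]
  exact IntermediateField.relfinrank_mul_relfinrank hle hxle

/-- (T3) -/
theorem exists_basis_monoS_over (K : Type) [Field K] (M : ℕ) [NeZero M] (x : LaurentSeries K)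
    (hxF : x ∈ modularFunctionFieldFullC K M) (hle : K⟮V K M (J K)⟯ ≤ K⟮x⟯) (n : ℕ) (hn0 : 0 < n)
    (hn : (K⟮x⟯).relfinrank (modularFunctionFieldFullC K M) = n) :
    ∃ b : Fin n → LaurentSeries ℤ, (∀ i, b i ∈ monoS ℤ M) ∧
      LinearIndependent K⟮x⟯ (fun i => castS K (b i)) := by
  have hxle : K⟮x⟯ ≤ modularFunctionFieldFullC K M := by
    rw [IntermediateField.adjoin_simple_le_iff]
    exact hxF
  rw [IntermediateField.relfinrank_eq_finrank_of_le hxle] at hn
  set L := K⟮x⟯ with hL
  set F' := IntermediateField.extendScalars hxle with hF'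
  haveI : Module.Free L F' := Module.Free.of_divisionRing _ _
  haveI : Module.Finite L F' := Module.finite_of_finrank_pos (by rw [hn]; exact hn0)
  haveI : Algebra.IsAlgebraic L F' := Algebra.IsAlgebraic.of_finite L F'
  have hF'eq : F' = IntermediateField.adjoin L (divExp K M) := by
    apply le_antisymm
    · have h1 : modularFunctionFieldFullC K M ≤
          (IntermediateField.adjoin L (divExp K M)).restrictScalars K := by
        rw [modularFunctionFieldFullC, IntermediateField.adjoin_le_iff]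
        intro y hy
        exact IntermediateField.subset_adjoin L _ hy
      intro y hy
      exact h1 hy
    · rw [IntermediateField.adjoin_le_iff]
      intro y hy
      exact IntermediateField.subset_adjoin K _ hy
  have halg : ∀ y ∈ divExp K M, IsAlgebraic L y := by
    intro y hy
    have hyF : y ∈ F' := IntermediateField.subset_adjoin K _ hy
    have : IsAlgebraic L (⟨y, hyF⟩ : F') := Algebra.IsAlgebraic.isAlgebraic _
    exact (IntermediateField.isAlgebraic_iff (S := F')).mp this
  have hspan : Subalgebra.toSubmodule F'.toSubalgebra =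
      Submodule.span L ((monoS K M : Submonoid (LaurentSeries K)) : Set (LaurentSeries K)) := by
    rw [hF'eq, IntermediateField.adjoin_toSubalgebra_of_isAlgebraic halg, Algebra.adjoin_eq_span]
    rfl
  have hfr : Module.finrank L
      (Submodule.span L ((monoS K M : Submonoid (LaurentSeries K)) : Set (LaurentSeries K))) = n := by
    rw [← hspan]
    exact hn
  haveI : Module.Free L
      (Submodule.span L ((monoS K M : Submonoid (LaurentSeries K)) : Set (LaurentSeries K))) :=
    Module.Free.of_divisionRing _ _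
  haveI : Module.Finite L
      (Submodule.span L ((monoS K M : Submonoid (LaurentSeries K)) : Set (LaurentSeries K))) :=
    Module.finite_of_finrank_pos (by rw [hfr]; exact hn0)
  obtain ⟨f, hf, -, hli⟩ := Submodule.exists_fun_fin_finrank_span_eq L
    ((monoS K M : Submonoid (LaurentSeries K)) : Set (LaurentSeries K))
  choose b hbmem hb using fun i => exists_mem_monoS_coeffMap (Int.castRingHom K) M (hf i)
  refine ⟨b ∘ Fin.cast hfr.symm, fun i => hbmem _, ?_⟩
  have h2 : (fun i => castS K ((b ∘ Fin.cast hfr.symm) i)) = f ∘ Fin.cast hfr.symm := by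
    funext i
    exact hb _
  rw [h2]
  exact hli.comp _ (Fin.cast_injective _)

/-- (T4) -/
theorem hasPack_tower (M : ℕ) [NeZero M] (nM n' : ℕ) (j x : FN M) (P : Kb[X]) (hP : P.Monic)
    (hD : 2 ≤ P.natDegree) (hid : aeval x P = j * x)
    (hn' : Module.finrank Kb⟮x⟯ (FN M) = n') (hmul : nM = P.natDegree * n')
    (c' : Kb) (hc' : c' ≠ 0) (c : Kb) (hc : P.eval c' = c * c') (E0 : ℕ) (hE0 : 0 < E0)
    (H : Kb[X]) (hH : P - C c * X = (X - C c') ^ E0 * H) (hH0 : H.eval c' ≠ 0)
    (σ : Fin nM → FN M →ₐ[Kb] LaurentSeries ℂ) (hinj : Function.Injective σ)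
    (hj : ∀ a b, σ a j = σ b j)
    (hord : ∀ a, (σ a (j - algebraMap Kb (FN M) c)).order = E0) : HasPack M n' x c' :=
  hasPack_tower' M nM n' j x P hP hD hid hn' hmul c' hc' c hc E0 hE0 H hH hH0 σ hinj hj hord

end Fermat.Agent.Crux.GM
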