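import Fermat.Agent.Crux.GM.Trunc
import Fermat.Agent.Crux.GT.QExp

/-!
# Crux / GM : the numerical halves of `sturm2`, `sturm3`, in Laurent series form
-/

set_option autoImplicit false

open ModularCurve

namespace Fermat.Agent.Crux.GM

open Fermat.Agent.S28 Fermat.Agent.Crux.GM.Trunc

theorem deltaC_eq_ofPowerSeries : deltaC ℤ = HahnSeries.ofPowerSeries ℤ ℤ DP := by
  rw [deltaC, DP, map_mul, HahnSeries.ofPowerSeries_X, Int.castRingHom_int, PowerSeries.map_id]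
  rfl

theorem V_ofPowerSeries (d : ℕ) [NeZero d] (f : PowerSeries ℤ) :
    V ℤ d (HahnSeries.ofPowerSeries ℤ ℤ f)
      = HahnSeries.ofPowerSeries ℤ ℤ (PowerSeries.expand d (NeZero.ne d) f) :=
  Fermat.Agent.Crux.GT.qExpand_ofPowerSeries ℤ d f

/-- the coefficients `0..9` of `sturm2`. -/
theorem sturm2_coeff (m : ℕ) (hm : m ≤ 9) :
    ((V ℤ 2 (HahnSeries.ofPowerSeries ℤ ℤ eisenstein4)) ^ 3 * deltaC ℤ * V ℤ 2 (deltaC ℤ) -
      (deltaC ℤ + 16 * V ℤ 2 (deltaC ℤ)) ^ 3).coeff (m : ℤ) = 0 := by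
  have h := trunc2D m (by omega)
  have hL : (V ℤ 2 (HahnSeries.ofPowerSeries ℤ ℤ eisenstein4)) ^ 3 * deltaC ℤ * V ℤ 2 (deltaC ℤ)
      = HahnSeries.ofPowerSeries ℤ ℤ ((PowerSeries.expand 2 two_ne_zero eisenstein4) ^ 3 * DP *
        PowerSeries.expand 2 two_ne_zero DP) := by
    rw [map_mul, map_mul, map_pow, deltaC_eq_ofPowerSeries, V_ofPowerSeries, V_ofPowerSeries]
  have hR : (deltaC ℤ + 16 * V ℤ 2 (deltaC ℤ)) ^ 3
      = HahnSeries.ofPowerSeries ℤ ℤ ((DP + 16 * PowerSeries.expand 2 two_ne_zero DP) ^ 3) := by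
    rw [map_pow, map_add, map_mul, map_ofNat, deltaC_eq_ofPowerSeries, V_ofPowerSeries]
  rw [hL, hR, HahnSeries.coeff_sub, HahnSeries.ofPowerSeries_apply_coeff,
    HahnSeries.ofPowerSeries_apply_coeff, h, sub_self]

/-- the coefficients `0..16` of `sturm3`. -/
theorem sturm3_coeff (m : ℕ) (hm : m ≤ 16) :
    (((deltaC ℤ) ^ 2 + 270 * deltaC ℤ * V ℤ 3 (deltaC ℤ) + 729 * (V ℤ 3 (deltaC ℤ)) ^ 2) ^ 2 -
      deltaC ℤ * V ℤ 3 (deltaC ℤ) *
        (36 * deltaC ℤ + 756 * V ℤ 3 (deltaC ℤ) -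
          (V ℤ 3 (HahnSeries.ofPowerSeries ℤ ℤ eisenstein4)) ^ 3) ^ 2).coeff (m : ℤ) = 0 := by
  have h := trunc3D m (by omega)
  have hL : ((deltaC ℤ) ^ 2 + 270 * deltaC ℤ * V ℤ 3 (deltaC ℤ) + 729 * (V ℤ 3 (deltaC ℤ)) ^ 2) ^ 2
      = HahnSeries.ofPowerSeries ℤ ℤ ((DP ^ 2 + 270 * (DP * PowerSeries.expand 3 three_ne_zero DP) +
        729 * (PowerSeries.expand 3 three_ne_zero DP) ^ 2) ^ 2) := by
    rw [map_pow, map_add, map_add, map_mul, map_mul, map_mul, map_pow, map_pow, map_ofNat,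
      map_ofNat, deltaC_eq_ofPowerSeries, V_ofPowerSeries, mul_assoc]
  have hR : deltaC ℤ * V ℤ 3 (deltaC ℤ) *
        (36 * deltaC ℤ + 756 * V ℤ 3 (deltaC ℤ) -
          (V ℤ 3 (HahnSeries.ofPowerSeries ℤ ℤ eisenstein4)) ^ 3) ^ 2
      = HahnSeries.ofPowerSeries ℤ ℤ (DP * PowerSeries.expand 3 three_ne_zero DP *
        (36 * DP + 756 * PowerSeries.expand 3 three_ne_zero DP -
          (PowerSeries.expand 3 three_ne_zero eisenstein4) ^ 3) ^ 2) := by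
    rw [map_mul, map_mul, map_pow, map_sub, map_add, map_mul, map_mul, map_pow, map_ofNat,
      map_ofNat, deltaC_eq_ofPowerSeries, V_ofPowerSeries, V_ofPowerSeries]
  rw [hL, hR, HahnSeries.coeff_sub, HahnSeries.ofPowerSeries_apply_coeff,
    HahnSeries.ofPowerSeries_apply_coeff, h, sub_self]

end Fermat.Agent.Crux.GM
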